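import Fermat.Agent.ClassField.GW.Artin.Perm

/-!
# The invariant `qHom` of a group of order prime to `p`

Owner: helper41.
-/

set_option autoImplicit false

noncomputable section

namespace Fermat.Agent.ClassField.GW

open S55

section General

variable {p : ℕ} {H : Type} [Group H] {M : Type} [AddCommGroup M] [DistribMulAction H M]

/-- functoriality of `Hom_H(M, ·)` on sizes -/
theorem dlog_homG_congr {V W : Type*} [AddCommGroup V] [DistribMulAction H V] [AddCommGroup W]
    [DistribMulAction H W] (e : V →+[H] W) (he : Function.Bijective e) :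
    dlog p (homG H M V) = dlog p (homG H M W) := by
  unfold dlog
  have hinv : ∀ (g : H) w, Function.surjInv he.2 (g • w) = g • Function.surjInv he.2 w := fun g w =>
    he.1 (by rw [map_smul, Function.surjInv_eq he.2, Function.surjInv_eq he.2])
  let e' : W →+[H] V :=
    { toFun := Function.surjInv he.2
      map_smul' := hinv
      map_zero' := he.1 (by rw [Function.surjInv_eq he.2, map_zero])
      map_add' := fun x y => he.1 (by simp [Function.surjInv_eq he.2]) }
  refine congrArg (fun n : ℕ => ((n.factorization p : ℕ) : ℤ)) ?_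
  exact Nat.card_congr
    { toFun := fixMap (CHom.post (R := M) e)
      invFun := fixMap (CHom.post (R := M) e')
      left_inv := fun f => Subtype.ext (CHom.ext' fun m => he.1 (Function.surjInv_eq he.2 _))
      right_inv := fun f => Subtype.ext (CHom.ext' fun m => Function.surjInv_eq he.2 _) }

variable (p) in
/-- the map induced on `X[p]` -/
def torMap {X Y : Type*} [AddCommGroup X] [DistribMulAction H X] [AddCommGroup Y]
    [DistribMulAction H Y] (i : X →+[H] Y) : pTor H p X →+[H] pTor H p Y where
  toFun x := ⟨i x.1, by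
    show p • i x.1 = 0
    rw [← map_nsmul, show p • x.1 = 0 from x.2, map_zero]⟩
  map_smul' g x := Subtype.ext (map_smul i g x.1)
  map_zero' := Subtype.ext (map_zero i)
  map_add' x y := Subtype.ext (map_add i x.1 y.1)

theorem finite_pTor {X : Type*} [AddCommGroup X] [DistribMulAction H X] (hX : PFinite p X) :
    Finite (pTor H p X) :=
  have := hX.tors
  Finite.of_injective (β := {x : X // p • x = 0}) (fun x => ⟨x.1, x.2⟩) fun a b h =>
    Subtype.ext (congrArg (fun z : {x : X // p • x = 0} => z.1) h)

/-- lifting homomorphisms between `p`-torsion groups -/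
theorem exists_lift_torsion [Fact p.Prime] {A B C : Type} [AddCommGroup A] [AddCommGroup B]
    [AddCommGroup C] (hA : ∀ a : A, p • a = 0) (hB : ∀ a : B, p • a = 0) (hC : ∀ a : C, p • a = 0)
    (j : B →+ C) (hj : Function.Surjective j) (f : A →+ C) : ∃ l : A →+ B, ∀ a, j (l a) = f a := by
  let iA : Module (ZMod p) A := AddCommGroup.zmodModule hA
  let iB : Module (ZMod p) B := AddCommGroup.zmodModule hB
  let iC : Module (ZMod p) C := AddCommGroup.zmodModule hC
  have key : ∀ (A B C : Type) [AddCommGroup A] [AddCommGroup B] [AddCommGroup C] [Module (ZMod p) A]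
      [Module (ZMod p) B] [Module (ZMod p) C] (j : B →+ C), Function.Surjective j → ∀ f : A →+ C,
      ∃ l : A →+ B, ∀ a, j (l a) = f a := by
    intro A B C _ _ _ _ _ _ j hj f
    obtain ⟨l, hl⟩ := Module.projective_lifting_property (j.toZModLinearMap p)
      (f.toZModLinearMap p) hj
    exact ⟨l.toAddMonoidHom, fun a => LinearMap.congr_fun hl a⟩
  exact key A B C j hj f

/-- the middle of an exact pair between finite groups is finite -/
theorem finite_of_exact {A B C : Type*} [AddCommGroup A] [AddCommGroup B] [AddCommGroup C]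
    [Finite A] [Finite C] (f : A →+ B) (g : B →+ C) (h : ∀ v, g v = 0 → ∃ w, f w = v) : Finite B := by
  have hk : Finite g.ker := by
    have : Finite f.range := Finite.of_surjective f.rangeRestrict f.rangeRestrict_surjective
    refine Finite.of_injective (β := f.range) (fun v => ⟨v.1, h v.1 v.2⟩) fun a b e =>
      Subtype.ext (congrArg (fun z : f.range => z.1) e)
  exact g.finite_iff_finite_ker_range.2 ⟨hk, inferInstance⟩

/-- one step of an exact sequence -/
theorem AddInv.val_exact_step (a : AddInv p H) {A B C : Type} [AddCommGroup A] [DistribMulAction H A]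
    [AddCommGroup B] [DistribMulAction H B] [AddCommGroup C] [DistribMulAction H C] [Finite A]
    (f : A →+[H] B) (g : B →+[H] C) (h : ∀ v, g v = 0 ↔ ∃ w, f w = v)
    (hA : ∀ x : A, p • x = 0) : a.val A = a.val (kerOf f) + a.val (kerOf g) := by
  let φ : A →+[H] kerOf g :=
    { toFun := fun x => ⟨f x, (h _).2 ⟨x, rfl⟩⟩
      map_smul' := fun c x => Subtype.ext (map_smul f c x)
      map_zero' := Subtype.ext (map_zero f)
      map_add' := fun x y => Subtype.ext (map_add f x y) }
  have hs : Function.Surjective φ := fun v => by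
    obtain ⟨w, hw⟩ := (h v.1).1 v.2
    exact ⟨w, Subtype.ext hw⟩
  rw [a.val_eq_ker_add φ hs hA]
  congr 1
  let e : kerOf φ →+[H] kerOf f :=
    { toFun := fun x => ⟨x.1, congrArg Subtype.val x.2⟩, map_smul' := fun g x => rfl,
      map_zero' := rfl, map_add' := fun x y => rfl }
  exact a.congr e ⟨fun x y h => Subtype.ext (congrArg (fun z : kerOf f => z.1) h),
    fun x => ⟨⟨x.1, Subtype.ext x.2⟩, rfl⟩⟩ fun x => Subtype.ext (hA _)

/-- the alternating sum along a six-term exact sequence vanishes -/
theorem AddInv.val_six (a : AddInv p H) {A B C D E F : Type} [AddCommGroup A]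
    [DistribMulAction H A] [AddCommGroup B] [DistribMulAction H B] [AddCommGroup C]
    [DistribMulAction H C] [AddCommGroup D] [DistribMulAction H D] [AddCommGroup E]
    [DistribMulAction H E] [AddCommGroup F] [DistribMulAction H F] [Finite A] [Finite B] [Finite C]
    [Finite D] [Finite E] (f₁ : A →+[H] B) (f₂ : B →+[H] C) (f₃ : C →+[H] D) (f₄ : D →+[H] E)
    (f₅ : E →+[H] F) (hi : Function.Injective f₁) (hs : Function.Surjective f₅)
    (h₁ : ∀ v, f₂ v = 0 ↔ ∃ w, f₁ w = v) (h₂ : ∀ v, f₃ v = 0 ↔ ∃ w, f₂ w = v)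
    (h₃ : ∀ v, f₄ v = 0 ↔ ∃ w, f₃ w = v) (h₄ : ∀ v, f₅ v = 0 ↔ ∃ w, f₄ w = v)
    (pA : ∀ x : A, p • x = 0) (pB : ∀ x : B, p • x = 0) (pC : ∀ x : C, p • x = 0)
    (pD : ∀ x : D, p • x = 0) (pE : ∀ x : E, p • x = 0) :
    a.val A - a.val B + a.val C - a.val D + a.val E - a.val F = 0 := by
  have : Subsingleton (kerOf f₁) := ⟨fun x y => Subtype.ext (hi (x.2.trans y.2.symm))⟩
  have q1 := a.val_subsingleton (V := kerOf f₁)
  have c1 := a.val_exact_step f₁ f₂ h₁ pA
  have c2 := a.val_exact_step f₂ f₃ h₂ pB
  have c3 := a.val_exact_step f₃ f₄ h₃ pC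
  have c4 := a.val_exact_step f₄ f₅ h₄ pD
  have c5 := a.val_eq_ker_add f₅ hs pE
  linarith

theorem nsmul_quot_pSub (p : ℕ) {T : Type*} [AddCommGroup T] (v : T ⧸ pSub p T) : p • v = 0 := by
  induction v using QuotientAddGroup.induction_on with
  | H y => exact (QuotientAddGroup.eq_zero_iff _).2 (mem_pSub.2 ⟨y, rfl⟩)

theorem pFinite_of_finite {X : Type*} [AddCommGroup X] [Finite X] : PFinite p X :=
  ⟨inferInstance, inferInstance⟩

end General

variable {p : ℕ} [Fact p.Prime] {H : Type} [Group H] [Finite H] (hH : ¬ p ∣ Nat.card H)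
variable {M : Type} [AddCommGroup M] [DistribMulAction H M] [Finite M] (hM : ∀ x : M, p • x = 0)
include hH hM

/-- `V ↦ log #Hom_H(M, V)` -/
def homLog : AddInv p H where
  val V := dlog p (homG H M V)
  add {V₁ V V₂} _ _ _ _ _ _ _ i j hV hi hj hex := by
    classical
    let _ := Fintype.ofFinite H
    have : Finite V₁ := Finite.of_injective i hi
    have : Finite V₂ := Finite.of_surjective j hj
    have fin : ∀ (T : Type) [AddCommGroup T] [Finite T], Finite (CHom M T) := fun T _ _ =>
      Finite.of_injective (fun f : CHom M T => (f : M → T)) fun f f' h => CHom.ext' (congrFun h)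
    have := fin V
    have := fin V₂
    let F : fixedSub H (CHom M V) →+ fixedSub H (CHom M V₂) := fixMap (CHom.post j)
    have hV₂ : ∀ v : V₂, p • v = 0 := fun v => by
      obtain ⟨x, rfl⟩ := hj v
      rw [← map_nsmul, hV, map_zero]
    have hF : Function.Surjective F := by
      intro f
      obtain ⟨l, hl⟩ := exists_lift_torsion (p := p) hM hV hV₂ (j : V →+ V₂) hj f.1.hom
      let l0 : CHom M V := ⟨l⟩
      have hl0 : CHom.post j l0 = f.1 := CHom.ext' hl
      let t : fixedSub H (CHom M V) := ⟨normSum H l0, fun g => smul_normSum g l0⟩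
      have ht : F t = Fintype.card H • f := Subtype.ext (by
        show CHom.post j (normSum H l0) = Fintype.card H • f.1
        rw [map_normSum, hl0, normSum_of_fixed f.2])
      refine mem_of_two (S := F.range) (p := p) (m := Fintype.card H)
        (by rwa [← Nat.card_eq_fintype_card]) ⟨t, ht⟩ ⟨0, ?_⟩
      rw [map_zero]
      exact (Subtype.ext (CHom.ext' fun m => by
        show (p • f.1) m = 0
        rw [CHom.nsmul_apply, hV₂]) : p • f = 0).symm
    have hk : Nat.card F.ker = Nat.card (homG H M V₁) := by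
      refine (Nat.card_congr (Equiv.ofBijective
        (fun f : homG H M V₁ => (⟨fixMap (CHom.post i) f, Subtype.ext (CHom.ext' fun m =>
          (hex _).2 ⟨f.1 m, rfl⟩)⟩ : F.ker)) ⟨fun f f' h => Subtype.ext (CHom.ext' fun m => hi ?_),
            fun f => ?_⟩)).symm
      · exact congrArg (fun u : F.ker => (u.1.1 : CHom M V) m) h
      · have hf : ∀ m, ∃ w, i w = (f.1.1 : CHom M V) m := fun m => (hex _).1
          (congrArg (fun u : fixedSub H (CHom M V₂) => (u.1 : CHom M V₂) m) f.2)
        choose w hw using hf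
        refine ⟨⟨⟨AddMonoidHom.mk' w fun a b => hi (by rw [map_add, hw, hw, hw, map_add])⟩, ?_⟩,
          Subtype.ext (Subtype.ext (CHom.ext' hw))⟩
        exact (CHom.fixed_iff _).2 fun g m => hi (by
          show i (w (g • m)) = i (g • w m)
          rw [hw, (CHom.fixed_iff f.1.1).1 f.1.2, map_smul, hw])
    have hcard : Nat.card (homG H M V) = Nat.card (homG H M V₂) * Nat.card (homG H M V₁) := by
      rw [← hk, AddSubgroup.card_eq_card_quotient_mul_card_addSubgroup F.ker,
        Nat.card_congr (QuotientAddGroup.quotientKerEquivOfSurjective F hF).toEquiv]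
    rw [dlog, dlog, dlog, hcard, Nat.factorization_mul Nat.card_pos.ne' Nat.card_pos.ne']
    simp only [Finsupp.coe_add, Pi.add_apply]
    push_cast
    ring

theorem homLog_val (V : Type) [AddCommGroup V] [DistribMulAction H V] :
    (homLog hH hM).val V = dlog p (homG H M V) := rfl

theorem qHom_congr {X Y : Type} [AddCommGroup X] [DistribMulAction H X] [AddCommGroup Y]
    [DistribMulAction H Y] (e : X →+[H] Y) (he : Function.Bijective e) :
    qHom H p M X = qHom H p M Y := by
  rw [qHom, qHom, dlog_homG_congr (modMap (p := p) e) ⟨?_, ?_⟩,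
    dlog_homG_congr (torMap p e) ⟨?_, ?_⟩]
  · exact fun a b h => Subtype.ext (he.1 (congrArg Subtype.val h))
  · intro y
    obtain ⟨x, hx⟩ := he.2 y.1
    exact ⟨⟨x, he.1 (by
      show e (p • x) = e 0
      rw [map_nsmul, hx, map_zero]
      exact y.2)⟩, Subtype.ext hx⟩
  · refine (injective_iff_map_eq_zero (modMap (p := p) e)).2 fun x hx => ?_
    induction x using QuotientAddGroup.induction_on with
    | H a =>
      obtain ⟨b, hb⟩ := mem_pSub.1 ((QuotientAddGroup.eq_zero_iff _).1 hx)
      obtain ⟨c, rfl⟩ := he.2 b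
      exact (QuotientAddGroup.eq_zero_iff _).2 (mem_pSub.2 ⟨c, he.1 (by rw [map_nsmul]; exact hb)⟩)
  · intro y
    induction y using QuotientAddGroup.induction_on with
    | H b =>
      obtain ⟨c, rfl⟩ := he.2 b
      exact ⟨QuotientAddGroup.mk c, rfl⟩

theorem qHom_add {X Y Z : Type} [AddCommGroup X] [DistribMulAction H X] [AddCommGroup Y]
    [DistribMulAction H Y] [AddCommGroup Z] [DistribMulAction H Z] (hXf : PFinite p X)
    (hZf : PFinite p Z) (i : X →+[H] Y) (j : Y →+[H] Z) (hi : Function.Injective i)
    (hj : Function.Surjective j) (hex : ∀ y, j y = 0 ↔ ∃ x, i x = y) :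
    PFinite p Y ∧ qHom H p M Y = qHom H p M X + qHom H p M Z := by
  have := hXf.quot
  have := hZf.quot
  have := finite_pTor (H := H) hXf
  have := finite_pTor (H := H) hZf
  let f1 := torMap p i
  let f2 := torMap p j
  let f3 := modMap (p := p) i
  let f4 := modMap (p := p) j
  have hji : ∀ x, j (i x) = 0 := fun x => (hex _).2 ⟨x, rfl⟩
  have hd0 : ∀ z : pTor H p Z, ∃ x : X, i x = p • Function.surjInv hj z.1 := fun z =>
    (hex _).1 (by rw [map_nsmul, Function.surjInv_eq hj]; exact z.2)
  choose u hu using hd0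
  have huv : ∀ (z : pTor H p Z) (y : Y) (x : X), j y = z.1 → i x = p • y →
      (QuotientAddGroup.mk (u z) : X ⧸ pSub p X) = QuotientAddGroup.mk x := fun z y x hy hx => by
    obtain ⟨w, hw⟩ := (hex (Function.surjInv hj z.1 - y)).1
      (by rw [map_sub, Function.surjInv_eq hj, hy, sub_self])
    refine (QuotientAddGroup.eq_iff_sub_mem).2 (mem_pSub.2 ⟨w, hi ?_⟩)
    rw [map_nsmul, hw, map_sub, hu, hx, nsmul_sub]
  let δ : pTor H p Z →+[H] X ⧸ pSub p X :=
    { toFun := fun z => QuotientAddGroup.mk (u z)
      map_smul' := fun g z => huv (g • z) (g • Function.surjInv hj z.1) (g • u z)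
        (by rw [map_smul, Function.surjInv_eq hj]; rfl) (by rw [map_smul, hu]; exact smul_comm g p _)
      map_zero' := huv 0 0 0 (map_zero j) (by rw [map_zero, smul_zero])
      map_add' := fun z z' => huv (z + z') (Function.surjInv hj z.1 + Function.surjInv hj z'.1)
        (u z + u z') (by rw [map_add, Function.surjInv_eq hj, Function.surjInv_eq hj]; rfl)
        (by rw [map_add, hu, hu, nsmul_add]) }
  have e34 : ∀ v, f4 v = 0 ↔ ∃ w, f3 w = v := by
    intro v
    induction v using QuotientAddGroup.induction_on with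
    | H y =>
      constructor
      · intro h
        obtain ⟨z, hz⟩ := mem_pSub.1 ((QuotientAddGroup.eq_zero_iff _).1 h)
        obtain ⟨y', rfl⟩ := hj z
        obtain ⟨x, hx⟩ := (hex (y - p • y')).1 (by
          rw [map_sub, map_nsmul, hz]
          exact sub_self _)
        refine ⟨QuotientAddGroup.mk x, (QuotientAddGroup.eq_iff_sub_mem).2 (mem_pSub.2 ⟨-y', ?_⟩)⟩
        show p • -y' = i x - y
        rw [hx, smul_neg]
        abel
      · rintro ⟨w, hw⟩
        rw [← hw]
        induction w using QuotientAddGroup.induction_on with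
        | H x => exact congrArg QuotientAddGroup.mk (hji x)
  have s4 : Function.Surjective f4 := fun v => by
    induction v using QuotientAddGroup.induction_on with
    | H z =>
      obtain ⟨y, rfl⟩ := hj z
      exact ⟨QuotientAddGroup.mk y, rfl⟩
  have e23 : ∀ v, f3 v = 0 ↔ ∃ w, δ w = v := by
    intro v
    induction v using QuotientAddGroup.induction_on with
    | H x =>
      constructor
      · intro h
        obtain ⟨y, hy⟩ := mem_pSub.1 ((QuotientAddGroup.eq_zero_iff _).1 h)
        refine ⟨⟨j y, ?_⟩, huv _ y x rfl hy.symm⟩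
        show p • j y = 0
        rw [← map_nsmul, hy]
        exact hji x
      · rintro ⟨z, hz⟩
        rw [← hz]
        exact (QuotientAddGroup.eq_zero_iff _).2 (mem_pSub.2 ⟨_, (hu z).symm⟩)
  have e12 : ∀ v, δ v = 0 ↔ ∃ w, f2 w = v := by
    intro z
    constructor
    · intro h
      obtain ⟨x, hx⟩ := mem_pSub.1 ((QuotientAddGroup.eq_zero_iff _).1 h)
      refine ⟨⟨Function.surjInv hj z.1 - i x, ?_⟩, Subtype.ext ?_⟩
      · show p • (Function.surjInv hj z.1 - i x) = 0
        rw [nsmul_sub, ← map_nsmul, hx, hu, sub_self]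
      · show j (Function.surjInv hj z.1 - i x) = z.1
        rw [map_sub, Function.surjInv_eq hj, hji, sub_zero]
    · rintro ⟨y, rfl⟩
      exact huv _ y.1 0 rfl (by rw [map_zero]; exact y.2.symm)
  have e01 : ∀ v, f2 v = 0 ↔ ∃ w, f1 w = v := by
    intro y
    constructor
    · intro h
      obtain ⟨x, hx⟩ := (hex y.1).1 (congrArg Subtype.val h)
      exact ⟨⟨x, hi (by
        show i (p • x) = i 0
        rw [map_nsmul, hx, map_zero]
        exact y.2)⟩, Subtype.ext hx⟩
    · rintro ⟨x, rfl⟩
      exact Subtype.ext (hji x.1)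
  have i1 : Function.Injective f1 := fun a b h =>
    Subtype.ext (hi (congrArg (fun v : pTor H p Y => v.1) h))
  have hTY : Finite (pTor H p Y) := finite_of_exact (f1 : pTor H p X →+ pTor H p Y)
    (f2 : pTor H p Y →+ pTor H p Z) fun v => (e01 v).1
  have hQY : Finite (Y ⧸ pSub p Y) := finite_of_exact (f3 : X ⧸ pSub p X →+ Y ⧸ pSub p Y)
    (f4 : Y ⧸ pSub p Y →+ Z ⧸ pSub p Z) fun v => (e34 v).1
  refine ⟨⟨hQY, Finite.of_injective (β := pTor H p Y) (fun y => ⟨y.1, y.2⟩) fun a b h =>
    Subtype.ext (congrArg (fun z : pTor H p Y => z.1) h)⟩, ?_⟩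
  -- counting
  have h := (homLog hH hM).val_six f1 f2 δ f3 f4 i1 s4 e01 e12 e23 e34
    (fun v => Subtype.ext v.2) (fun v => Subtype.ext v.2) (fun v => Subtype.ext v.2)
    (nsmul_quot_pSub p) (nsmul_quot_pSub p)
  simp only [homLog_val] at h
  rw [qHom, qHom, qHom]
  linarith

theorem qHom_of_bijective_pMul {X : Type*} [AddCommGroup X] [DistribMulAction H X]
    (hX : Function.Bijective (fun x : X => p • x)) : qHom H p M X = 0 := by
  have h1 : Subsingleton (X ⧸ pSub p X) := ⟨fun a b => by
    induction a using QuotientAddGroup.induction_on with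
    | H x =>
      induction b using QuotientAddGroup.induction_on with
      | H y =>
        obtain ⟨z, hz⟩ := hX.2 (x - y)
        exact (QuotientAddGroup.eq_iff_sub_mem).2 (mem_pSub.2 ⟨z, hz⟩)⟩
  have h2 : Subsingleton (pTor H p X) :=
    ⟨fun a b => Subtype.ext (hX.1 ((a.2 : p • a.1 = 0).trans (b.2 : p • b.1 = 0).symm))⟩
  have e : ∀ (V : Type _) [AddCommGroup V] [DistribMulAction H V] [Subsingleton V],
      dlog p (homG H M V) = 0 := fun V _ _ _ => by
    have : Subsingleton (homG H M V) :=
      ⟨fun a b => Subtype.ext (CHom.ext' fun m => Subsingleton.elim _ _)⟩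
    rw [dlog, Nat.card_of_subsingleton (0 : homG H M V)]
    simp
  have t1 := e (X ⧸ pSub p X)
  have t2 := e (pTor H p X)
  rw [qHom, t1, t2, sub_self]

theorem qHom_of_finite {X : Type} [AddCommGroup X] [DistribMulAction H X] [Finite X] :
    qHom H p M X = 0 := by
  induction hn : Nat.card X using Nat.strong_induction_on generalizing X with
  | _ n ih =>
    by_cases hinj : Function.Injective (fun x : X => p • x)
    · exact qHom_of_bijective_pMul hH hM ⟨hinj, Finite.surjective_of_injective hinj⟩
    by_cases hall : ∀ x : X, p • x = 0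
    · let red : X →+[H] X ⧸ pSub p X := pRed H p
      have hr : Function.Bijective red := by
        refine ⟨(injective_iff_map_eq_zero red).2 fun x hx => ?_, QuotientAddGroup.mk_surjective⟩
        obtain ⟨y, hy⟩ := mem_pSub.1 ((QuotientAddGroup.eq_zero_iff _).1 hx)
        rw [← hy, hall]
      let inc : pTor H p X →+[H] X := kerIncl _
      have hi : Function.Bijective inc := ⟨Subtype.val_injective, fun x => ⟨⟨x, hall x⟩, rfl⟩⟩
      rw [qHom, ← dlog_homG_congr red hr, dlog_homG_congr inc hi, sub_self]
    · let f : X →+[H] X := pMul H p X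
      let K := kerOf f
      let I : AddSubgroup X := (f : X →+ X).range
      let _ : DistribMulAction H I :=
        { smul := fun g x => ⟨g • (x : X), by
            obtain ⟨y, hy⟩ := x.2
            exact ⟨g • y, by rw [← hy]; exact map_smul f g y⟩⟩
          one_smul := fun x => Subtype.ext (one_smul H (x : X))
          mul_smul := fun g h x => Subtype.ext (mul_smul g h (x : X))
          smul_zero := fun g => Subtype.ext (smul_zero g)
          smul_add := fun g x y => Subtype.ext (smul_add g (x : X) y) }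
      let fI : X →+[H] I :=
        { toFun := fun x => ⟨f x, x, rfl⟩
          map_smul' := fun g x => Subtype.ext (map_smul f g x)
          map_zero' := Subtype.ext (map_zero f)
          map_add' := fun x y => Subtype.ext (map_add f x y) }
      have hc : Nat.card X = Nat.card I * Nat.card K := by
        rw [AddSubgroup.card_eq_card_quotient_mul_card_addSubgroup (f : X →+ X).ker,
          Nat.card_congr (QuotientAddGroup.quotientKerEquivRange (f : X →+ X)).toEquiv]
        rfl
      have hK1 : 1 < Nat.card K := by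
        rw [Finite.one_lt_card_iff_nontrivial]
        simp only [Function.Injective, not_forall] at hinj
        obtain ⟨x, y, hxy, hne⟩ := hinj
        exact ⟨⟨x - y, by show p • (x - y) = 0; rw [nsmul_sub, hxy, sub_self]⟩, 0,
          fun h => hne (sub_eq_zero.1 (congrArg Subtype.val h))⟩
      have hI1 : 1 < Nat.card I := by
        rw [Finite.one_lt_card_iff_nontrivial]
        push Not at hall
        obtain ⟨x, hx⟩ := hall
        exact ⟨⟨f x, x, rfl⟩, 0, fun h => hx (congrArg Subtype.val h)⟩
      have h := (qHom_add hH hM (pFinite_of_finite) (pFinite_of_finite) (kerIncl f) fI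
        Subtype.val_injective (fun y => by
          obtain ⟨x, hx⟩ := y.2
          exact ⟨x, Subtype.ext hx⟩)
        fun y => ⟨fun h => ⟨⟨y, congrArg Subtype.val h⟩, rfl⟩, by
          rintro ⟨w, rfl⟩
          exact Subtype.ext w.2⟩).2
      rw [h, ih _ (by rw [← hn, hc]; exact lt_mul_of_one_lt_left Nat.card_pos hI1) (X := K) rfl,
        ih _ (by rw [← hn, hc]; exact lt_mul_of_one_lt_right Nat.card_pos hK1) (X := I) rfl, add_zero]

/-- A map with finite kernel and cokernel does not change `qHom`. -/
theorem qHom_of_isogeny {X Y : Type} [AddCommGroup X] [DistribMulAction H X] [AddCommGroup Y]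
    [DistribMulAction H Y] (hXf : PFinite p X) (f : X →+[H] Y) (hker : Finite (kerOf f))
    (hcoker : Finite (Y ⧸ (f : X →+ Y).range)) :
    PFinite p Y ∧ qHom H p M Y = qHom H p M X := by
  let I : AddSubgroup Y := (f : X →+ Y).range
  have hI : ∀ (g : H) (y : Y), y ∈ I → g • y ∈ I := by
    rintro g _ ⟨x, rfl⟩
    exact ⟨g • x, map_smul f g x⟩
  let _ : DistribMulAction H I :=
    { smul := fun g y => ⟨g • (y : Y), hI g y y.2⟩
      one_smul := fun x => Subtype.ext (one_smul H (x : Y))
      mul_smul := fun g h x => Subtype.ext (mul_smul g h (x : Y))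
      smul_zero := fun g => Subtype.ext (smul_zero g)
      smul_add := fun g x y => Subtype.ext (smul_add g (x : Y) y) }
  let _ : DistribMulAction H (Y ⧸ I) :=
    { smul := fun g => QuotientAddGroup.map I I (DistribSMul.toAddMonoidHom Y g) (hI g)
      one_smul := fun q => by
        induction q using QuotientAddGroup.induction_on with
        | H y => exact congrArg QuotientAddGroup.mk (one_smul H y)
      mul_smul := fun g h q => by
        induction q using QuotientAddGroup.induction_on with
        | H y => exact congrArg QuotientAddGroup.mk (mul_smul g h y)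
      smul_zero := fun g => congrArg QuotientAddGroup.mk (smul_zero g)
      smul_add := fun g q q' => map_add _ q q' }
  let fI : X →+[H] I :=
    { toFun := fun x => ⟨f x, x, rfl⟩
      map_smul' := fun g x => Subtype.ext (map_smul f g x)
      map_zero' := Subtype.ext (map_zero f)
      map_add' := fun x y => Subtype.ext (map_add f x y) }
  let inc : I →+[H] Y :=
    { toFun := fun y => (y : Y), map_smul' := fun g y => rfl, map_zero' := rfl,
      map_add' := fun a b => rfl }
  let mkI : Y →+[H] Y ⧸ I :=
    { toFun := fun y => QuotientAddGroup.mk y, map_smul' := fun g y => rfl, map_zero' := rfl,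
      map_add' := fun a b => rfl }
  have hK : PFinite p (kerOf f) := pFinite_of_finite
  have hfs : Function.Surjective fI := fun y => by
    obtain ⟨x, hx⟩ := y.2
    exact ⟨x, Subtype.ext hx⟩
  have hexI : ∀ y, fI y = 0 ↔ ∃ w, kerIncl f w = y := fun y =>
    ⟨fun h => ⟨⟨y, congrArg Subtype.val h⟩, rfl⟩, by
      rintro ⟨w, rfl⟩
      exact Subtype.ext w.2⟩
  have hIf : PFinite p I := by
    have := hXf.quot
    refine ⟨Finite.of_surjective (modMap (p := p) fI) fun v => ?_, ?_⟩
    · induction v using QuotientAddGroup.induction_on with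
      | H y =>
        obtain ⟨x, rfl⟩ := hfs y
        exact ⟨QuotientAddGroup.mk x, rfl⟩
    · -- `I[p]` is squeezed between `X[p]` and `(ker f)/p`
      have := finite_pTor (H := H) hXf
      let pre : pTor H p I → X := fun z => Function.surjInv hfs z.1
      have hpre : ∀ z, f (p • pre z) = 0 := fun z => by
        have h0 : fI (p • pre z) = 0 := by
          rw [map_nsmul, Function.surjInv_eq hfs]
          exact z.2
        exact congrArg Subtype.val h0
      let wOf : pTor H p I → kerOf f := fun z => ⟨p • pre z, hpre z⟩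
      let c : pTor H p I → pTor H p I := fun z =>
        haveI : Nonempty (pTor H p I) := ⟨0⟩
        Function.invFun wOf (wOf z)
      have hc : ∀ z, wOf (c z) = wOf z := fun z =>
        haveI : Nonempty (pTor H p I) := ⟨0⟩
        Function.invFun_eq ⟨z, rfl⟩
      have hsub : ∀ z, p • (pre z - pre (c z)) = 0 := fun z => by
        rw [nsmul_sub, sub_eq_zero]
        exact (congrArg (fun w : kerOf f => w.1) (hc z)).symm
      have : Finite (pTor H p I) := by
        refine Finite.of_injective
          (fun z => (wOf z, (⟨pre z - pre (c z), hsub z⟩ : pTor H p X))) fun z z' h => ?_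
        obtain ⟨h1, h2⟩ := Prod.mk.inj h
        have h3 : c z = c z' := by simp only [c, h1]
        have h4 : pre z - pre (c z) = pre z' - pre (c z') := congrArg Subtype.val h2
        rw [h3, sub_left_inj] at h4
        refine Subtype.ext ?_
        rw [← Function.surjInv_eq hfs z.1, ← Function.surjInv_eq hfs z'.1]
        exact congrArg fI h4
      exact Finite.of_injective (β := pTor H p I) (fun y => ⟨y.1, y.2⟩) fun a b h =>
        Subtype.ext (congrArg (fun z : pTor H p I => z.1) h)
  have h1 := qHom_add hH hM hK hIf (kerIncl f) fI Subtype.val_injective hfs hexI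
  have h2 := qHom_add hH hM hIf (pFinite_of_finite (X := Y ⧸ I)) inc mkI Subtype.val_injective
    QuotientAddGroup.mk_surjective fun y =>
      ⟨fun h => ⟨⟨y, (QuotientAddGroup.eq_zero_iff _).1 h⟩, rfl⟩, by
        rintro ⟨w, rfl⟩
        exact (QuotientAddGroup.eq_zero_iff _).2 w.2⟩
  refine ⟨h2.1, ?_⟩
  rw [h2.2, h1.2, qHom_of_finite hH hM (X := kerOf f), qHom_of_finite hH hM (X := Y ⧸ I)]
  ring

/-- For a group of order prime to `p` the Euler characteristic is `qHom`. -/
theorem euler_eq_qHom {X : Type*} [AddCommGroup X] [DistribMulAction H X]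
    {A : Type*} [AddCommGroup A] [DistribMulAction H A] {π : A →+[H] M} (hπ : IsPresentation π) :
    euler p π X = qHom H p M X := by
  classical
  let _ := Fintype.ofFinite H
  have := hπ.free
  have := hπ.finite
  have hnd : ¬ p ∣ Fintype.card H := by rwa [← Nat.card_eq_fintype_card]
  -- `Hom_H(M, X[p]) = Hom_H(M, X)`
  have e0 : dlog p (homG H M (pTor H p X)) = dlog p (homG H M X) := by
    unfold dlog
    refine congrArg (fun n : ℕ => ((n.factorization p : ℕ) : ℤ)) ?_
    exact Nat.card_congr
      { toFun := fixMap (CHom.post (R := M) (kerIncl (pMul H p X)))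
        invFun := fun f => ⟨⟨f.1.hom.codRestrict _ fun m => by
            show p • f.1 m = 0
            rw [← map_nsmul, hM, map_zero]⟩,
          (CHom.fixed_iff _).2 fun g m => Subtype.ext ((CHom.fixed_iff f.1).1 f.2 g m)⟩
        left_inv := fun f => rfl
        right_inv := fun f => rfl }
  have hsq : ∀ x : A, p • x ∈ kerOf π := fun x => by rw [mem_kerOf, map_nsmul, hM]
  let pA : A →+ kerOf π :=
    AddMonoidHom.mk' (fun x => ⟨p • x, hsq x⟩) fun x y => Subtype.ext (nsmul_add x y p)
  have hpA : ∀ r : kerOf π, pA r.1 = p • r := fun r => Subtype.ext rfl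
  have hpg : ∀ (g : H) x, pA (g • x) = g • pA x := fun g x => Subtype.ext (smul_comm p g x)
  have hlift : ∀ (f : CHom (kerOf π) X) x y, π x = π y →
      (pRed H p (f (pA x)) : X ⧸ pSub p X) = pRed H p (f (pA y)) := fun f x y e => by
    rw [← sub_eq_zero, ← map_sub, ← map_sub, ← map_sub,
      hpA ⟨x - y, by rw [mem_kerOf, map_sub, e, sub_self]⟩, map_nsmul]
    exact (QuotientAddGroup.eq_zero_iff _).2 (mem_pSub.2 ⟨_, rfl⟩)
  have hs := Function.surjInv_eq hπ.surj
  let Θ : fixedSub H (CHom (kerOf π) X) →+ fixedSub H (CHom M (X ⧸ pSub p X)) :=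
    AddMonoidHom.mk' (fun f => ⟨⟨AddMonoidHom.mk'
      (fun n => pRed H p (f.1 (pA (Function.surjInv hπ.surj n))))
      fun a b => by
        rw [← map_add (pRed H p), ← map_add, ← map_add]
        exact hlift f.1 _ _ (by rw [map_add, hs, hs, hs])⟩, by
      refine (CHom.fixed_iff _).2 fun g n => ?_
      show pRed H p (f.1 (pA _)) = g • pRed H p (f.1 (pA _))
      rw [← map_smul, ← (CHom.fixed_iff f.1).1 f.2, ← hpg]
      exact hlift f.1 _ _ (by rw [map_smul, hs, hs])⟩)
      fun f f' => Subtype.ext (CHom.ext' fun n => map_add (pRed H p) _ _)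
  have hΘ : ∀ (f : fixedSub H (CHom (kerOf π) X)) x, (Θ f).1 (π x) = pRed H p (f.1 (pA x)) :=
    fun f x => hlift f.1 _ _ (hs _)
  -- a projection of `A/pA` onto the reduction of the kernel, lifted to `A`
  obtain ⟨P, hP⟩ : ∃ P : A →+ kerOf π, ∀ r : kerOf π, ∃ a, p • a = r.1 - (P r.1).1 := by
    let AQ := A ⧸ pSub p A
    let _ : Module (ZMod p) AQ := AddCommGroup.zmodModule fun v => by
      induction v using QuotientAddGroup.induction_on with
      | H y => exact (QuotientAddGroup.eq_zero_iff _).2 (mem_pSub.2 ⟨y, rfl⟩)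
    let T : kerOf π →+ AQ := (QuotientAddGroup.mk' (pSub p A)).comp (kerOf π).subtype
    obtain ⟨pr, hpr⟩ := exists_projection (p := p) T.range
    obtain ⟨P, hP⟩ := Module.projective_lifting_property T.rangeRestrict.toIntLinearMap
      (pr.comp (QuotientAddGroup.mk' (pSub p A))).toIntLinearMap T.rangeRestrict_surjective
    refine ⟨P.toAddMonoidHom, fun r => mem_pSub.1 ?_⟩
    have e : T (P r.1) = (pr (QuotientAddGroup.mk r.1 : AQ)).1 :=
      congrArg Subtype.val (LinearMap.congr_fun hP r.1)
    rw [hpr (QuotientAddGroup.mk r.1 : AQ) ⟨r, rfl⟩] at e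
    exact (QuotientAddGroup.eq_iff_sub_mem).1 e.symm
  choose Q hQ using hP
  have htf : Function.Injective (fun x : A => p • x) := fun x y h => by
    have e' : (p : ℤ) • x = (p : ℤ) • y := by rw [natCast_zsmul, natCast_zsmul]; exact h
    exact smul_right_injective A (show (p : ℤ) ≠ 0 by
      exact_mod_cast (Fact.out : p.Prime).ne_zero) e'
  let Qh : kerOf π →+ A := AddMonoidHom.mk' Q fun a b => htf (by
    show p • Q (a + b) = p • (Q a + Q b)
    rw [nsmul_add, hQ, hQ, hQ, AddSubgroup.coe_add, map_add, AddSubgroup.coe_add]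
    abel)
  have hQp : ∀ x, Qh (pA x) = x - (P x).1 := fun x => htf (by
    show p • Q (pA x) = p • (x - (P x).1)
    rw [hQ, nsmul_sub]
    show p • x - (P (p • x)).1 = _
    rw [map_nsmul]
    rfl)
  have hrange : Θ.range = ⊤ := by
    rw [AddSubgroup.eq_top_iff']
    intro ψ
    obtain ⟨h0, hh0⟩ := Module.projective_lifting_property
      (pRed H (A := X) p : X →+ X ⧸ pSub p X).toIntLinearMap
      (ψ.1.hom.comp (π : A →+ M)).toIntLinearMap
      QuotientAddGroup.mk_surjective
    have hh : ∀ x, pRed H p (h0 x) = ψ.1 (π x) := fun x => LinearMap.congr_fun hh0 x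
    obtain ⟨y, hy⟩ : ∃ y : A →ₗ[ℤ] X, ∀ x, p • y x = h0 (P x).1 := by
      let S := (nsmulAddMonoidHom (α := X) p).range
      have hmem : ∀ x, h0 (P x).1 ∈ S := fun x => by
        refine mem_pSub.2 (mem_pSub.1 ((QuotientAddGroup.eq_zero_iff _).1 ?_))
        show pRed H p (h0 (P x).1) = 0
        rw [hh, mem_kerOf.1 (P x).2, map_zero]
      obtain ⟨y, hy⟩ := Module.projective_lifting_property
        (nsmulAddMonoidHom (α := X) p).rangeRestrict.toIntLinearMap
        ((h0.toAddMonoidHom.comp ((kerOf π).subtype.comp P)).codRestrict S hmem).toIntLinearMap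
        (nsmulAddMonoidHom (α := X) p).rangeRestrict_surjective
      exact ⟨y, fun x => congrArg Subtype.val (LinearMap.congr_fun hy x)⟩
    let f : CHom (kerOf π) X :=
      ⟨h0.toAddMonoidHom.comp Qh + y.toAddMonoidHom.comp (kerOf π).subtype⟩
    have hf : ∀ x, f (pA x) = h0 x := fun x => by
      show h0 (Qh (pA x)) + y (p • x) = h0 x
      rw [hQp, map_sub, map_nsmul, hy]
      abel
    let F : fixedSub H (CHom (kerOf π) X) := ⟨normSum H f, fun g => smul_normSum g f⟩
    refine mem_of_two hnd ⟨F, Subtype.ext (CHom.ext' fun n => ?_)⟩ ⟨0, ?_⟩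
    · obtain ⟨x, rfl⟩ := hπ.surj n
      rw [hΘ, AddSubgroup.coe_nsmul, CHom.nsmul_apply]
      show pRed H p ((∑ g : H, g • f : CHom (kerOf π) X) (pA x)) = _
      rw [CHom.sum_apply, map_sum, Finset.sum_eq_card_nsmul (b := ψ.1 (π x)) fun g _ => ?_,
        Finset.card_univ]
      show pRed H p (g • f (g⁻¹ • pA x)) = _
      rw [← hpg, hf, map_smul, hh, map_smul, ← (CHom.fixed_iff ψ.1).1 ψ.2, smul_inv_smul]
    · rw [map_zero]
      refine (Subtype.ext (CHom.ext' fun n => ?_) : p • ψ = 0).symm
      show (p • ψ.1) n = 0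
      rw [CHom.nsmul_apply, ← map_nsmul, hM, map_zero]
  have hker : Θ.ker = (resMap π X).range := by
    ext f
    constructor
    · intro hf
      have hd : ∀ x, ∃ y, p • y = f.1 (pA x) := fun x =>
        mem_pSub.1 ((QuotientAddGroup.eq_zero_iff _).1 (by
          show pRed H p (f.1 (pA x)) = 0
          rw [← hΘ, AddMonoidHom.mem_ker.1 hf]
          rfl))
      obtain ⟨y, hy⟩ : ∃ y : A →ₗ[ℤ] X, ∀ x, p • y x = f.1 (pA x) := by
        obtain ⟨y, hy⟩ := Module.projective_lifting_property
          (nsmulAddMonoidHom (α := X) p).rangeRestrict.toIntLinearMap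
          ((f.1.hom.comp pA).codRestrict _ fun x => mem_pSub.2 (hd x)).toIntLinearMap
          (nsmulAddMonoidHom (α := X) p).rangeRestrict_surjective
        exact ⟨y, fun x => congrArg Subtype.val (LinearMap.congr_fun hy x)⟩
      let d : CHom (kerOf π) X := ⟨f.1.hom - y.toAddMonoidHom.comp (kerOf π).subtype⟩
      have hdA : ∀ x, d (pA x) = 0 := fun x => by
        show f.1 (pA x) - y (p • x) = 0
        rw [map_nsmul, hy, sub_self]
      let E : CHom A X := ⟨y.toAddMonoidHom + d.hom.comp P⟩
      have hE : ∀ r : kerOf π, E r.1 = f.1 r := fun r => by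
        have e : pA (Qh r) = r - P r.1 := Subtype.ext (hQ r)
        have e0 := hdA (Qh r)
        rw [e, map_sub, sub_eq_zero] at e0
        show y r.1 + d (P r.1) = f.1 r
        rw [← e0]
        show y r.1 + (f.1 r - y r.1) = f.1 r
        abel
      refine mem_of_two hnd ⟨⟨normSum H E, fun g => smul_normSum g E⟩, Subtype.ext ?_⟩
        (nsmul_mem_range_resMap π hM f)
      show CHom.pre (kerIncl π) (normSum H E) = Fintype.card H • f.1
      rw [map_normSum, show CHom.pre (kerIncl π) E = f.1 from CHom.ext' hE, normSum_of_fixed f.2]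
    · rintro ⟨a, rfl⟩
      refine Subtype.ext (CHom.ext' fun n => ?_)
      show pRed H p ((a.1 : CHom A X) (p • Function.surjInv hπ.surj n)) = 0
      rw [map_nsmul]
      exact (QuotientAddGroup.eq_zero_iff _).2 (mem_pSub.2 ⟨_, rfl⟩)
  rw [qHom, euler_eq_eulOf hπ.surj, eulOf, hv, Nat.card_congr (kerResEquiv π hπ.surj).symm, ← hker,
    AddSubgroup.index_ker, hrange, e0, dlog_eq_padicValNat, dlog_eq_padicValNat]
  simp

/-- `Hom_H(M, 𝔽_p)` has the size of the invariants. -/
theorem qHom_int {X : Type} [AddCommGroup X] [DistribMulAction H X]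
    (hX : ∀ (h : H) (x : X), h • x = x) (e : X ≃+ ℤ) : qHom H p M X = dlog p (fixedSub H M) := by
  classical
  let _ := Fintype.ofFinite H
  have hp0 : (p : ℤ) ≠ 0 := by exact_mod_cast (Fact.out : p.Prime).ne_zero
  have : Subsingleton (pTor H p X) := ⟨fun a b => Subtype.ext (e.injective (by
    have h1 : (p : ℤ) * e a.1 = (p : ℤ) * e b.1 := by
      rw [← nsmul_eq_mul, ← nsmul_eq_mul, ← map_nsmul, ← map_nsmul,
        show p • a.1 = 0 from a.2, show p • b.1 = 0 from b.2]
    exact mul_left_cancel₀ hp0 h1))⟩
  have t0 : dlog p (homG H M (pTor H p X)) = 0 := by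
    have : Subsingleton (homG H M (pTor H p X)) :=
      ⟨fun a b => Subtype.ext (CHom.ext' fun m => Subsingleton.elim _ _)⟩
    rw [dlog, Nat.card_of_subsingleton (0 : homG H M (pTor H p X))]
    simp
  -- `X/p ≅ 𝔽_p`
  let red0 : X ⧸ pSub p X →+ ZMod p := QuotientAddGroup.lift _
    ((Int.castAddHom (ZMod p)).comp e.toAddMonoidHom) fun x hx => by
      obtain ⟨y, rfl⟩ := mem_pSub.1 hx
      rw [AddMonoidHom.mem_ker]
      show ((e (p • y) : ℤ) : ZMod p) = 0
      rw [map_nsmul, nsmul_eq_mul]
      simp
  let red : X ⧸ pSub p X →+[H] TrivMod H (ZMod p) :=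
    { toFun := fun x => ⟨red0 x⟩
      map_smul' := fun g x => TrivMod.ext (by
        induction x using QuotientAddGroup.induction_on with
        | H y =>
          show ((e (g • y) : ℤ) : ZMod p) = ((e y : ℤ) : ZMod p)
          rw [hX])
      map_zero' := TrivMod.ext (map_zero red0)
      map_add' := fun x y => TrivMod.ext (map_add red0 x y) }
  have hred : Function.Bijective red := by
    refine ⟨(injective_iff_map_eq_zero red).2 fun x hx => ?_, fun z => ?_⟩
    · induction x using QuotientAddGroup.induction_on with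
      | H y =>
        have h0 : ((e y : ℤ) : ZMod p) = 0 := congrArg TrivMod.val hx
        obtain ⟨w, hw⟩ := (ZMod.intCast_zmod_eq_zero_iff_dvd _ p).1 h0
        refine (QuotientAddGroup.eq_zero_iff _).2 (mem_pSub.2 ⟨e.symm w, e.injective ?_⟩)
        rw [map_nsmul, e.apply_symm_apply, hw, nsmul_eq_mul]
    · obtain ⟨w, hw⟩ := ZMod.intCast_surjective z.val
      refine ⟨QuotientAddGroup.mk (e.symm w), TrivMod.ext ?_⟩
      show ((e (e.symm w) : ℤ) : ZMod p) = z.val
      rw [e.apply_symm_apply, hw]
  have hcard : IsUnit (Fintype.card H : ZMod p) := by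
    rw [isUnit_iff_ne_zero, Ne, ZMod.natCast_eq_zero_iff, ← Nat.card_eq_fintype_card]
    exact hH
  obtain ⟨c, hc⟩ := hcard.exists_left_inv
  have hm : ∀ (a : ℕ) (m : M), (a : ZMod p) = 1 → a • m = m := fun a m h => by
    have h' : ((a : ℕ) : ZMod p) = ((1 : ℕ) : ZMod p) := by rw [h, Nat.cast_one]
    have e1 := (ZMod.natCast_eq_natCast_iff' a 1 p).1 h'
    conv_lhs => rw [← Nat.mod_add_div a p]
    rw [e1, add_nsmul, mul_comm, mul_nsmul', hM, smul_zero, add_zero,
      Nat.mod_eq_of_lt (Fact.out : p.Prime).one_lt, one_nsmul]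
  let avg : M →+ fixedSub H M :=
    (c.val • normSum H (V := M)).codRestrict _ fun m g => by
      show g • (c.val • normSum H m) = c.val • normSum H m
      rw [smul_comm g c.val, smul_normSum]
  have havg : ∀ m : fixedSub H M, avg m.1 = m := fun m => Subtype.ext (by
    show c.val • normSum H m.1 = m.1
    rw [normSum_of_fixed m.2, ← mul_nsmul']
    exact hm _ _ (by rw [Nat.cast_mul, ZMod.natCast_val, ZMod.cast_id, hc]))
  have key : Nat.card (homG H M (TrivMod H (ZMod p))) = Nat.card (fixedSub H M →+ ZMod p) := by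
    refine Nat.card_congr
      { toFun := fun f => (TrivMod.addEquiv.toAddMonoidHom.comp f.1.hom).comp (fixedSub H M).subtype
        invFun := fun l => ⟨⟨TrivMod.addEquiv.symm.toAddMonoidHom.comp (l.comp avg)⟩,
          (CHom.fixed_iff _).2 fun g m => ?_⟩
        left_inv := fun f => Subtype.ext (CHom.ext' fun m => TrivMod.ext ?_)
        right_inv := fun l => AddMonoidHom.ext fun m => ?_ }
    · show TrivMod.addEquiv.symm (l (avg (g • m))) = TrivMod.addEquiv.symm (l (avg m))
      congr 2
      refine Subtype.ext ?_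
      show c.val • normSum H (g • m) = c.val • normSum H m
      rw [normSum_smul]
    · show (f.1 (c.val • normSum H m : M)).val = (f.1 m).val
      rw [map_nsmul, show normSum H m = ∑ g : H, g • m from rfl, map_sum,
        Finset.sum_eq_card_nsmul (b := f.1 m) fun g _ => (CHom.fixed_iff f.1).1 f.2 g m,
        Finset.card_univ, ← mul_nsmul']
      show TrivMod.addEquiv ((c.val * Fintype.card H) • f.1 m) = _
      rw [map_nsmul, nsmul_eq_mul, Nat.cast_mul, ZMod.natCast_val, ZMod.cast_id, hc, one_mul]
      rfl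
    · show l (avg m.1) = l m
      rw [havg]
  rw [qHom, t0, sub_zero, dlog_homG_congr red hred, dlog, dlog, key,
    natCard_addHom_zmod (p := p) (M := fixedSub H M) fun m => Subtype.ext (hM _)]

end Fermat.Agent.ClassField.GW

end
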