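import Fermat.Agent.ClassField.GW.Coh
import Fermat.Agent.ClassField.GW.QHom
import Mathlib.GroupTheory.SpecificGroups.Cyclic

/-!
# Reduction of `eulerChar` to cyclic subgroups of order prime to `p`

Owner: helper41. (Artin induction: an integer combination of permutation modules on cosets of
cyclic subgroups is a positive multiple of the trivial one, in the composition-factor sense.)
-/

set_option autoImplicit false

noncomputable section

namespace Fermat.Agent.ClassField.GW

open S55

variable {p : ℕ} [Fact p.Prime] {G : Type} [Group G] [Finite G]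

/-- acyclicity passes to subgroups -/
theorem PAcyclic.restrict {X : Type*} [AddCommGroup X] [DistribMulAction G X] (hX : PAcyclic G p X)
    (D : Subgroup G) : PAcyclic D p X := fun Q hQ => by
  have h := hX (Q.map D.subtype) (hQ.map _)
  let e : Q ≃* Q.map D.subtype := Q.equivMapOfInjective D.subtype Subtype.val_injective
  refine ⟨fun H f hf => ?_, fun H c hc => ?_⟩
  · let H' := H.map e.toMonoidHom
    let eH : H ≃* H' := H.equivMapOfInjective e.toMonoidHom e.injective
    obtain ⟨x, hx⟩ := h.h1 H' (fun a => f (eH.symm a)) (funext fun ⟨a, b⟩ => by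
      obtain ⟨a, rfl⟩ := eH.surjective a
      obtain ⟨b, rfl⟩ := eH.surjective b
      have := congrFun hf (a, b)
      simp only [d1, ← map_mul, MulEquiv.symm_apply_apply] at this ⊢
      exact this)
    refine ⟨x, funext fun a => ?_⟩
    have := congrFun hx (eH a)
    simp only [MulEquiv.symm_apply_apply] at this
    exact this
  · let H' := H.map e.toMonoidHom
    let eH : H ≃* H' := H.equivMapOfInjective e.toMonoidHom e.injective
    obtain ⟨b, hb⟩ := h.h2 H' (fun a => c (eH.symm a.1, eH.symm a.2)) fun g h' j => by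
      obtain ⟨g, rfl⟩ := eH.surjective g
      obtain ⟨h', rfl⟩ := eH.surjective h'
      obtain ⟨j, rfl⟩ := eH.surjective j
      simp only [← map_mul, MulEquiv.symm_apply_apply]
      exact hc g h' j
    refine ⟨fun a => b (eH a), funext fun ⟨a, a'⟩ => ?_⟩
    have := congrFun hb (eH a, eH a')
    simp only [d1, ← map_mul, MulEquiv.symm_apply_apply] at this ⊢
    exact this

/-- the homomorphism `1 ↦ m` -/
def liftElt {M : Type} [AddCommGroup M] (hM : ∀ x : M, p • x = 0) (m : M) :
    TrivMod G (ZMod p) →+ M :=
  (ZMod.lift p ⟨zmultiplesHom M m, by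
    show (p : ℤ) • m = 0
    rw [natCast_zsmul]; exact hM m⟩).comp TrivMod.addEquiv.toAddMonoidHom

theorem liftElt_one {M : Type} [AddCommGroup M] (hM : ∀ x : M, p • x = 0) (m : M) :
    liftElt (G := G) hM m ⟨1⟩ = m := by
  unfold liftElt
  have e : (TrivMod.addEquiv (⟨1⟩ : TrivMod G (ZMod p))) = ((1 : ℤ) : ZMod p) := by
    rw [Int.cast_one]; rfl
  rw [AddMonoidHom.comp_apply, AddEquiv.coe_toAddMonoidHom, e, ZMod.lift_coe]
  exact one_zsmul m

/-- `qHom` does not change along the identification of a subgroup of a subgroup -/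
theorem qHom_map_subtype {M : Type} [AddCommGroup M] [DistribMulAction G M] {Z : Type*}
    [AddCommGroup Z] [DistribMulAction G Z] (C : Subgroup G) (D : Subgroup C) :
    qHom D p M Z = qHom (D.map C.subtype) p M Z := by
  let e : D ≃* D.map C.subtype := D.equivMapOfInjective C.subtype Subtype.val_injective
  have tr : ∀ (W : Type _) [AddCommGroup W] [DistribMulAction G W],
      dlog p (homG D M W) = dlog p (homG (D.map C.subtype) M W) := by
    intro W _ _
    unfold dlog
    refine congrArg (fun n : ℕ => ((n.factorization p : ℕ) : ℤ)) (Nat.card_congr ?_)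
    exact
      { toFun := fun f => ⟨⟨f.1.hom⟩, fun g => by
          obtain ⟨d, rfl⟩ := e.surjective g
          exact (congrArg (fun u : CHom M W => (⟨u.hom⟩ : CHom M W)) (f.2 d))⟩
        invFun := fun f => ⟨⟨f.1.hom⟩, fun d =>
          (congrArg (fun u : CHom M W => (⟨u.hom⟩ : CHom M W)) (f.2 (e d)))⟩
        left_inv := fun f => rfl
        right_inv := fun f => rfl }
  rw [qHom, qHom]
  exact congrArg₂ (· - ·) (tr (Z ⧸ pSub p Z)) (tr (pTor G p Z))

section Diff

variable {X Y : Type*} [AddCommGroup X] [DistribMulAction G X] [AddCommGroup Y]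
  [DistribMulAction G Y] (hX : PAcyclic G p X) (hY : PAcyclic G p Y) (hXf : PFinite p X)
  (hYf : PFinite p Y)

/-- the difference of two Euler characteristics -/
def eulDiff : AddInv p G where
  val V := eulerChar G p V X - eulerChar G p V Y
  add {V₁ V V₂} _ _ _ _ _ _ _ i j hV hi hj hex := by
    have : Finite V₁ := Finite.of_injective i hi
    have : Finite V₂ := Finite.of_surjective j hj
    rw [eulerChar_add hV hXf hX i j hi hj hex, eulerChar_add hV hYf hY i j hi hj hex]
    ring

/-- evaluation of the permutation invariant -/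
theorem perm_homInto_eulDiff {M : Type} [AddCommGroup M] [DistribMulAction G M] [Finite M]
    (hM : ∀ x : M, p • x = 0) (D : Subgroup G) :
    ((eulDiff hX hY hXf hYf).homInto M hM).perm (G ⧸ D) =
      eulerChar D p M X - eulerChar D p M Y := by
  classical
  let _ := Fintype.ofFinite (G ⧸ D)
  let F := PermMod (G ⧸ D) (TrivMod G (ZMod p))
  let t : G ⧸ D → F := fun y => PermMod.single y ⟨1⟩
  have htg : ∀ (g : G) y, g • t y = t (g • y) := fun g y => by
    show g • PermMod.single y (⟨1⟩ : TrivMod G (ZMod p)) = PermMod.single (g • y) ⟨1⟩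
    rw [PermMod.smul_single]
    rfl
  let e : CHom F M →+[G] PermMod (G ⧸ D) M :=
    { toFun := fun f => ⟨fun y => f (t y)⟩
      map_smul' := fun g f => PermMod.ext (funext fun y => by
        show g • f (g⁻¹ • t y) = g • f (t (g⁻¹ • y))
        rw [htg])
      map_zero' := rfl
      map_add' := fun f f' => rfl }
  have hbij : Function.Bijective e := by
    constructor
    · intro f f' h
      refine CHom.ext' fun v => ?_
      rw [PermMod.eq_sum_single v, map_sum, map_sum]
      refine Finset.sum_congr rfl fun y _ => ?_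
      obtain ⟨z, hz⟩ := ZMod.intCast_surjective (v.val y).val
      have hv : v.val y = z • (⟨1⟩ : TrivMod G (ZMod p)) := TrivMod.addEquiv.injective (by
        rw [map_zsmul]
        show (v.val y).val = z • (1 : ZMod p)
        rw [zsmul_one, hz])
      rw [hv, map_zsmul, map_zsmul, map_zsmul]
      exact congrArg (z • ·) (congrArg (fun u : PermMod (G ⧸ D) M => u.val y) h)
    · intro m
      refine ⟨⟨∑ y, (liftElt hM (m.val y)).comp (PermMod.evalHom y)⟩,
        PermMod.ext (funext fun y => ?_)⟩
      show (∑ z, (liftElt hM (m.val z)).comp (PermMod.evalHom z)) (t y) = m.val y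
      rw [AddMonoidHom.finsetSum_apply, Finset.sum_eq_single y]
      · show liftElt hM (m.val y) (PermMod.evalHom y (t y)) = m.val y
        rw [PermMod.evalHom_single, liftElt_one]
      · intro z _ hz
        show liftElt hM (m.val z) (PermMod.evalHom z (t y)) = 0
        rw [PermMod.evalHom_single_of_ne hz, map_zero]
      · exact fun h => absurd (Finset.mem_univ y) h
  have hPM : ∀ w : PermMod (G ⧸ D) M, p • w = 0 := fun w => PermMod.ext (funext fun y => by
    show PermMod.evalHom y (p • w) = 0
    rw [map_nsmul]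
    exact hM _)
  show (eulDiff hX hY hXf hYf).val (CHom F M) = _
  rw [(eulDiff hX hY hXf hYf).congr e hbij hPM]
  show eulerChar G p (PermMod (G ⧸ D) M) X - eulerChar G p (PermMod (G ⧸ D) M) Y = _
  rw [eulerChar_permMod hM hX D, eulerChar_permMod hM hY D]

include hXf hYf hX hY in
/-- the trivial module evaluates to the Euler characteristic -/
theorem val_triv_homInto_eulDiff {M : Type} [AddCommGroup M] [DistribMulAction G M] [Finite M]
    (hM : ∀ x : M, p • x = 0) :
    ((eulDiff hX hY hXf hYf).homInto M hM).val (TrivMod G (ZMod p)) =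
      eulerChar G p M X - eulerChar G p M Y := by
  let e : CHom (TrivMod G (ZMod p)) M →+[G] M :=
    { toFun := fun f => f ⟨1⟩, map_smul' := fun g f => rfl, map_zero' := rfl,
      map_add' := fun f f' => rfl }
  have hbij : Function.Bijective e := by
    constructor
    · intro f f' h
      refine CHom.ext' fun v => ?_
      obtain ⟨z, hz⟩ := ZMod.intCast_surjective v.val
      have hv : v = z • (⟨1⟩ : TrivMod G (ZMod p)) := TrivMod.addEquiv.injective (by
        rw [map_zsmul]
        show v.val = z • (1 : ZMod p)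
        rw [zsmul_one, hz])
      rw [hv, map_zsmul, map_zsmul]
      exact congrArg (z • ·) h
    · intro m
      exact ⟨⟨liftElt hM m⟩, liftElt_one hM m⟩
  show (eulDiff hX hY hXf hYf).val (CHom (TrivMod G (ZMod p)) M) = _
  exact (eulDiff hX hY hXf hYf).congr e hbij hM

end Diff

variable {M : Type} [AddCommGroup M] [DistribMulAction G M] [Finite M] (hM : ∀ x : M, p • x = 0)
include hM

/-- the cyclic case -/
theorem eulerChar_eq_of_cyclic [IsCyclic G] {X Y : Type*} [AddCommGroup X] [DistribMulAction G X]
    [AddCommGroup Y] [DistribMulAction G Y] (hX : PAcyclic G p X) (hY : PAcyclic G p Y)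
    (hXf : PFinite p X) (hYf : PFinite p Y)
    (h : ∀ D : Subgroup G, ¬ p ∣ Nat.card D → qHom D p M X = qHom D p M Y) :
    eulerChar G p M X = eulerChar G p M Y := by
  classical
  obtain ⟨σ, hσ⟩ := IsCyclic.exists_generator (α := G)
  have hn : orderOf σ = Nat.card G := orderOf_eq_card_of_forall_mem_zpowers hσ
  obtain ⟨k, m, hm, hkm⟩ :=
    Nat.exists_eq_pow_mul_and_not_dvd (n := Nat.card G) Nat.card_pos.ne' p
      (Fact.out : p.Prime).ne_one
  let D : Subgroup G := Subgroup.zpowers (σ ^ p ^ k)
  have hDc : Nat.card D = m := by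
    rw [Nat.card_zpowers, orderOf_pow, hn, hkm, Nat.gcd_eq_right (dvd_mul_right _ _),
      Nat.mul_div_cancel_left _ (pow_pos (Fact.out : p.Prime).pos k)]
  have hD : ¬ p ∣ Nat.card D := hDc ▸ hm
  have : D.Normal := ⟨fun a ha g => by
    obtain ⟨i, rfl⟩ := Subgroup.mem_zpowers_iff.1 (hσ g)
    obtain ⟨j, rfl⟩ := Subgroup.mem_zpowers_iff.1 ha
    have hc : Commute (σ ^ i) ((σ ^ p ^ k) ^ j) :=
      ((Commute.refl σ).zpow_left i |>.pow_right (p ^ k)).zpow_right j
    rw [hc.eq, mul_inv_cancel_right]
    exact ha⟩
  have hidx : D.index = p ^ k := by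
    have := D.card_mul_index
    rw [hDc, hkm, mul_comm (p ^ k)] at this
    exact Nat.eq_of_mul_eq_mul_left (hDc ▸ Nat.card_pos) this
  have hP : IsPGroup p (G ⧸ D) := IsPGroup.of_card hidx
  let a := (eulDiff hX hY hXf hYf).homInto M hM
  have hDD : a.perm (G ⧸ D) = 0 := by
    rw [perm_homInto_eulDiff, sub_eq_zero]
    have eX : eulerChar D p M X = qHom D p M X := by
      let _ := Fintype.ofFinite D
      exact euler_eq_qHom hD hM ⟨freeCover_surjective, inferInstance, inferInstance⟩
    have eY : eulerChar D p M Y = qHom D p M Y := by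
      let _ := Fintype.ofFinite D
      exact euler_eq_qHom hD hM ⟨freeCover_surjective, inferInstance, inferInstance⟩
    rw [eX, eY, h D hD]
  have hF := a.val_of_fixed_ne_zero hP (QuotientGroup.mk' D)
    (V := PermMod (G ⧸ D) (TrivMod G (ZMod p))) (permMod_nsmul_eq_zero _) (fun g g' e v =>
      PermMod.ext (funext fun y => by
        obtain ⟨x, rfl⟩ := QuotientGroup.mk_surjective y
        show v.val (g⁻¹ • (x : G ⧸ D)) = v.val (g'⁻¹ • (x : G ⧸ D))
        congr 1
        rw [MulAction.Quotient.smul_mk, MulAction.Quotient.smul_mk, smul_eq_mul, smul_eq_mul,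
          QuotientGroup.mk_mul, QuotientGroup.mk_mul, QuotientGroup.mk_inv, QuotientGroup.mk_inv]
        exact congrArg (fun u : G ⧸ D => u⁻¹ * (x : G ⧸ D)) e))
    (QuotientGroup.mk'_surjective D)
  change a.perm (G ⧸ D) = _ at hF
  rw [hDD, eq_comm, mul_eq_zero] at hF
  rcases hF with hF | hF
  · exfalso
    have hc : Nat.card (PermMod (G ⧸ D) (TrivMod G (ZMod p))) = p ^ p ^ k := by
      have e : PermMod (G ⧸ D) (TrivMod G (ZMod p)) ≃ (G ⧸ D → ZMod p) :=
        ⟨fun v y => (v.val y).val, fun f => ⟨fun y => ⟨f y⟩⟩, fun v => rfl, fun f => rfl⟩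
      rw [Nat.card_congr e, Nat.card_fun, Nat.card_zmod, ← Subgroup.index_eq_card, hidx]
    rw [dlog_eq_padicValNat, hc, padicValNat.prime_pow] at hF
    have := pow_pos (Fact.out : p.Prime).pos k
    omega
  · rw [val_triv_homInto_eulDiff] at hF
    omega

/-- `qHom` does not change along the identification of a subgroup of a subgroup -/
theorem eulerChar_eq_of_qHom_eq {X Y : Type*} [AddCommGroup X] [DistribMulAction G X]
    [AddCommGroup Y] [DistribMulAction G Y] (hX : PAcyclic G p X) (hY : PAcyclic G p Y)
    (hXf : PFinite p X) (hYf : PFinite p Y)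
    (h : ∀ D : Subgroup G, IsCyclic D → ¬ p ∣ Nat.card D → qHom D p M X = qHom D p M Y) :
    eulerChar G p M X = eulerChar G p M Y := by
  rw [← sub_eq_zero, ← val_triv_homInto_eulDiff hX hY hXf hYf hM]
  refine AddInv.val_triv_eq_zero _ fun C hC => ?_
  rw [perm_homInto_eulDiff, sub_eq_zero]
  refine eulerChar_eq_of_cyclic hM (hX.restrict C) (hY.restrict C) hXf hYf fun D hD => ?_
  let E : Subgroup G := D.map C.subtype
  let e : D ≃* E := D.equivMapOfInjective C.subtype Subtype.val_injective
  have hEc : Nat.card E = Nat.card D := Nat.card_congr e.symm.toEquiv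
  have hcy : IsCyclic E := by
    have : IsCyclic D := Subgroup.isCyclic D
    exact isCyclic_of_surjective e.toMonoidHom e.surjective
  rw [qHom_map_subtype C D, qHom_map_subtype C D]
  exact h E hcy (hEc ▸ hD)

end Fermat.Agent.ClassField.GW

end
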