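import Fermat.Agent.ClassField.GW.Level
import Fermat.Agent.ClassField.GW.Artin
import Fermat.Agent.ClassField.S55.Final.ClassQuotient
import Fermat.Agent.ClassField.S55.Final.LocalFormation
import Fermat.Agent.ClassField.Idele.Descent
import Fermat.Agent.ClassField.PadicRoots

/-!
# Greenberg–Wiles: auxiliary places

At a prime `q ≠ p` unramified in `K` the unit-valued homomorphisms, together with restrictions,
extend along every cocycle, and their index is at most the local Euler characteristic.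
-/

set_option autoImplicit false

noncomputable section

open scoped Fermat.Agent.ClassField

namespace Fermat.Agent.ClassField.GW

open S55 Idele IntermediateField

local notation "Qb" => AlgebraicClosure ℚ
local notation "Γ" => (AlgebraicClosure ℚ ≃ₐ[ℚ] AlgebraicClosure ℚ)

/-- A direct summand of a module without cohomology on `p`-groups is acyclic for `p`-groups. -/
theorem pAcyclic_of_retract {p : ℕ} [Fact p.Prime] {G : Type*} [Group G] {H : Subgroup G}
    {W X : Type*} [AddCommGroup W] [DistribMulAction G W] [AddCommGroup X] [DistribMulAction H X]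
    (r : W →+ X) (s : X →+ W) (hrs : ∀ x, r (s x) = x)
    (hr : ∀ (g : H) (w : W), r ((g : G) • w) = g • r w)
    (hs : ∀ (g : H) (x : X), s (g • x) = (g : G) • s x)
    (hW : ∀ P : Subgroup G, IsPGroup p P → ∀ V : Subgroup P,
      Devissage.H1Vanishes V W ∧ ∀ f ∈ CochainH2.Z2 V W, ∃ b, CochainH2.d1 V W b = f) :
    PAcyclic H p X := by
  intro Q hQ
  have htr : ∀ Hs : Subgroup Q,
      (∀ c : Hs → W, (∀ g h, c (g * h) = (((g : Q) : H) : G) • c h + c g) →
        ∃ a, ∀ g : Hs, c g = (((g : Q) : H) : G) • a - a) ∧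
      (∀ f : Hs × Hs → W,
        (∀ g h j : Hs, (((g : Q) : H) : G) • f (h, j) - f (g * h, j) + f (g, h * j) - f (g, h) = 0) →
        ∃ b : Hs → W, ∀ g h : Hs, (((g : Q) : H) : G) • b h - b (g * h) + b g = f (g, h)) := by
    intro Hs
    let φ : Hs →* G := H.subtype.comp (Q.subtype.comp Hs.subtype)
    have hφ : Function.Injective φ :=
      Subtype.val_injective.comp (Subtype.val_injective.comp Subtype.val_injective)
    have hP : IsPGroup p φ.range :=
      (hQ.to_subgroup Hs).of_surjective φ.rangeRestrict φ.rangeRestrict_surjective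
    obtain ⟨h1, h2⟩ := hW φ.range hP ⊤
    let e : Hs ≃* (⊤ : Subgroup φ.range) :=
      (MonoidHom.ofInjective hφ).trans Subgroup.topEquiv.symm
    have he : ∀ (t : Hs) (w : W), e t • w = φ t • w := fun t w => rfl
    have he' : ∀ (x : (⊤ : Subgroup φ.range)) (w : W), φ (e.symm x) • w = x • w := fun x w => by
      rw [← he, MulEquiv.apply_symm_apply]
    refine ⟨fun c hc => ?_, fun f hf => ?_⟩
    · obtain ⟨a, ha⟩ := h1 (fun x => c (e.symm x)) fun x y => by
        rw [map_mul, hc, ← he' x]
        rfl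
      exact ⟨a, fun t => by
        rw [← e.symm_apply_apply t, ha, e.symm_apply_apply]
        rfl⟩
    · obtain ⟨b, hb⟩ := h2 (fun x => f (e.symm x.1, e.symm x.2)) fun g h j => by
        have h' := hf (e.symm g) (e.symm h) (e.symm j)
        show f (e.symm (g * h), e.symm j) + f (e.symm g, e.symm h) =
          g • f (e.symm h, e.symm j) + f (e.symm g, e.symm (h * j))
        rw [map_mul, map_mul, ← he' g, ← sub_eq_zero, ← neg_eq_zero]
        refine Eq.trans ?_ h'
        show _ = φ (e.symm g) • f (e.symm h, e.symm j) - _ + _ - _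
        abel
      refine ⟨fun t => b (e t), fun g h => ?_⟩
      show _ • b (e h) - b (e (g * h)) + b (e g) = _
      have h' := congrFun hb (e g, e h)
      simp only [MulEquiv.symm_apply_apply] at h'
      rw [map_mul, ← h']
      rfl
  constructor
  · intro Hs f hf
    obtain ⟨a, ha⟩ := (htr Hs).1 (fun t => s (f t)) fun g h => by
      have e := congrFun hf (g, h)
      simp only [S55.d1, Pi.zero_apply] at e
      have e' : f (g * h) = g • f h + f g := by rw [← sub_eq_zero, ← neg_eq_zero, ← e]; abel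
      rw [e', map_add]
      exact congrArg (· + s (f g)) (hs ((g : Q) : H) (f h))
    refine ⟨r a, funext fun t => ?_⟩
    have e := congrArg r (ha t)
    rw [hrs, map_sub, hr] at e
    exact e.symm
  · intro Hs c hc
    obtain ⟨b, hb⟩ := (htr Hs).2 (fun x => s (c x)) fun g h j => by
      rw [← hs, ← map_sub, ← map_add, ← map_sub]
      exact (congrArg s (hc g h j)).trans (map_zero s)
    refine ⟨fun t => r (b t), funext fun x => ?_⟩
    have e := congrArg r (hb x.1 x.2)
    rw [map_add, map_sub, hr, hrs] at e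
    exact e

variable (K : IntermediateField ℚ Qb) [Normal ℚ K] (q : Nat.Primes)

/-- The element of `PadicAlgCl q` of a local unit. -/
abbrev lval {K : IntermediateField ℚ Qb} {q : Nat.Primes} (y : locUnits K q) :
    PadicAlgCl (q : ℕ) :=
  (((y : LUnits q).toMul : (PadicAlgCl (q : ℕ))ˣ) : PadicAlgCl (q : ℕ))

/-- The local elements of absolute value one. -/
def unitSub : AddSubgroup (locUnits K q) where
  carrier := {y | ‖lval y‖ = 1}
  add_mem' {x y} hx hy := by
    show ‖lval (x + y)‖ = 1
    rw [show lval (x + y) = lval x * lval y from rfl, norm_mul, hx, hy, mul_one]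
  zero_mem' := norm_one
  neg_mem' {x} hx := by
    show ‖lval (-x)‖ = 1
    rw [show lval (-x) = (lval x)⁻¹ from Units.val_inv_eq_inv_val _, norm_inv, hx, inv_one]

variable {K q}

omit [Normal ℚ K] in
theorem mem_unitSub {y : locUnits K q} : y ∈ unitSub K q ↔ ‖lval y‖ = 1 := Iff.rfl

theorem lval_smul (g : decGroup K q) (y : locUnits K q) :
    lval (g • y) = liftDec g (lval y) :=
  congrArg (fun z : LUnits q => ((z.toMul : (PadicAlgCl (q : ℕ))ˣ) : PadicAlgCl (q : ℕ)))
    (coe_smul_locUnits (liftDec_spec g) y)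

theorem norm_lval_smul (g : decGroup K q) (y : locUnits K q) : ‖lval (g • y)‖ = ‖lval y‖ := by
  rw [lval_smul]
  exact (spectralNorm_eq_of_equiv (liftDec g) _).symm

omit [Normal ℚ K] in
theorem lval_injective : Function.Injective (lval (K := K) (q := q)) := fun _ _ h =>
  Subtype.ext (Additive.toMul.injective (Units.ext h))

variable (K q)

instance unitSubAction : DistribMulAction (decGroup K q) (unitSub K q) where
  smul g y := ⟨g • (y : locUnits K q), (norm_lval_smul g _).trans y.2⟩
  one_smul y := Subtype.ext (one_smul _ (y : locUnits K q))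
  mul_smul g h y := Subtype.ext (mul_smul g h (y : locUnits K q))
  smul_zero g := Subtype.ext (smul_zero g)
  smul_add g x y := Subtype.ext (smul_add g (x : locUnits K q) (y : locUnits K q))

/-- The inclusion of the units. -/
def unitIncl : unitSub K q →+[decGroup K q] locUnits K q where
  toFun y := y
  map_smul' _ _ := rfl
  map_zero' := rfl
  map_add' _ _ := rfl

theorem unitIncl_injective : Function.Injective (unitIncl K q) := Subtype.val_injective

variable [FiniteDimensional ℚ K] {K q}

/-- The order at an unramified prime, with a fixed uniformizer. -/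
theorem exists_ord (hq : IsUnramifiedAt ⊥ K q) :
    ∃ (ord : locUnits K q →+ ℤ) (ϖ : locUnits K q), ord ϖ = 1 ∧ (∀ g : decGroup K q, g • ϖ = ϖ) ∧
      (∀ (g : decGroup K q) (y : locUnits K q), ord (g • y) = ord y) ∧
      ∀ y : locUnits K q, ord y = 0 ↔ y ∈ unitSub K q := by
  classical
  set c : ℝ := ‖((q : ℕ) : PadicAlgCl (q : ℕ))‖ with hc
  have hc' : c = ((q : ℕ) : ℝ)⁻¹ := by
    rw [hc, ← map_natCast (algebraMap ℚ_[(q : ℕ)] (PadicAlgCl (q : ℕ))), norm_algebraMap',
      Padic.norm_p]
  have hc0 : 0 < c := by rw [hc']; exact inv_pos.2 (Nat.cast_pos.2 q.2.pos)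
  have hc1 : c ≠ 1 := by
    rw [hc']
    exact (inv_lt_one_of_one_lt₀ (Nat.one_lt_cast.2 q.2.one_lt)).ne
  have hex : ∀ y : locUnits K q, ∃ i : ℤ, ‖lval y‖ = c ^ i := fun y =>
    exists_norm_eq_natCast_zpow hq (emb0 q) (mem_localField_of_mem_locUnits y.2) (Units.ne_zero _)
  choose i hi using hex
  have hinj : ∀ a b : ℤ, c ^ a = c ^ b → a = b := fun a b h => zpow_right_injective₀ hc0 hc1 h
  let ord : locUnits K q →+ ℤ := AddMonoidHom.mk' i fun x y => hinj _ _ (by
    rw [← hi, zpow_add₀ hc0.ne', ← hi, ← hi]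
    exact norm_mul _ _)
  have hq0 : ((q : ℕ) : PadicAlgCl (q : ℕ)) ≠ 0 := norm_pos_iff.1 hc0
  let ϖ : locUnits K q := ⟨Additive.ofMul (Units.mk0 _ hq0), fun τ _ =>
    Additive.toMul.injective (Units.ext (map_natCast τ (q : ℕ)))⟩
  refine ⟨ord, ϖ, hinj _ _ ?_, fun g => lval_injective ?_, fun g y => hinj _ _ ?_, fun y => ?_⟩
  · show c ^ i ϖ = c ^ (1 : ℤ)
    rw [← hi, zpow_one]
    rfl
  · rw [lval_smul]
    exact map_natCast (liftDec g) (q : ℕ)
  · show c ^ i (g • y) = c ^ i y
    rw [← hi, ← hi, norm_lval_smul]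
  · rw [mem_unitSub, hi y]
    exact ⟨fun h => by rw [show i y = 0 from h, zpow_zero],
      fun h => hinj _ _ (h.trans (zpow_zero c).symm)⟩

/-- The units are an equivariant direct summand. -/
theorem exists_retraction (hq : IsUnramifiedAt ⊥ K q) :
    ∃ (P : locUnits K q →+[decGroup K q] unitSub K q) (ord : locUnits K q →+ ℤ)
      (ϖ : locUnits K q), (∀ u, P (unitIncl K q u) = u) ∧ ord ϖ = 1 ∧
      (∀ u : unitSub K q, ord (u : locUnits K q) = 0) ∧
      ∀ y : locUnits K q, y = (P y : locUnits K q) + ord y • ϖ := by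
  obtain ⟨ord, ϖ, hϖ, hϖfix, hord, h0⟩ := exists_ord hq
  have hmem : ∀ y : locUnits K q, y - ord y • ϖ ∈ unitSub K q := fun y =>
    (h0 _).1 (by rw [map_sub, map_zsmul, hϖ, smul_eq_mul, mul_one, sub_self])
  let P : locUnits K q →+[decGroup K q] unitSub K q :=
    { toFun := fun y => ⟨y - ord y • ϖ, hmem y⟩
      map_smul' := fun g y => Subtype.ext (by
        show g • y - ord (g • y) • ϖ = g • (y - ord y • ϖ)
        rw [hord, smul_sub, smul_comm g (ord y) ϖ, hϖfix])
      map_zero' := Subtype.ext (by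
        show (0 : locUnits K q) - ord 0 • ϖ = 0
        rw [map_zero, zero_smul, sub_zero])
      map_add' := fun x y => Subtype.ext (by
        show x + y - ord (x + y) • ϖ = x - ord x • ϖ + (y - ord y • ϖ)
        rw [map_add, add_zsmul]
        abel) }
  refine ⟨P, ord, ϖ, fun u => Subtype.ext ?_, hϖ, fun u => (h0 _).2 u.2, fun y => ?_⟩
  · show (u : locUnits K q) - ord (u : locUnits K q) • ϖ = u
    rw [(h0 _).2 u.2, zero_smul, sub_zero]
  · exact (sub_add_cancel y _).symm

/-! ### cohomological triviality -/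

/-- Units at an unramified prime have no cohomology on `p`-groups. -/
theorem pAcyclic_unitSub (p : ℕ) [Fact p.Prime] (hq : IsUnramifiedAt ⊥ K q) :
    PAcyclic (decGroup K q) p (unitSub K q) := by
  classical
  let S' : Set Nat.Primes := {q}ᶜ
  let W := Devissage.fixedPts (UMod S') K.fixingSubgroup
  -- the component at the base embedding
  have hcomp : ∀ w : W, unitIdele (w : UMod S') ∈ idelesOf K := fun w σ hσ => by
    rw [← unitIdele_smul, w.2 σ hσ]
  let r₀ : W → locUnits K q := fun w => ⟨_, comp_mem_locUnits (hcomp w) q 1⟩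
  have hr₀ : ∀ w, r₀ w ∈ unitSub K q := fun w => by
    exact (w : UMod S').toMul.2.2 q (fun h => h rfl) _
  let r : W →+ unitSub K q := AddMonoidHom.mk' (fun w => ⟨r₀ w, hr₀ w⟩) fun x y => rfl
  -- the section
  have hsunit : ∀ u : unitSub K q, locIdele K q (u : locUnits K q) ∈ unitsAway S' := fun u => by
    refine ⟨fun ℓ hℓ ι => locIdele_apply_of_ne K q ι _ (fun h => hℓ h.symm), fun ℓ hℓ ι => ?_⟩
    obtain rfl : ℓ = q := not_not.1 hℓ
    obtain ⟨σ, rfl⟩ := globalComp_surjective ℓ ι
    by_cases h : toLevel K σ ∈ decGroup K ℓ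
    · obtain ⟨τ, hτ⟩ := h
      have e := congrArg
        (fun z : LUnits ℓ => ‖((z.toMul : (PadicAlgCl (ℓ : ℕ))ˣ) : PadicAlgCl (ℓ : ℕ))‖)
        (locIdele_apply_of_eq K ℓ (u : locUnits K ℓ) hτ)
      exact e.trans ((spectralNorm_eq_of_equiv τ _).symm.trans u.2)
    · rw [locIdele_apply_of_notMem K ℓ _ h, Units.val_one, norm_one]
  let s : unitSub K q →+ W := AddMonoidHom.mk' (fun u =>
    ⟨Additive.ofMul (⟨locIdele K q (u : locUnits K q), hsunit u⟩ : ↥(unitsAway S')),
      fun σ hσ => unitIdele_injective (locIdele_mem K q (u : locUnits K q) σ hσ)⟩) fun x y =>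
    Subtype.ext (unitIdele_injective (locIdele_mul K q (x : locUnits K q) (y : locUnits K q)))
  have hrs : ∀ u, r (s u) = u := fun u => Subtype.ext (Subtype.ext
    ((locIdele_apply_of_eq K q (τ := 1) (σ := 1) (u : locUnits K q) (by rw [map_one])).trans
      (one_smul (LocalGal q) _)))
  have hs : ∀ (g : decGroup K q) (u : unitSub K q), s (g • u) = (g : LevelGroup K) • s u := by
    intro g u
    obtain ⟨σ, hσ⟩ := QuotientGroup.mk'_surjective K.fixingSubgroup (g : LevelGroup K)
    refine Subtype.ext (unitIdele_injective ?_)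
    rw [← hσ]
    show locIdele K q (g • (u : locUnits K q)) =
      unitIdele (((σ : Γ ⧸ K.fixingSubgroup) • s u : W) : UMod S')
    rw [Devissage.coe_mk_smul, unitIdele_smul]
    exact (smul_locIdele K q g σ hσ _).symm
  have hr : ∀ (g : decGroup K q) (w : W), r ((g : LevelGroup K) • w) = g • r w := by
    intro g w
    obtain ⟨τ, hτ⟩ := g.2
    refine Subtype.ext (Subtype.ext ?_)
    rw [← hτ]
    show Additive.ofMul ((unitIdele (((S55.locHom q τ : Γ) : Γ ⧸ K.fixingSubgroup) • w : W).1 :
      IdeleGroup).1 q (globalComp (emb0 q) 1)) = ((g • r₀ w : locUnits K q) : LUnits q)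
    rw [Devissage.coe_mk_smul, unitIdele_smul, coe_smul_locUnits hτ]
    rw [coe_smul, Raw.smul_apply, ← globalComp_mul, one_mul]
    have e := compFix (hcomp w) q τ 1
    rwa [mul_one] at e
  refine pAcyclic_of_retract r s hrs hr hs fun P hP V => ?_
  have hL : ∀ ℓ ∉ S', IsUnramifiedAt ⊥ K ℓ := fun ℓ hℓ => by
    obtain rfl : ℓ = q := not_not.1 hℓ
    exact hq
  exact (unitsAway_stepAcyclic (unitH90 p) hL P).h1_h2 hP V

/-! ### units modulo `p` and roots of unity -/

omit [Normal ℚ K] [FiniteDimensional ℚ K] in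
/-- Principal units are uniquely `p`-divisible. -/
theorem exists_nsmul_eq_of_principal {p : ℕ} (hp : p.Prime) (hpq : p ≠ (q : ℕ)) {w : locUnits K q}
    (hw : ‖lval w - 1‖ < 1) : ∃ v : locUnits K q, ‖lval v - 1‖ < 1 ∧ p • v = w := by
  have hqp : ¬ (q : ℕ) ∣ p := fun h => hpq ((Nat.prime_dvd_prime_iff_eq q.2 hp).1 h).symm
  have hw1 : ‖lval w‖ = 1 := by
    rw [show lval w = (lval w - 1) + 1 by ring,
      IsUltrametricDist.norm_add_eq_max_of_norm_ne_norm (by rw [norm_one]; exact hw.ne), norm_one,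
      max_eq_right hw.le]
  obtain ⟨y₀, hy₀⟩ := IsAlgClosed.exists_pow_nat_eq (lval w) hp.pos
  have hy₀1 : ‖y₀‖ = 1 := by
    have e := congrArg norm hy₀
    rw [norm_pow, hw1] at e
    exact (pow_eq_one_iff_of_nonneg (norm_nonneg _) hp.ne_zero).1 e
  obtain ⟨ρ, ⟨n, hn, hρ⟩, hlt⟩ := PadicFields.exists_root_norm_sub_lt hy₀1
  have hρ1 : ‖ρ‖ = 1 := by
    have e := congrArg norm hρ
    rw [norm_pow, norm_one] at e
    have : (q : ℕ) ^ n - 1 ≠ 0 := by
      have := Nat.one_lt_pow hn.ne' q.2.one_lt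
      omega
    exact (pow_eq_one_iff_of_nonneg (norm_nonneg _) this).1 e
  have hρ0 : ρ ≠ 0 := fun h => by rw [h, norm_zero] at hρ1; exact zero_ne_one hρ1
  -- powers of congruent units are congruent
  have hpow : ∀ {a b : PadicAlgCl (q : ℕ)}, ‖a‖ = 1 → ‖b‖ = 1 → ‖a - b‖ < 1 → ∀ m : ℕ,
      ‖a ^ m - b ^ m‖ < 1 := fun {a b} ha hb hab m => by
    induction m with
    | zero => simp
    | succ m ih =>
      rw [show a ^ (m + 1) - b ^ (m + 1) = a * (a ^ m - b ^ m) + (a - b) * b ^ m by ring]
      refine (IsUltrametricDist.norm_add_le_max _ _).trans_lt (max_lt ?_ ?_)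
      · rw [norm_mul, ha, one_mul]; exact ih
      · rw [norm_mul, norm_pow, hb, one_pow, mul_one]; exact hab
  have hρp : ρ ^ p = 1 := by
    refine PadicFields.eq_one_of_pow_eq_one (m := (q : ℕ) ^ n - 1)
      (PadicFields.not_dvd_pow_sub_one hn) (by rw [← pow_mul, mul_comm, pow_mul, hρ, one_pow]) ?_
    rw [show ρ ^ p - 1 = (ρ ^ p - y₀ ^ p) + (lval w - 1) by rw [hy₀]; ring]
    exact (IsUltrametricDist.norm_add_le_max _ _).trans_lt
      (max_lt (hpow hρ1 hy₀1 (by rw [norm_sub_rev]; exact hlt) p) hw)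
  set y := y₀ / ρ with hy
  have hy1 : ‖y - 1‖ < 1 := by
    rw [hy, div_sub_one hρ0, norm_div, hρ1, div_one]
    exact hlt
  have hyp : y ^ p = lval w := by rw [hy, div_pow, hρp, div_one, hy₀]
  have hy0 : y ≠ 0 := fun h => by rw [h, zero_sub, norm_neg, norm_one] at hy1; exact lt_irrefl _ hy1
  refine ⟨⟨Additive.ofMul (Units.mk0 y hy0), fun τ hτ => Additive.toMul.injective (Units.ext ?_)⟩,
    hy1, lval_injective ?_⟩
  · show τ y = y
    have hfix : τ (lval w) = lval w :=
      congrArg (fun z : LUnits q => ((z.toMul : (PadicAlgCl (q : ℕ))ˣ) : PadicAlgCl (q : ℕ)))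
        (w.2 τ hτ)
    have hny : ‖y‖ = 1 := by rw [hy, norm_div, hy₀1, hρ1, div_one]
    have h1 : τ y / y = 1 := PadicFields.eq_one_of_pow_eq_one hqp
      (by rw [div_pow, ← map_pow, hyp, hfix, div_self (Units.ne_zero _)]) (by
        rw [div_sub_one hy0, norm_div, hny, div_one, show τ y - y = τ (y - 1) + -(y - 1) by
          rw [map_sub, map_one]; ring]
        refine (IsUltrametricDist.norm_add_le_max _ _).trans_lt ?_
        rw [norm_neg, show ‖τ (y - 1)‖ = ‖y - 1‖ from (spectralNorm_eq_of_equiv τ _).symm, max_self]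
        exact hy1)
    exact (div_eq_one_iff_eq hy0).1 h1
  · show ((Units.mk0 y hy0) ^ p : (PadicAlgCl (q : ℕ))ˣ).1 = _
    rw [Units.val_pow_eq_pow_val, Units.val_mk0, hyp]

/-- Units modulo `p` are equivariantly the units killed by `p`. -/
theorem exists_quot_equiv_tors {p : ℕ} [Fact p.Prime] (hpq : p ≠ (q : ℕ)) :
    ∃ φ : unitSub K q →+[decGroup K q] unitSub K q,
      (∀ u, p • φ u = 0) ∧ (∀ z, p • z = 0 → ∃ u, φ u = z) ∧
        (∀ u, φ u = 0 → ∃ v, p • v = u) ∧ Finite {z : unitSub K q // p • z = 0} := by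
  classical
  have hp := (Fact.out : p.Prime)
  have hqp : ¬ (q : ℕ) ∣ p := fun h => hpq ((Nat.prime_dvd_prime_iff_eq q.2 hp).1 h).symm
  let F := localField (emb0 q) K
  let toInt : unitSub K q → PadicFields.integers F := fun u =>
    ⟨⟨lval (u : locUnits K q), mem_localField_of_mem_locUnits (u : locUnits K q).2⟩, by
      rw [PadicFields.mem_integers, PadicFields.norm_def]
      exact u.2.le⟩
  let toRes : Multiplicative (unitSub K q) →* PadicFields.residueField F :=
    (IsLocalRing.residue (PadicFields.integers F)).toMonoidHom.comp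
      { toFun := fun u => toInt u.toAdd, map_one' := rfl, map_mul' := fun _ _ => rfl }
  let ρ : unitSub K q →+ Additive (PadicFields.residueField F)ˣ :=
    MonoidHom.toAdditiveRight toRes.toHomUnits
  have hρ0 : ∀ u, ρ u = 0 ↔ ‖lval (u : locUnits K q) - 1‖ < 1 := by
    intro u
    rw [← Additive.toMul.injective.eq_iff, ← Units.val_inj]
    show IsLocalRing.residue _ (toInt u) = 1 ↔ _
    rw [← sub_eq_zero, ← map_one (IsLocalRing.residue (PadicFields.integers F)), ← map_sub,
      IsLocalRing.residue_eq_zero_iff, PadicFields.mem_maximalIdeal_iff, PadicFields.norm_def]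
    rfl
  -- the kernel is uniquely `p`-divisible
  have hdiv : ∀ u, ρ u = 0 → ∃ v, ρ v = 0 ∧ p • v = u := fun u hu => by
    obtain ⟨v, hv, he⟩ := exists_nsmul_eq_of_principal hp hpq ((hρ0 u).1 hu)
    have hv1 : v ∈ unitSub K q := by
      have h := congrArg (fun z : locUnits K q => ‖lval z‖) he
      have hvp : lval (p • v) = lval v ^ p := Units.val_pow_eq_pow_val _ p
      rw [hvp, norm_pow, u.2] at h
      exact (pow_eq_one_iff_of_nonneg (norm_nonneg _) hp.ne_zero).1 h
    exact ⟨⟨v, hv1⟩, (hρ0 _).2 hv, Subtype.ext he⟩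
  have huniq : ∀ z, p • z = 0 → ρ z = 0 → z = 0 := fun z hz hz0 => by
    refine Subtype.ext (lval_injective ?_)
    refine PadicFields.eq_one_of_pow_eq_one hqp ?_ ((hρ0 z).1 hz0)
    have h := congrArg (fun w : unitSub K q => lval (w : locUnits K q)) hz
    exact (Units.val_pow_eq_pow_val _ p).symm.trans h
  have hstab : ∀ (g : decGroup K q) (u : unitSub K q), ρ u = 0 → ρ (g • u) = 0 := fun g u hu => by
    rw [hρ0] at hu ⊢
    rw [show ((g • u : unitSub K q) : locUnits K q) = g • (u : locUnits K q) from rfl, lval_smul,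
      ← map_one (liftDec g), ← map_sub]
    exact (spectralNorm_eq_of_equiv (liftDec g) _).symm.trans_lt hu
  have : Finite (PadicFields.residueField F) :=
    Nat.finite_of_card_ne_zero (by
      rw [PadicFields.natCard_residueField']
      exact pow_ne_zero _ q.2.ne_zero)
  have : Finite ρ.range := inferInstance
  obtain ⟨γ, hγ⟩ := IsAddCyclic.exists_generator (α := ρ.range)
  obtain ⟨u₁, hu₁⟩ := γ.2
  have hgen : ∀ u, ∃ k : ℤ, ρ (k • u₁) = ρ u := fun u => by
    obtain ⟨k, hk⟩ := AddSubgroup.mem_zmultiples_iff.1 (hγ ⟨ρ u, u, rfl⟩)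
    exact ⟨k, by rw [map_zsmul, hu₁]; exact congrArg Subtype.val hk⟩
  set N := addOrderOf (ρ u₁) with hN
  have hfin : Finite {z : unitSub K q // p • z = 0} := by
    refine Finite.of_injective (fun z => (⟨ρ z.1, z.1, rfl⟩ : ρ.range)) fun a b h => Subtype.ext ?_
    refine sub_eq_zero.1 (huniq _ (by rw [nsmul_sub, a.2, b.2, sub_self]) ?_)
    rw [map_sub, sub_eq_zero]
    exact congrArg Subtype.val h
  by_cases hdvd : p ∣ N
  swap
  · -- no `p`-torsion, everything is divisible
    refine ⟨0, fun u => nsmul_zero p, fun z hz => ⟨0, (huniq z hz ?_).symm⟩, fun u _ => ?_, hfin⟩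
    · obtain ⟨k, hk⟩ := hgen z
      have h1 : ρ ((p : ℤ) • k • u₁) = 0 := by
        rw [map_zsmul, hk, ← map_zsmul, natCast_zsmul, hz, map_zero]
      rw [map_zsmul, map_zsmul, ← mul_smul, ← addOrderOf_dvd_iff_zsmul_eq_zero, ← hN] at h1
      have hcop : IsCoprime (N : ℤ) (p : ℤ) := Int.isCoprime_iff_nat_coprime.2 (by
        simpa using ((hp.coprime_iff_not_dvd).2 hdvd).symm)
      have h2 : (N : ℤ) ∣ k := hcop.dvd_of_dvd_mul_left h1
      rw [← hk, map_zsmul, ← addOrderOf_dvd_iff_zsmul_eq_zero, ← hN]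
      exact h2
    · obtain ⟨k, hk⟩ := hgen u
      obtain ⟨a, b, hab⟩ : IsCoprime (p : ℤ) (N : ℤ) := Int.isCoprime_iff_nat_coprime.2 (by
        simpa using (hp.coprime_iff_not_dvd).2 hdvd)
      obtain ⟨v, hv, hve⟩ := hdiv (u - p • ((k * a) • u₁)) (by
        rw [map_sub, ← hk, map_nsmul, map_zsmul, map_zsmul, sub_eq_zero, ← natCast_zsmul,
          ← mul_smul]
        have hN0 : ((k * b) * (N : ℤ)) • ρ u₁ = 0 := by
          rw [mul_smul, natCast_zsmul, hN, addOrderOf_nsmul_eq_zero, smul_zero]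
        conv_lhs => rw [show k = (p : ℤ) * (k * a) + (k * b) * N by linear_combination (-k) * hab]
        rw [add_zsmul, hN0, add_zero])
      exact ⟨v + (k * a) • u₁, by rw [nsmul_add, hve, sub_add_cancel]⟩
  obtain ⟨c, hc⟩ := hdvd
  have hkill : ∀ u, ρ (p • c • u) = 0 := fun u => by
    obtain ⟨k, hk⟩ := hgen u
    rw [← mul_smul, ← hc, map_nsmul, ← hk, map_zsmul, ← natCast_zsmul, ← mul_smul, mul_comm,
      mul_smul, natCast_zsmul, hN, addOrderOf_nsmul_eq_zero, smul_zero]
  have hex : ∀ u, ∃ z, p • z = 0 ∧ ρ z = c • ρ u := fun u => by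
    obtain ⟨v, hv, hve⟩ := hdiv _ (hkill u)
    exact ⟨c • u - v, by rw [nsmul_sub, hve, sub_self], by rw [map_sub, hv, sub_zero, map_nsmul]⟩
  choose z hzp hzρ using hex
  have hchar : ∀ u w, p • w = 0 → ρ (w - c • u) = 0 → z u = w := fun u w hw h => by
    refine sub_eq_zero.1 (huniq _ (by rw [nsmul_sub, hzp, hw, sub_self]) ?_)
    rw [map_sub, map_nsmul, sub_eq_zero] at h
    rw [map_sub, hzρ, h, sub_self]
  let φ : unitSub K q →+[decGroup K q] unitSub K q :=
    { toFun := z
      map_smul' := fun g u => hchar _ _ (by rw [smul_comm, hzp, smul_zero]) (by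
        rw [smul_comm c]
        show ρ (g • z u - g • c • u) = 0
        rw [← smul_sub]
        exact hstab g _ (by rw [map_sub, hzρ, map_nsmul, sub_self]))
      map_zero' := hchar _ _ (nsmul_zero p) (by rw [nsmul_zero, sub_zero, map_zero])
      map_add' := fun u v => hchar _ _ (by rw [nsmul_add, hzp, hzp, add_zero]) (by
        rw [map_sub, map_add, hzρ, hzρ, map_nsmul, map_add, nsmul_add, sub_self]) }
  have hc0 : c ≠ 0 := fun h => (addOrderOf_pos (⟨ρ u₁, u₁, rfl⟩ : ρ.range)).ne' (by
    rw [← AddSubgroup.addOrderOf_coe, ← hN, hc, h, mul_zero])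
  refine ⟨φ, hzp, fun w hw => ?_, fun u hu => ?_, hfin⟩
  · obtain ⟨k, hk⟩ := hgen w
    have h1 : ρ ((p : ℤ) • k • u₁) = 0 := by
      rw [map_zsmul, hk, ← map_zsmul, natCast_zsmul, hw, map_zero]
    rw [map_zsmul, map_zsmul, ← mul_smul, ← addOrderOf_dvd_iff_zsmul_eq_zero, ← hN, hc,
      Nat.cast_mul, mul_dvd_mul_iff_left (Int.natCast_ne_zero.2 hp.ne_zero)] at h1
    obtain ⟨j, rfl⟩ := h1
    refine ⟨j • u₁, hchar _ _ hw ?_⟩
    rw [map_sub, ← hk, map_nsmul, map_zsmul, map_zsmul, mul_smul, natCast_zsmul, sub_self]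
  · obtain ⟨k, hk⟩ := hgen u
    have h1 : (c : ℤ) • ρ u = 0 := by
      rw [natCast_zsmul, ← hzρ, show z u = 0 from hu, map_zero]
    rw [← hk, map_zsmul, ← mul_smul, ← addOrderOf_dvd_iff_zsmul_eq_zero, ← hN, hc, Nat.cast_mul,
      mul_comm (c : ℤ), mul_dvd_mul_iff_right (Int.natCast_ne_zero.2 hc0)] at h1
    obtain ⟨j, rfl⟩ := h1
    obtain ⟨v, hv, hve⟩ := hdiv (u - p • (j • u₁)) (by
      rw [map_sub, ← hk, map_nsmul, map_zsmul, map_zsmul, mul_smul, natCast_zsmul, sub_self])
    exact ⟨v + j • u₁, by rw [nsmul_add, hve, sub_add_cancel]⟩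

theorem pFinite_unitSub {p : ℕ} [Fact p.Prime] (hpq : p ≠ (q : ℕ)) :
    PFinite p (unitSub K q) := by
  obtain ⟨φ, hφp, -, hφ0, hfin⟩ := exists_quot_equiv_tors (K := K) hpq
  refine ⟨?_, hfin⟩
  let f : unitSub K q ⧸ pSub p (unitSub K q) → {z : unitSub K q // p • z = 0} :=
    Quotient.lift (fun u => (⟨φ u, hφp u⟩ : {z : unitSub K q // p • z = 0})) fun a b h =>
      Subtype.ext (by
        obtain ⟨v, hv⟩ := mem_pSub.1 (QuotientAddGroup.leftRel_apply.1 h)
        obtain rfl : b = a + p • v := by rw [hv, add_neg_cancel_left]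
        show φ a = φ (a + p • v)
        rw [map_add, map_nsmul, hφp, add_zero])
  refine Finite.of_injective f ?_
  rintro ⟨a⟩ ⟨b⟩ h
  refine QuotientAddGroup.eq.2 ?_
  obtain ⟨v, hv⟩ := hφ0 (-a + b) (by
    rw [map_add, map_neg, show φ a = φ b from congrArg Subtype.val h, neg_add_cancel])
  exact mem_pSub.2 ⟨v, hv⟩

theorem pFinite_locUnits {p : ℕ} [Fact p.Prime] (hpq : p ≠ (q : ℕ)) (hq : IsUnramifiedAt ⊥ K q) :
    PFinite p (locUnits K q) := by
  have hp := (Fact.out : p.Prime)
  obtain ⟨P, ord, ϖ, -, hϖ, hord, hdec⟩ := exists_retraction hq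
  have hU := pFinite_unitSub (K := K) (p := p) hpq
  have := hU.quot
  have := hU.tors
  refine ⟨?_, ?_⟩
  · refine Finite.of_surjective
      (fun x : (unitSub K q ⧸ pSub p (unitSub K q)) × Fin p =>
        QuotientAddGroup.map _ (pSub p (locUnits K q))
            (unitIncl K q : unitSub K q →+ locUnits K q)
            (fun u hu => by
              obtain ⟨v, rfl⟩ := mem_pSub.1 hu
              exact mem_pSub.2 ⟨unitIncl K q v, (map_nsmul (unitIncl K q) p v).symm⟩) x.1 +
          QuotientAddGroup.mk ((x.2 : ℕ) • ϖ)) ?_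
    rintro ⟨y⟩
    have hp0 : (0 : ℤ) < p := Int.natCast_pos.2 hp.pos
    refine ⟨(QuotientAddGroup.mk (P y), ⟨(ord y % p).toNat, by
      have := Int.emod_lt_of_pos (ord y) hp0
      omega⟩), ?_⟩
    show QuotientAddGroup.mk (unitIncl K q (P y)) + QuotientAddGroup.mk _ = QuotientAddGroup.mk y
    rw [← QuotientAddGroup.mk_add, QuotientAddGroup.eq]
    refine mem_pSub.2 ⟨(ord y / p) • ϖ, ?_⟩
    rw [← natCast_zsmul, ← mul_smul]
    conv_rhs => enter [2]; rw [hdec y]
    show _ = -((P y : locUnits K q) + ((ord y % p).toNat : ℕ) • ϖ) + _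
    rw [← natCast_zsmul, Int.toNat_of_nonneg (Int.emod_nonneg _ hp0.ne'), Int.mul_ediv_self]
    have : ord y = ord y % p + (ord y - ord y % p) := by ring
    conv_rhs => rw [this, add_zsmul]
    abel
  · refine Finite.of_injective
      (fun y : {y : locUnits K q // p • y = 0} =>
        (⟨P y.1, by rw [← map_nsmul, y.2, map_zero]⟩ : {z : unitSub K q // p • z = 0}))
      fun a b h => Subtype.ext ?_
    have h0 : ∀ y : {y : locUnits K q // p • y = 0}, ord y.1 = 0 := fun y => by
      have e := congrArg ord y.2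
      rw [map_nsmul, map_zero, nsmul_eq_mul, mul_eq_zero] at e
      exact e.resolve_left (Int.natCast_ne_zero.2 hp.ne_zero)
    rw [hdec a.1, hdec b.1, h0, h0, show P a.1 = P b.1 from congrArg Subtype.val h]

section Index

variable {p : ℕ} [Fact p.Prime] {M : Type} [AddCommGroup M] [DistribMulAction (LevelGroup K) M]
  [Finite M]

/-- The Euler characteristic of the units at an unramified prime vanishes. -/
theorem eulerChar_unitSub (hM : ∀ m : M, p • m = 0) (hpq : p ≠ (q : ℕ))
    (hq : IsUnramifiedAt ⊥ K q) : eulerChar (decGroup K q) p M (unitSub K q) = 0 := by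
  classical
  have hY : PFinite p PUnit.{1} := ⟨inferInstance, inferInstance⟩
  have hA : PAcyclic (decGroup K q) p PUnit.{1} := fun Q _ =>
    ⟨fun H f _ => ⟨0, Subsingleton.elim _ _⟩, fun H c _ => ⟨0, Subsingleton.elim _ _⟩⟩
  have hz : ∀ {A : Type} [Subsingleton A], dlog p A = 0 := fun {A} _ => by
    rcases isEmpty_or_nonempty A with h | h
    · simp [dlog]
    · simp [dlog, Nat.card_unique]
  have hsub : ∀ (X : Type) [AddCommGroup X] [Subsingleton X] (A : Type) [AddCommGroup A],
      Subsingleton (CHom A X) := fun X _ _ A _ =>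
    ⟨fun a b => CHom.ext' fun r => Subsingleton.elim _ _⟩
  rw [eulerChar_eq_of_qHom_eq hM (pAcyclic_unitSub p hq) hA (pFinite_unitSub hpq) hY
    (fun D _ _ => ?_)]
  · letI := Fintype.ofFinite (decGroup K q)
    have := hsub PUnit.{1} M
    have := hsub PUnit.{1} (kerOf (freeCover (decGroup K q) M))
    have : Subsingleton (Coh1 (freeCover (decGroup K q) M) PUnit.{1}) :=
      QuotientAddGroup.mk_surjective.subsingleton
    show dlog p (Coh1 (freeCover (decGroup K q) M) PUnit.{1}) -
      dlog p (homG (decGroup K q) M PUnit.{1}) = 0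
    rw [hz, hz, sub_self]
  · obtain ⟨φ, hφp, hφs, hφ0, -⟩ := exists_quot_equiv_tors (K := K) hpq
    let U := unitSub K q
    let φ' : U ⧸ pSub p U →+ pTor D p U := QuotientAddGroup.lift _
      (((φ : U →+ U)).codRestrict _ fun u => hφp u) fun u hu => by
        obtain ⟨v, rfl⟩ := mem_pSub.1 hu
        exact Subtype.ext ((map_nsmul φ p v).trans (hφp v))
    have hφ' : Function.Bijective φ' := by
      refine ⟨(injective_iff_map_eq_zero _).2 fun x hx => ?_, fun w => ?_⟩
      · induction x using QuotientAddGroup.induction_on with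
        | H u => exact (QuotientAddGroup.eq_zero_iff _).2 (mem_pSub.2 (hφ0 u (congrArg Subtype.val hx)))
      · obtain ⟨u, hu⟩ := hφs (w : U) w.2
        exact ⟨QuotientAddGroup.mk u, Subtype.ext hu⟩
    let e : (U ⧸ pSub p U) →+[D] pTor D p U :=
      { toFun := φ'
        map_smul' := fun g x => by
          induction x using QuotientAddGroup.induction_on with
          | H u => exact Subtype.ext (map_smul φ (g : decGroup K q) u)
        map_zero' := map_zero φ'
        map_add' := map_add φ' }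
    have hb : Function.Bijective (postHom (A := M) e) := by
      refine ⟨fun a b h => Subtype.ext (CHom.ext' fun m => hφ'.1
        (congrArg (fun z : homG D M (pTor D p U) => (z : CHom M (pTor D p U)) m) h)), fun w => ?_⟩
      let E : (U ⧸ pSub p U) ≃+ pTor D p U := AddEquiv.ofBijective φ' hφ'
      refine ⟨⟨⟨E.symm.toAddMonoidHom.comp (w : CHom M (pTor D p U)).hom⟩,
        (CHom.fixed_iff _).2 fun g m => hφ'.1 ?_⟩, Subtype.ext (CHom.ext' fun m => ?_)⟩
      · show E (E.symm ((w : CHom M (pTor D p U)) (g • m))) =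
          e (g • E.symm ((w : CHom M (pTor D p U)) m))
        refine (E.apply_symm_apply _).trans (Eq.trans ?_ (map_smul e g _).symm)
        rw [show e (E.symm ((w : CHom M (pTor D p U)) m)) =
          (w : CHom M (pTor D p U)) m from E.apply_symm_apply _]
        exact (CHom.fixed_iff (w : CHom M (pTor D p U))).1 w.2 g m
      · exact E.apply_symm_apply _
    have : Subsingleton (PUnit.{1} ⧸ pSub p PUnit.{1}) :=
      QuotientAddGroup.mk_surjective.subsingleton
    have := hsub (PUnit.{1} ⧸ pSub p PUnit.{1}) M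
    have := hsub (pTor D p PUnit.{1}) M
    have key : dlog p (homG D M (unitSub K q ⧸ pSub p (unitSub K q))) =
        dlog p (homG D M (pTor D p (unitSub K q))) := dlog_congr p (Equiv.ofBijective _ hb)
    rw [qHom, qHom]
    exact (sub_eq_zero.2 key).trans (by rw [hz, hz, sub_self])

variable (K q M) [Fintype (LevelGroup K)]

/-- The local subgroup at an auxiliary place: unit-valued homomorphisms and restrictions. -/
def unitY : AddSubgroup (homG (decGroup K q) ↥(kerOf (freeCover (LevelGroup K) M)) (locUnits K q)) :=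
  (postHom (A := ↥(kerOf (freeCover (LevelGroup K) M))) (unitIncl K q)).range ⊔
    resRange (restrictHom (decGroup K q) (freeCover (LevelGroup K) M)) (locUnits K q)

variable {K q M}

omit [FiniteDimensional ℚ K] [Finite M] in
theorem resRange_le_unitY :
    resRange (restrictHom (decGroup K q) (freeCover (LevelGroup K) M)) (locUnits K q) ≤
      unitY K q M :=
  le_sup_right

omit [FiniteDimensional ℚ K] [Finite M] in
theorem mem_unitY_of_forall
    {y : homG (decGroup K q) ↥(kerOf (freeCover (LevelGroup K) M)) (locUnits K q)}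
    (hy : ∀ r, (y : CHom ↥(kerOf (freeCover (LevelGroup K) M)) (locUnits K q)) r ∈ unitSub K q) :
    y ∈ unitY K q M := by
  let y₀ : CHom ↥(kerOf (freeCover (LevelGroup K) M)) (unitSub K q) :=
    ⟨(y : CHom ↥(kerOf (freeCover (LevelGroup K) M)) (locUnits K q)).hom.codRestrict
      (unitSub K q) hy⟩
  have hy₀ : ∀ g : decGroup K q, g • y₀ = y₀ := fun g => CHom.ext' fun r => Subtype.ext
    (congrArg (fun z : CHom ↥(kerOf (freeCover (LevelGroup K) M)) (locUnits K q) => z r) (y.2 g))
  exact AddSubgroup.mem_sup_left ⟨⟨y₀, hy₀⟩, Subtype.ext (CHom.ext' fun r => rfl)⟩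

theorem extends_of_mem_unitY [Module (ZMod p) M] [Fintype (decGroup K q)]
    (hq : IsUnramifiedAt ⊥ K q) {f : LevelGroup K → M} (hf : d1 f = 0)
    {y : homG (decGroup K q) ↥(kerOf (freeCover (LevelGroup K) M)) (locUnits K q)}
    (hy : y ∈ unitY K q M) :
    Extends p ((freePres (LevelGroup K) M).restrict (decGroup K q))
      (fun h : decGroup K q => f h)
      (y : CHom ↥(kerOf (freeCover (LevelGroup K) M)) (locUnits K q)) := by
  classical
  set D := (freePres (LevelGroup K) M).restrict (decGroup K q)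
  have hf' : d1 (fun h : decGroup K q => f h) = 0 := funext fun x =>
    congr_fun hf ((x.1 : LevelGroup K), (x.2 : LevelGroup K))
  obtain ⟨_, ⟨a, rfl⟩, b, hb, rfl⟩ := AddSubgroup.mem_sup.1 hy
  rw [AddSubgroup.coe_add]
  refine Extends.add D ?_ ?_
  · obtain ⟨m, hm, φ, hφ⟩ := (pAcyclic_unitSub p hq).exists_norm
      (a : CHom ↥(kerOf (freeCover (LevelGroup K) M)) (unitSub K q)) a.2
    refine Extends.of_nsmul D hm ?_
    have e : m • CHom.post (unitIncl K q)
        (a : CHom ↥(kerOf (freeCover (LevelGroup K) M)) (unitSub K q)) =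
        normSum (decGroup K q) (CHom.post (unitIncl K q) φ) := by
      rw [← map_nsmul, ← hφ, map_normSum]
    exact e ▸ extends_normSum D hf' _
  · obtain ⟨L, hL⟩ := mem_resRange.1 hb
    exact (show CHom.pre D.i (L : CHom _ (locUnits K q)) =
      (b : CHom ↥(kerOf (freeCover (LevelGroup K) M)) (locUnits K q)) from hL) ▸ extends_pre D L.2

omit [FiniteDimensional ℚ K] in
theorem norm_lval_add_nsmul (u : unitSub K q) (z : locUnits K q) (n : ℕ) :
    ‖lval ((u : locUnits K q) + n • z)‖ = ‖lval z‖ ^ n := by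
  have h1 : lval ((u : locUnits K q) + n • z) = lval (u : locUnits K q) * lval (n • z) := rfl
  have h2 : lval (n • z) = lval z ^ n := Units.val_pow_eq_pow_val _ n
  rw [h1, norm_mul, h2, norm_pow, mem_unitSub.1 u.2, one_mul]

/-- On multiples of `p` the elements of `unitY` have absolute value a `p`-th power of that of `q`. -/
theorem exists_norm_eq_zpow_mul (hq : IsUnramifiedAt ⊥ K q)
    {y : homG (decGroup K q) ↥(kerOf (freeCover (LevelGroup K) M)) (locUnits K q)}
    (hy : y ∈ unitY K q M) (r : ↥(kerOf (freeCover (LevelGroup K) M)))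
    {a : Ind (LevelGroup K) (M →₀ ℤ)} (ha : (r : Ind (LevelGroup K) (M →₀ ℤ)) = p • a) :
    ∃ k : ℤ, ‖lval ((y : CHom ↥(kerOf (freeCover (LevelGroup K) M)) (locUnits K q)) r)‖ =
      ‖((q : ℕ) : PadicAlgCl (q : ℕ))‖ ^ ((p : ℤ) * k) := by
  obtain ⟨x, hx, b, hb, rfl⟩ := AddSubgroup.mem_sup.1 hy
  obtain ⟨u, rfl⟩ := AddMonoidHom.mem_range.1 hx
  obtain ⟨L, hL⟩ := mem_resRange.1 hb
  let z : locUnits K q := (L : CHom (Ind (LevelGroup K) (M →₀ ℤ)) (locUnits K q)) a
  let u₀ : unitSub K q := (u : CHom ↥(kerOf (freeCover (LevelGroup K) M)) (unitSub K q)) r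
  obtain ⟨k, hk⟩ := exists_norm_eq_natCast_zpow hq (emb0 q)
    (mem_localField_of_mem_locUnits z.2) (Units.ne_zero _)
  refine ⟨k, ?_⟩
  have hbr : (b : CHom ↥(kerOf (freeCover (LevelGroup K) M)) (locUnits K q)) r = p • z := by
    have e1 := congrArg
      (fun w : CHom ↥(kerOf (freeCover (LevelGroup K) M)) (locUnits K q) => w r) hL
    have e2 : (L : CHom (Ind (LevelGroup K) (M →₀ ℤ)) (locUnits K q))
        (r : Ind (LevelGroup K) (M →₀ ℤ)) = p • z := by
      rw [ha, map_nsmul]
    exact e1.symm.trans e2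
  have hsum : ((postHom (unitIncl K q) u + b : homG (decGroup K q)
      ↥(kerOf (freeCover (LevelGroup K) M)) (locUnits K q)) :
        CHom ↥(kerOf (freeCover (LevelGroup K) M)) (locUnits K q)) r =
      (u₀ : locUnits K q) + p • z := by
    rw [← hbr]
    rfl
  rw [hsum, norm_lval_add_nsmul, hk, ← zpow_natCast, ← zpow_mul, mul_comm]

theorem isPresentation_restrict :
    IsPresentation (restrictHom (decGroup K q) (freeCover (LevelGroup K) M)) := by
  have := Fintype.ofFinite M
  exact ⟨freeCover_surjective, (freePres (LevelGroup K) M).free_P,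
    Module.Finite.of_basis (freePres (LevelGroup K) M).b⟩

theorem finite_coh1_locUnits (hM : ∀ m : M, p • m = 0) (hpq : p ≠ (q : ℕ))
    (hq : IsUnramifiedAt ⊥ K q) :
    Finite (Coh1 (restrictHom (decGroup K q) (freeCover (LevelGroup K) M)) (locUnits K q)) ∧
      Finite (homG (decGroup K q) M (locUnits K q)) :=
  ⟨finite_coh1 hM (pFinite_locUnits hpq hq) isPresentation_restrict,
    finite_coh0 hM (pFinite_locUnits hpq hq)⟩

/-- The net contribution of an auxiliary place is at most zero. -/
theorem dlog_quot_unitY_le_euler (hM : ∀ m : M, p • m = 0) (hpq : p ≠ (q : ℕ))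
    (hq : IsUnramifiedAt ⊥ K q) :
    dlog p (homG (decGroup K q) ↥(kerOf (freeCover (LevelGroup K) M)) (locUnits K q) ⧸
        unitY K q M) ≤
      euler p (restrictHom (decGroup K q) (freeCover (LevelGroup K) M)) (locUnits K q) := by
  classical
  let π := restrictHom (decGroup K q) (freeCover (LevelGroup K) M)
  have hπ : IsPresentation π := isPresentation_restrict
  obtain ⟨hfin, hfin0⟩ := finite_coh1_locUnits (K := K) (q := q) hM hpq hq
  obtain ⟨P, ord, ϖ, hP, -, -, -⟩ := exists_retraction hq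
  -- units into all local elements
  let j : Coh1 π (unitSub K q) →+ Coh1 π (locUnits K q) :=
    QuotientAddGroup.map _ _ (postHom (unitIncl K q)) fun y hy => by
      obtain ⟨L, hL⟩ := mem_resRange.1 hy
      exact mem_resRange.2 ⟨postHom (unitIncl K q) L,
        CHom.ext' fun r => congrArg (unitIncl K q) (congrArg (fun z : CHom _ _ => z r) hL)⟩
  have hj : Function.Injective j := (injective_iff_map_eq_zero j).2 fun x hx => by
    induction x using QuotientAddGroup.induction_on with
    | H y =>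
      obtain ⟨L, hL⟩ := mem_resRange.1 ((QuotientAddGroup.eq_zero_iff _).1 hx)
      refine (QuotientAddGroup.eq_zero_iff _).2 (mem_resRange.2 ⟨postHom P L, CHom.ext' fun r => ?_⟩)
      exact (congrArg P (congrArg (fun z : CHom _ _ => z r) hL)).trans (hP _)
  let Φ : Coh1 π (locUnits K q) →+
      homG (decGroup K q) ↥(kerOf (freeCover (LevelGroup K) M)) (locUnits K q) ⧸ unitY K q M :=
    QuotientAddGroup.map _ _ (AddMonoidHom.id _) resRange_le_unitY
  have hΦ : Function.Surjective Φ := by
    rintro ⟨y⟩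
    exact ⟨QuotientAddGroup.mk y, rfl⟩
  have hle : j.range ≤ Φ.ker := by
    rintro _ ⟨x, rfl⟩
    induction x using QuotientAddGroup.induction_on with
    | H y => exact (QuotientAddGroup.eq_zero_iff _).2 (AddSubgroup.mem_sup_left ⟨y, rfl⟩)
  have h1 := dlog_ker_add_range p Φ
  rw [AddMonoidHom.range_eq_top.2 hΦ, dlog_congr p AddSubgroup.topEquiv.toEquiv] at h1
  have h2 : dlog p (Coh1 π (unitSub K q)) ≤ dlog p Φ.ker := by
    rw [dlog_congr p (AddMonoidHom.ofInjective hj).toEquiv]
    exact dlog_mono p hle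
  have hh : Function.Bijective (postHom (A := M) (unitIncl K q)) := by
    refine ⟨fun a b h => Subtype.ext (CHom.ext' fun m => unitIncl_injective K q
      (congrArg (fun z : homG (decGroup K q) M (locUnits K q) =>
        (z : CHom M (locUnits K q)) m) h)), fun w => ?_⟩
    have hw : ∀ m, (w : CHom M (locUnits K q)) m ∈ unitSub K q := fun m => by
      have e : p • (w : CHom M (locUnits K q)) m = 0 := by
        rw [← map_nsmul, hM]
        exact map_zero (w : CHom M (locUnits K q)).hom
      have e' : lval (p • (w : CHom M (locUnits K q)) m) = 1 := by rw [e]; rfl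
      rw [show lval (p • (w : CHom M (locUnits K q)) m) = lval ((w : CHom M (locUnits K q)) m) ^ p
        from Units.val_pow_eq_pow_val _ p] at e'
      have e'' := congrArg norm e'
      rw [norm_pow, norm_one] at e''
      exact (pow_eq_one_iff_of_nonneg (norm_nonneg _) (Fact.out : p.Prime).ne_zero).1 e''
    exact ⟨⟨⟨(w : CHom M (locUnits K q)).hom.codRestrict _ hw⟩, (CHom.fixed_iff _).2 fun g m =>
      Subtype.ext ((CHom.fixed_iff (w : CHom M (locUnits K q))).1 w.2 g m)⟩,
      Subtype.ext (CHom.ext' fun m => rfl)⟩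
  have h3 : euler p π (unitSub K q) = 0 := by
    rw [euler_eq_eulerChar hM (pAcyclic_unitSub p hq) hπ, eulerChar_unitSub hM hpq hq]
  rw [euler, dlog_congr p (Equiv.ofBijective _ hh)] at h3
  show _ ≤ dlog p (Coh1 π (locUnits K q)) - dlog p (homG (decGroup K q) M (locUnits K q))
  omega

end Index

end Fermat.Agent.ClassField.GW
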