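import Fermat.Agent.ClassField.GW.Pairing

/-!
# Greenberg–Wiles: the abstract inequality

`0 → E → J → C → 0` exact, `C` a class module, `J` the product over a finite set of places `v` of
modules coinduced from the decomposition groups `Gv v` along the projections `pr v`.  If the local
subgroups `Yv v ⊆ Hom_{Gv}(R, B v)` extend along all cocycles in `W`, then

`dim W/B¹ ≤ log #(classes of Ext(M, E) locally in Yv) + χ(C) + Σ_v (log [: Yv] - χ(B v)) - log #Hom(M, E)`
-/

set_option autoImplicit false

noncomputable section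

namespace Fermat.Agent.ClassField.GW

open S55

section FreePres

/-- The index set of the standard basis of the free presentation. -/
@[ext]
structure FreeIdx (G M : Type*) where
  /-- the group element -/
  elt : G
  /-- the element of the module -/
  val : M

namespace FreeIdx

variable {G M : Type*}

instance [Group G] : MulAction G (FreeIdx G M) where
  smul g x := ⟨g * x.elt, x.val⟩
  one_smul x := FreeIdx.ext (one_mul x.elt) rfl
  mul_smul g h x := FreeIdx.ext (mul_assoc g h x.elt) rfl

/-- `FreeIdx G M` is a product. -/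
def equivProd : G × M ≃ FreeIdx G M where
  toFun x := ⟨x.1, x.2⟩
  invFun x := (x.elt, x.val)
  left_inv _ := rfl
  right_inv _ := rfl

instance [Fintype G] [Fintype M] : Fintype (FreeIdx G M) := Fintype.ofEquiv _ equivProd

instance [Finite G] [Finite M] : Finite (FreeIdx G M) := Finite.of_equiv _ equivProd

end FreeIdx

variable (G : Type*) [Group G] [Fintype G] (M : Type*) [AddCommGroup M] [DistribMulAction G M]
  [Finite M]

/-- `Ind G (M →₀ ℤ)` is free on `FreeIdx G M`. -/
def freeLinearEquiv : Ind G (M →₀ ℤ) ≃ₗ[ℤ] (FreeIdx G M →₀ ℤ) :=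
  AddEquiv.toIntLinearEquiv
    { toFun := fun f => Finsupp.equivFunOnFinite.symm fun x : FreeIdx G M => f.val x.elt x.val
      invFun := fun v => ⟨fun g => Finsupp.equivFunOnFinite.symm fun m => v ⟨g, m⟩⟩
      left_inv := fun f => Ind.ext (funext fun g => Finsupp.ext fun m => rfl)
      right_inv := fun v => Finsupp.ext fun x => rfl
      map_add' := fun f f' => Finsupp.ext fun x => rfl }

/-- The free presentation of `M`. -/
def freePres : FinPresentation G (kerOf (freeCover G M)) (Ind G (M →₀ ℤ)) M (FreeIdx G M) where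
  i := kerIncl (freeCover G M)
  π := freeCover G M
  i_inj := Subtype.val_injective
  π_surj := freeCover_surjective
  exact y := ⟨fun h => ⟨⟨y, h⟩, rfl⟩, fun ⟨r, hr⟩ => hr ▸ mem_kerOf.1 r.2⟩
  b := Module.Basis.ofRepr (freeLinearEquiv G M)
  smul_b g x := by
    classical
    refine Ind.ext (funext fun τ => Finsupp.ext fun m => ?_)
    obtain ⟨h, m'⟩ := x
    show (Finsupp.single (⟨h, m'⟩ : FreeIdx G M) (1 : ℤ)) ⟨g⁻¹ * τ, m⟩ =
      (Finsupp.single (⟨g * h, m'⟩ : FreeIdx G M) (1 : ℤ)) ⟨τ, m⟩
    rw [Finsupp.single_apply, Finsupp.single_apply]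
    refine if_congr ?_ rfl rfl
    simp [eq_inv_mul_iff_mul_eq]

instance : Module.Free ℤ (kerOf (freeCover G M)) := by
  have := (freePres G M).free_P
  have : Module.Finite ℤ (Ind G (M →₀ ℤ)) := Module.Finite.of_basis (freePres G M).b
  exact inferInstanceAs (Module.Free ℤ (kerOf (freeCover G M)).toIntSubmodule)

variable {G M}

/-- Equivariant maps from the free cover lift along surjections. -/
lemma exists_lift_freeCover {J C : Type*} [AddCommGroup J] [DistribMulAction G J] [AddCommGroup C]
    [DistribMulAction G C] (q : J →+[G] C) (hq : Function.Surjective q)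
    (h : homG G (Ind G (M →₀ ℤ)) C) :
    ∃ L : homG G (Ind G (M →₀ ℤ)) J, CHom.post q (L : CHom (Ind G (M →₀ ℤ)) J) = h := by
  classical
  choose l hl using hq
  let β : (M →₀ ℤ) →+ J := Finsupp.liftAddHom fun m =>
    zmultiplesHom J (l ((h : CHom (Ind G (M →₀ ℤ)) C) (Ind.single 1 (Finsupp.single m 1))))
  let L : CHom (Ind G (M →₀ ℤ)) J := ⟨∑ g : G,
    (DistribSMul.toAddMonoidHom J g).comp (β.comp (Ind.evalHom g))⟩
  have hL : ∀ f, L f = ∑ g : G, g • β (f.val g) := fun f => by
    show (∑ g : G, (DistribSMul.toAddMonoidHom J g).comp (β.comp (Ind.evalHom g))) f = _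
    rw [AddMonoidHom.finsetSum_apply]
    rfl
  have hLfix : ∀ g : G, g • L = L := (CHom.fixed_iff L).2 fun g f => by
    rw [hL, hL, Finset.smul_sum]
    exact Fintype.sum_equiv (Equiv.mulLeft g⁻¹) _ _ fun τ => by
      simp [Ind.smul_apply, ← mul_smul]
  refine ⟨⟨L, hLfix⟩, CHom.ext' fun f => ?_⟩
  show q (L f) = (h : CHom (Ind G (M →₀ ℤ)) C) f
  have hβ : ∀ v, q (β v) = (h : CHom (Ind G (M →₀ ℤ)) C) (Ind.single 1 v) := by
    intro v
    have : ((q : J →+ C).comp β) =
        (h : CHom (Ind G (M →₀ ℤ)) C).hom.comp (Ind.single (1 : G)) := by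
      refine Finsupp.addHom_ext fun m n => ?_
      show q (β (Finsupp.single m n)) = (h : CHom (Ind G (M →₀ ℤ)) C) (Ind.single 1 (Finsupp.single m n))
      rw [show β (Finsupp.single m n) = n • l ((h : CHom (Ind G (M →₀ ℤ)) C)
          (Ind.single 1 (Finsupp.single m 1))) by simp [β], map_zsmul, hl,
        ← Finsupp.smul_single_one m n, map_zsmul, map_zsmul]
    exact DFunLike.congr_fun this v
  conv_rhs => rw [Ind.eq_sum_single f]
  rw [hL, map_sum, map_sum]
  refine Finset.sum_congr rfl fun g _ => ?_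
  rw [map_smul, hβ]
  have := (CHom.fixed_iff (h : CHom (Ind G (M →₀ ℤ)) C)).1 h.2 g (Ind.single 1 (f.val g))
  rw [Ind.smul_single, mul_one] at this
  exact this.symm

end FreePres

section LogCard

variable (p : ℕ)

lemma dlog_congr {A B : Type*} (e : A ≃ B) : dlog p A = dlog p B := by
  rw [dlog, dlog, Nat.card_congr e]

lemma dlog_pi {ι : Type*} [Fintype ι] (A : ι → Type*) [∀ i, AddCommGroup (A i)]
    [∀ i, Finite (A i)] : dlog p (∀ i, A i) = ∑ i, dlog p (A i) := by
  unfold dlog
  rw [Nat.card_pi, Nat.factorization_prod fun i _ => Nat.card_pos.ne', Finsupp.finsetSum_apply]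
  push_cast
  rfl

/-- Cardinality of kernel and image. -/
lemma dlog_ker_add_range {A B : Type*} [AddCommGroup A] [AddCommGroup B] [Finite A] (f : A →+ B) :
    dlog p A = dlog p f.ker + dlog p f.range := by
  have h := AddSubgroup.card_eq_card_quotient_mul_card_addSubgroup f.ker
  rw [Nat.card_congr (QuotientAddGroup.quotientKerEquivRange f).toEquiv] at h
  have : Finite f.range := Finite.of_surjective _ f.rangeRestrict_surjective
  unfold dlog
  rw [h, Nat.factorization_mul Nat.card_pos.ne' Nat.card_pos.ne', Finsupp.add_apply]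
  push_cast
  ring

lemma dlog_subgroup_add_quot {A : Type*} [AddCommGroup A] [Finite A] (S : AddSubgroup A) :
    dlog p A = dlog p S + dlog p (A ⧸ S) := by
  have h := AddSubgroup.card_eq_card_quotient_mul_card_addSubgroup S
  unfold dlog
  rw [h, Nat.factorization_mul Nat.card_pos.ne' Nat.card_pos.ne', Finsupp.add_apply]
  push_cast
  ring

lemma dlog_mono {A : Type*} [AddCommGroup A] [Finite A] {S T : AddSubgroup A} (h : S ≤ T) :
    dlog p S ≤ dlog p T := by
  have := dlog_subgroup_add_quot p (S.addSubgroupOf T)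
  rw [dlog_congr p (AddSubgroup.addSubgroupOfEquivOfLe h).toEquiv] at this
  have h0 : 0 ≤ dlog p (↥T ⧸ S.addSubgroupOf T) := by simp [dlog]
  omega

lemma dlog_nonneg (A : Type*) : 0 ≤ dlog p A := by simp [dlog]

end LogCard

section Shapiro

variable {G : Type*} [Group G] {J : Type*} [AddCommGroup J] [DistribMulAction G J] {ι : Type*}
  {Gv : ι → Subgroup G} {B : ι → Type*} [∀ v, AddCommGroup (B v)]
  [∀ v, DistribMulAction (Gv v) (B v)]

/-- `J` is the product of the modules coinduced from `B v`. -/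
structure IsCoinduced (pr : ∀ v, J →+[Gv v] B v) : Prop where
  inj : ∀ j : J, (∀ v (g : G), pr v (g • j) = 0) → j = 0
  surj : ∀ F : ∀ v, G → B v, (∀ v (h : Gv v) (g : G), F v ((h : G) * g) = h • F v g) →
    ∃ j, ∀ v g, pr v (g • j) = F v g

variable {pr : ∀ v, J →+[Gv v] B v} {X : Type*} [AddCommGroup X] [DistribMulAction G X]

/-- The local components of an equivariant map to `J`. -/
def locHom (pr : ∀ v, J →+[Gv v] B v) (X : Type*) [AddCommGroup X] [DistribMulAction G X] :
    homG G X J →+ ∀ v, homG (Gv v) X (B v) where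
  toFun y v := ⟨⟨(pr v : J →+ B v).comp (y : CHom X J).hom⟩, (CHom.fixed_iff _).2 fun h x => by
    show pr v ((y : CHom X J) ((h : G) • x)) = h • pr v ((y : CHom X J) x)
    rw [(CHom.fixed_iff (y : CHom X J)).1 y.2]
    exact map_smul (pr v) h _⟩
  map_zero' := funext fun v => Subtype.ext (CHom.ext' fun x => map_zero (pr v))
  map_add' y y' := funext fun v => Subtype.ext (CHom.ext' fun x => map_add (pr v) _ _)

lemma locHom_apply (y : homG G X J) (v : ι) (x : X) :
    (locHom pr X y v : CHom X (B v)) x = pr v ((y : CHom X J) x) := rfl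

lemma IsCoinduced.locHom_bijective (hpr : IsCoinduced pr) :
    Function.Bijective (locHom pr X) := by
  refine ⟨(injective_iff_map_eq_zero _).2 fun y hy => Subtype.ext (CHom.ext' fun x => ?_),
    fun w => ?_⟩
  · refine hpr.inj _ fun v g => ?_
    rw [← (CHom.fixed_iff (y : CHom X J)).1 y.2]
    exact congrArg (fun z : ∀ v, homG (Gv v) X (B v) => (z v : CHom X (B v)) (g • x)) hy
  · have hw : ∀ v (h : Gv v) (x : X),
        (w v : CHom X (B v)) ((h : G) • x) = h • (w v : CHom X (B v)) x :=
      fun v h x => (CHom.fixed_iff (w v : CHom X (B v))).1 (w v).2 h x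
    have hex : ∀ x : X, ∃ j, ∀ v g, pr v (g • j) = (w v : CHom X (B v)) (g • x) := fun x =>
      hpr.surj (fun v g => (w v : CHom X (B v)) (g • x)) fun v h g => by rw [mul_smul]; exact hw v h _
    choose φ hφ using hex
    have huniq : ∀ x j, (∀ v g, pr v (g • j) = (w v : CHom X (B v)) (g • x)) → φ x = j :=
      fun x j hj => sub_eq_zero.1 (hpr.inj _ fun v g => by
        rw [smul_sub, map_sub, hφ, hj, sub_self])
    refine ⟨⟨⟨AddMonoidHom.mk' φ fun a b => huniq _ _ fun v g => by
      rw [smul_add, map_add, hφ, hφ, smul_add, map_add]⟩,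
      (CHom.fixed_iff _).2 fun k x => huniq _ _ fun v g => by
        show pr v (g • k • φ x) = _
        rw [← mul_smul, hφ, mul_smul]⟩, funext fun v => Subtype.ext (CHom.ext' fun x => ?_)⟩
    have := hφ x v 1
    rw [one_smul, one_smul] at this
    exact this

/-- The local components, as an isomorphism. -/
def IsCoinduced.locEquiv (hpr : IsCoinduced pr) (X : Type*) [AddCommGroup X]
    [DistribMulAction G X] : homG G X J ≃+ ∀ v, homG (Gv v) X (B v) :=
  AddEquiv.ofBijective (locHom pr X) hpr.locHom_bijective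

end Shapiro

section Gluing

variable {G : Type*} [Group G] [Fintype G] {R P N Y : Type*} [AddCommGroup R] [AddCommGroup P]
  [AddCommGroup N] [DistribMulAction G R] [DistribMulAction G P] [DistribMulAction G N]
  [MulAction G Y] (D : FinPresentation G R P N Y) {f : G → N} (H : Subgroup G) [Fintype H]

/-- From the extension of a cocycle to the extension of its restriction. -/
def cocRestr (hf : d1 f = 0) : cocExt D f →+[H] cocExt (D.restrict H) (fun h : H => f h) :=
  haveI := Classical.decEq H
  let t : G → G := fun g => (Quotient.mk (QuotientGroup.rightRel H) g).out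
  have ht : ∀ g, g * (t g)⁻¹ ∈ H := fun g =>
    QuotientGroup.rightRel_apply.1 (Quotient.mk_out (s := QuotientGroup.rightRel H) g)
  let κ : G → H := fun g => ⟨g * (t g)⁻¹, ht g⟩
  have htm : ∀ (h : H) (g : G), t ((h : G) * g) = t g := fun h g =>
    congrArg Quotient.out (Quotient.sound (QuotientGroup.rightRel_apply.2 (by simp)))
  have hκ : ∀ (h : H) (g : G), κ ((h : G) * g) = h * κ g := fun h g => Subtype.ext (by
    show (h : G) * g * (t ((h : G) * g))⁻¹ = h * (g * (t g)⁻¹)
    rw [htm, mul_assoc])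
  have hfg : ∀ g, f g = (κ g : G) • f (t g) + f (κ g) := fun g => by
    have h1 := congr_fun hf (g * (t g)⁻¹, t g)
    simp only [d1, Pi.zero_apply, inv_mul_cancel_right] at h1
    show f g = (g * (t g)⁻¹) • f (t g) + f (g * (t g)⁻¹)
    rw [eq_comm, ← sub_eq_zero, ← h1]; abel
  have hf' : d1 (fun h : H => f h) = 0 := funext fun x =>
    congr_fun hf ((x.1 : G), (x.2 : G))
  { toFun := fun e => ⟨((e : P × Ind G ℤ).1 +
        ∑ g : G, (e : P × Ind G ℤ).2.val g • ((κ g : G) • cocExt.lift D f (t g)),
      ⟨fun h => ∑ g ∈ Finset.univ.filter (fun g => κ g = h), (e : P × Ind G ℤ).2.val g⟩),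
      (cocExt.mem_iff hf').2 ⟨by
        obtain ⟨h1, -⟩ := (cocExt.mem_iff hf).1 e.2
        show D.π ((e : P × Ind G ℤ).1 + _) + ∑ h : H, _ • f h = 0
        rw [map_add, map_sum, add_assoc]
        refine Eq.trans (congrArg _ ?_) h1
        simp only [map_zsmul, map_smul, cocExt.π_lift hf, Finset.sum_smul]
        rw [show ∑ h : H, ∑ g ∈ Finset.univ.filter (fun g => κ g = h),
            (e : P × Ind G ℤ).2.val g • f h = ∑ g : G, (e : P × Ind G ℤ).2.val g • f (κ g) from
          Eq.trans (Finset.sum_congr rfl fun h _ => Finset.sum_congr rfl fun g hg => by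
            rw [(Finset.mem_filter.1 hg).2]) (Finset.sum_fiberwise _ _ _),
          ← Finset.sum_add_distrib]
        exact Finset.sum_congr rfl fun g _ => by rw [← smul_add, ← hfg],
      (Finset.sum_fiberwise _ κ fun g => (e : P × Ind G ℤ).2.val g).trans
        ((cocExt.mem_iff hf).1 e.2).2⟩⟩
    map_smul' := fun h e => Subtype.ext (Prod.ext (by
        show (h : G) • (e : P × Ind G ℤ).1 + ∑ g : G, ((h : G) • (e : P × Ind G ℤ).2).val g •
            ((κ g : G) • cocExt.lift D f (t g)) = (h : G) • ((e : P × Ind G ℤ).1 + _)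
        rw [smul_add, Finset.smul_sum]
        congr 1
        refine Fintype.sum_equiv (Equiv.mulLeft (h : G)⁻¹) _ _ fun g => ?_
        show (e : P × Ind G ℤ).2.val ((h : G)⁻¹ * g) • _ = (h : G) • _
        have e1 := hκ h⁻¹ g
        have e2 := htm h⁻¹ g
        rw [Subgroup.coe_inv] at e1 e2
        simp only [Equiv.coe_mulLeft, e1, e2, Subgroup.coe_mul, Subgroup.coe_inv]
        rw [smul_comm (h : G) ((e : P × Ind G ℤ).2.val ((h : G)⁻¹ * g)), ← mul_smul,
          mul_inv_cancel_left])
      (Ind.ext (funext fun k => by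
        show ∑ g ∈ Finset.univ.filter (fun g => κ g = k),
            (e : P × Ind G ℤ).2.val ((h : G)⁻¹ * g) =
          ∑ g ∈ Finset.univ.filter (fun g => κ g = h⁻¹ * k), (e : P × Ind G ℤ).2.val g
        refine Finset.sum_equiv (Equiv.mulLeft (h : G)⁻¹) (fun g => ?_) fun g _ => rfl
        have e1 := hκ h⁻¹ g
        rw [Subgroup.coe_inv] at e1
        simp only [Finset.mem_filter, Finset.mem_univ, true_and, Equiv.coe_mulLeft, e1,
          mul_right_inj])))
    map_zero' := Subtype.ext (Prod.ext (by simp) (Ind.ext (funext fun k => by simp)))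
    map_add' := fun a b => Subtype.ext (Prod.ext (by
        show (a : P × Ind G ℤ).1 + (b : P × Ind G ℤ).1 + ∑ g : G,
          ((a : P × Ind G ℤ).2 + (b : P × Ind G ℤ).2).val g • _ = _ + _
        simp only [Ind.add_apply, add_smul, Finset.sum_add_distrib]
        abel)
      (Ind.ext (funext fun k => by simp [Finset.sum_add_distrib]))) }

lemma cocRestr_incl (hf : d1 f = 0) (r : R) :
    cocRestr D H hf (cocExt.incl D f r) = cocExt.incl (D.restrict H) (fun h : H => f h) r := by
  refine Subtype.ext (Prod.ext ?_ (Ind.ext (funext fun k => ?_)))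
  · show D.i r + ∑ g : G, (0 : Ind G ℤ).val g • _ = D.i r
    simp
  · show ∑ g ∈ _, (0 : Ind G ℤ).val g = (0 : Ind H ℤ).val k
    simp

end Gluing

lemma mem_resRange {G A M : Type*} [Group G] [AddCommGroup A] [DistribMulAction G A]
    [AddCommGroup M] [DistribMulAction G M] {π : A →+[G] M} {X : Type*} [AddCommGroup X]
    [DistribMulAction G X] {y : homG G (kerOf π) X} :
    y ∈ resRange π X ↔ ∃ L : homG G A X,
      CHom.pre (kerIncl π) (L : CHom A X) = (y : CHom (kerOf π) X) :=
  Iff.rfl

section Inequality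

variable {p : ℕ} [Fact p.Prime] {G : Type} [Group G] [Fintype G] {M : Type} [AddCommGroup M]
  [DistribMulAction G M] [Finite M] [Module (ZMod p) M]
  {E J C : Type} [AddCommGroup E] [DistribMulAction G E] [AddCommGroup J] [DistribMulAction G J]
  [AddCommGroup C] [DistribMulAction G C]
  {ι : Type} [Fintype ι] {Gv : ι → Subgroup G} [∀ v, Fintype (Gv v)]
  {B : ι → Type} [∀ v, AddCommGroup (B v)] [∀ v, DistribMulAction (Gv v) (B v)]


variable (pr : ∀ v, J →+[Gv v] B v) (incl : E →+[G] J)

/-- Composition with an equivariant map, on equivariant homomorphisms. -/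
def postHom {A X X' : Type*} [AddCommGroup A] [DistribMulAction G A] [AddCommGroup X]
    [DistribMulAction G X] [AddCommGroup X'] [DistribMulAction G X'] (φ : X →+[G] X') :
    homG G A X →+ homG G A X' :=
  (((CHom.post φ : CHom A X →+[G] CHom A X') : CHom A X →+ CHom A X').comp
      (homG G A X).subtype).codRestrict _ fun y g => by
    show g • CHom.post φ (y : CHom A X) = CHom.post φ (y : CHom A X)
    rw [← map_smul, y.2]

omit [Fintype G] in
lemma postHom_apply {A X X' : Type*} [AddCommGroup A] [DistribMulAction G A] [AddCommGroup X]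
    [DistribMulAction G X] [AddCommGroup X'] [DistribMulAction G X'] (φ : X →+[G] X')
    (y : homG G A X) (a : A) : (postHom φ y : CHom A X') a = φ ((y : CHom A X) a) := rfl

/-- The classes of `Ext(M, E)` whose localisations lie in the `Yv`. -/
def dualSel (Yv : ∀ v, AddSubgroup (homG (Gv v) ↥(kerOf (freeCover G M)) (B v))) : AddSubgroup (Coh1 (freeCover G M) E) :=
  ((AddSubgroup.pi Set.univ Yv).comap ((locHom pr ↥(kerOf (freeCover G M))).comp (postHom incl))).map
    (QuotientAddGroup.mk' (resRange (freeCover G M) E))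

variable {pr incl} {Yv : ∀ v, AddSubgroup (homG (Gv v) ↥(kerOf (freeCover G M)) (B v))}

omit [Fact p.Prime] [Module (ZMod p) M] in
lemma mem_dualSel {x : Coh1 (freeCover G M) E} :
    x ∈ dualSel pr incl Yv ↔ ∃ y : homG G ↥(kerOf (freeCover G M)) E, (∀ v, locHom pr ↥(kerOf (freeCover G M)) (postHom incl y) v ∈ Yv v) ∧
      QuotientAddGroup.mk y = x := by
  simp [dualSel, AddSubgroup.mem_map, AddSubgroup.mem_pi]

/-- The functoriality of `Ext¹(M, ·)`. -/
def postCoh {X X' : Type} [AddCommGroup X] [DistribMulAction G X] [AddCommGroup X']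
    [DistribMulAction G X'] (φ : X →+[G] X') :
    Coh1 (freeCover G M) X →+ Coh1 (freeCover G M) X' :=
  QuotientAddGroup.map _ _ (postHom φ) fun y hy => by
    obtain ⟨L, hL⟩ := mem_resRange.1 hy
    exact mem_resRange.2 ⟨postHom φ L, CHom.ext' fun r => congrArg φ
      (congrArg (fun z : CHom ↥(kerOf (freeCover G M)) X => z r) hL)⟩

omit [Fintype ι] [Finite M] in
theorem mem_resRange_iff_loc (hpr : IsCoinduced pr) (y : homG G ↥(kerOf (freeCover G M)) J) :
    y ∈ resRange (freeCover G M) J ↔
      ∀ v, locHom pr ↥(kerOf (freeCover G M)) y v ∈ resRange (restrictHom (Gv v) (freeCover G M)) (B v) := by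
  let eR := locHom pr ↥(kerOf (freeCover G M))
  have heRb : Function.Bijective eR := hpr.locHom_bijective
  constructor
  · intro hy v
    obtain ⟨L, hL⟩ := mem_resRange.1 hy
    exact ⟨⟨hpr.locEquiv (Ind G (M →₀ ℤ)) L v, (hpr.locEquiv _ L v).2⟩,
      CHom.ext' fun r => congrArg (pr v)
        (congrArg (fun z : CHom ↥(kerOf (freeCover G M)) J => z r) hL)⟩
  · intro hy
    choose L hL using hy
    obtain ⟨L', hL'⟩ := (hpr.locEquiv (Ind G (M →₀ ℤ))).surjective fun v => ⟨(L v).1, (L v).2⟩
    let y' : homG G ↥(kerOf (freeCover G M)) J :=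
      ⟨CHom.pre (kerIncl (freeCover G M)) (L' : CHom (Ind G (M →₀ ℤ)) J), fun g => by rw [← map_smul, L'.2]⟩
    refine mem_resRange.2 ⟨L', congrArg Subtype.val (heRb.1 (a₁ := y') (a₂ := y) ?_)⟩
    refine funext fun v => Subtype.ext (CHom.ext' fun r => ?_)
    refine (congrArg (fun w : ∀ v, homG (Gv v) (Ind G (M →₀ ℤ)) (B v) =>
      (w v : CHom _ (B v)) (r : Ind G (M →₀ ℤ))) hL').trans ?_
    exact congrArg (fun z : CHom ↥(kerOf (freeCover G M)) (B v) => z r) (hL v)

/-- `Ext¹(M, J)` is the product of the local groups. -/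
theorem exists_coh1Equiv (hpr : IsCoinduced pr) :
    Nonempty (Coh1 (freeCover G M) J ≃ ∀ v, Coh1 (restrictHom (Gv v) (freeCover G M)) (B v)) := by
  let eR := locHom pr ↥(kerOf (freeCover G M))
  have heRb : Function.Bijective eR := hpr.locHom_bijective
  let rL : ∀ v, AddSubgroup (homG (Gv v) ↥(kerOf (freeCover G M)) (B v)) := fun v =>
    resRange (restrictHom (Gv v) (freeCover G M)) (B v)
  have hpi : ∀ y : homG G ↥(kerOf (freeCover G M)) J, y ∈ resRange (freeCover G M) J ↔ ∀ v, eR y v ∈ rL v :=
    mem_resRange_iff_loc (M := M) hpr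
  let fC : Coh1 (freeCover G M) J →+ ∀ v, Coh1 (restrictHom (Gv v) (freeCover G M)) (B v) :=
    QuotientAddGroup.lift _ (AddMonoidHom.mk'
      (fun y v => (QuotientAddGroup.mk (eR y v) : Coh1 (restrictHom (Gv v) (freeCover G M)) (B v)))
      fun a b => funext fun v => by
        rw [map_add]
        rfl) fun y hy => funext fun v => (QuotientAddGroup.eq_zero_iff _).2 ((hpi y).1 hy v)
  have hfC : Function.Bijective fC := by
    refine ⟨(injective_iff_map_eq_zero _).2 fun x hx => ?_, fun w => ?_⟩
    · induction x using QuotientAddGroup.induction_on with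
      | H y =>
        exact (QuotientAddGroup.eq_zero_iff _).2 ((hpi y).2 fun v =>
          (QuotientAddGroup.eq_zero_iff _).1 (congr_fun hx v))
    · obtain ⟨y, hy⟩ := heRb.2 fun v => ⟨(w v).out.1, (w v).out.2⟩
      exact ⟨QuotientAddGroup.mk y, funext fun v =>
        (congrArg QuotientAddGroup.mk (congr_fun hy v)).trans (Quotient.out_eq (w v))⟩
  exact ⟨Equiv.ofBijective fC hfC⟩

/-- Exactness at `Ext¹(M, J)`. -/
theorem ker_postCoh (q : J →+[G] C) (hi : Function.Injective incl) (hq : Function.Surjective q)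
    (hex : ∀ j, q j = 0 ↔ ∃ e, incl e = j) :
    (postCoh (M := M) q).ker = (postCoh (M := M) incl).range := by
  classical
  refine le_antisymm (fun x hx => ?_) ?_
  · induction x using QuotientAddGroup.induction_on with
    | H y =>
      obtain ⟨h, hh⟩ := mem_resRange.1
        ((QuotientAddGroup.eq_zero_iff (postHom q y)).1 hx)
      obtain ⟨L, hL⟩ := exists_lift_freeCover q hq h
      have hmem : ∀ r, ∃ e, incl e = (y : CHom ↥(kerOf (freeCover G M)) J) r - (L : CHom (Ind G (M →₀ ℤ)) J) r := fun r =>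
        (hex ((y : CHom ↥(kerOf (freeCover G M)) J) r - (L : CHom (Ind G (M →₀ ℤ)) J) r)).1 (by
          rw [map_sub, sub_eq_zero]
          exact (congrArg (fun z : CHom ↥(kerOf (freeCover G M)) C => z r) hh).symm.trans
            (congrArg (fun z : CHom (Ind G (M →₀ ℤ)) C => z (r : Ind G (M →₀ ℤ))) hL).symm)
      choose e he using hmem
      refine ⟨QuotientAddGroup.mk ⟨⟨AddMonoidHom.mk' e fun a b => hi (by
        rw [map_add, he, he, he, AddSubgroup.coe_add, map_add, map_add]; abel)⟩,
        (CHom.fixed_iff _).2 fun g r => hi (by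
          show incl (e (g • r)) = incl (g • e r)
          rw [map_smul, he, he, smul_sub, (CHom.fixed_iff (y : CHom ↥(kerOf (freeCover G M)) J)).1 y.2,
            ← (CHom.fixed_iff (L : CHom (Ind G (M →₀ ℤ)) J)).1 L.2]
          rfl)⟩, ?_⟩
      refine QuotientAddGroup.eq.2 (mem_resRange.2 ⟨L, CHom.ext' fun r => ?_⟩)
      show (L : CHom (Ind G (M →₀ ℤ)) J) r = -incl (e r) + (y : CHom ↥(kerOf (freeCover G M)) J) r
      rw [he]; abel
  · rintro _ ⟨x, rfl⟩
    induction x using QuotientAddGroup.induction_on with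
    | H y =>
      refine (QuotientAddGroup.eq_zero_iff _).2 ?_
      rw [show postHom q (postHom incl y) = 0 from
        Subtype.ext (CHom.ext' fun r => (hex _).2 ⟨_, rfl⟩)]
      exact zero_mem _

/-- The kernel of `Ext¹(M, E) → Ext¹(M, J)`. -/
theorem dlog_ker_postCoh (q : J →+[G] C) (hi : Function.Injective incl) (hq : Function.Surjective q)
    (hex : ∀ j, q j = 0 ↔ ∃ e, incl e = j) [Finite (homG G M C)] [Finite (homG G M J)] :
    Finite (postCoh (M := M) incl).ker ∧
      dlog p (postCoh (M := M) incl).ker + dlog p (homG G M J) =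
        dlog p (homG G M C) + dlog p (homG G M E) := by
  classical
  have := Fintype.ofFinite M
  let D := freePres G M
  have hlift : ∀ h : homG G M C, ∃ (L : homG G (Ind G (M →₀ ℤ)) J) (y : homG G ↥(kerOf (freeCover G M)) E),
      (∀ z, q ((L : CHom (Ind G (M →₀ ℤ)) J) z) = (h : CHom M C) ((freeCover G M) z)) ∧
      ∀ r : ↥(kerOf (freeCover G M)), incl ((y : CHom ↥(kerOf (freeCover G M)) E) r) = (L : CHom (Ind G (M →₀ ℤ)) J) r := by
    intro h
    obtain ⟨L, hL⟩ := exists_lift_freeCover q hq ⟨CHom.pre (freeCover G M) (h : CHom M C), fun g => by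
      rw [← map_smul, h.2]⟩
    have hmem : ∀ r : ↥(kerOf (freeCover G M)), ∃ e, incl e = (L : CHom (Ind G (M →₀ ℤ)) J) r := fun r => (hex _).1 (by
      have := congrArg (fun z : CHom (Ind G (M →₀ ℤ)) C => z (r : Ind G (M →₀ ℤ))) hL
      refine this.trans ?_
      show (h : CHom M C) ((freeCover G M) r) = 0
      rw [mem_kerOf.1 r.2, map_zero])
    choose e he using hmem
    refine ⟨L, ⟨⟨AddMonoidHom.mk' e fun a b => hi (by
      rw [map_add, he, he, he, AddSubgroup.coe_add, map_add])⟩,
      (CHom.fixed_iff _).2 fun g r => hi (by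
        show incl (e (g • r)) = incl (g • e r)
        rw [map_smul, he, he, ← (CHom.fixed_iff (L : CHom (Ind G (M →₀ ℤ)) J)).1 L.2]
        rfl)⟩, fun z => congrArg (fun w : CHom (Ind G (M →₀ ℤ)) C => w z) hL, he⟩
  choose Lh yh hLh hyh using hlift
  have huniq : ∀ (L : homG G (Ind G (M →₀ ℤ)) J) (y : homG G ↥(kerOf (freeCover G M)) E),
      (∀ z, q ((L : CHom (Ind G (M →₀ ℤ)) J) z) = 0) → (∀ r : ↥(kerOf (freeCover G M)), incl ((y : CHom ↥(kerOf (freeCover G M)) E) r) = (L : CHom (Ind G (M →₀ ℤ)) J) r) →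
      (QuotientAddGroup.mk y : Coh1 (freeCover G M) E) = 0 := by
    intro L y hL hy
    choose e he using fun z => (hex _).1 (hL z)
    let e' : homG G (Ind G (M →₀ ℤ)) E := ⟨⟨AddMonoidHom.mk' e fun a b => hi (by
      rw [map_add, he, he, he, map_add])⟩, (CHom.fixed_iff _).2 fun g z => hi (by
        show incl (e (g • z)) = incl (g • e z)
        rw [map_smul, he, he, (CHom.fixed_iff (L : CHom (Ind G (M →₀ ℤ)) J)).1 L.2])⟩
    exact (QuotientAddGroup.eq_zero_iff _).2 (mem_resRange.2
      ⟨e', CHom.ext' fun r => hi ((he _).trans (hy r).symm)⟩)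
  let δ : homG G M C →+ Coh1 (freeCover G M) E := AddMonoidHom.mk' (fun h => QuotientAddGroup.mk (yh h))
    fun a b => by
      rw [← sub_eq_zero, ← QuotientAddGroup.mk_add, ← QuotientAddGroup.mk_sub]
      refine huniq (Lh (a + b) - (Lh a + Lh b)) _ (fun z => ?_) fun r => ?_
      · show q ((Lh (a + b) : CHom (Ind G (M →₀ ℤ)) J) z - ((Lh a : CHom (Ind G (M →₀ ℤ)) J) z + (Lh b : CHom (Ind G (M →₀ ℤ)) J) z)) = 0
        rw [map_sub, map_add, hLh, hLh, hLh]
        exact sub_self _
      · show incl ((yh (a + b) : CHom ↥(kerOf (freeCover G M)) E) r - ((yh a : CHom ↥(kerOf (freeCover G M)) E) r + (yh b : CHom ↥(kerOf (freeCover G M)) E) r)) = _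
        rw [map_sub, map_add, hyh, hyh, hyh]
        rfl
  have hδr : δ.range = (postCoh (M := M) incl).ker := by
    refine le_antisymm ?_ fun x hx => ?_
    · rintro _ ⟨h, rfl⟩
      exact (QuotientAddGroup.eq_zero_iff _).2 (mem_resRange.2
        ⟨Lh h, CHom.ext' fun r => (hyh h r).symm⟩)
    · induction x using QuotientAddGroup.induction_on with
      | H y =>
        obtain ⟨L, hL⟩ := mem_resRange.1 ((QuotientAddGroup.eq_zero_iff _).1 hx)
        have hLy : ∀ r : ↥(kerOf (freeCover G M)), (L : CHom (Ind G (M →₀ ℤ)) J) r = incl ((y : CHom ↥(kerOf (freeCover G M)) E) r) := fun r =>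
          congrArg (fun z : CHom ↥(kerOf (freeCover G M)) J => z r) hL
        let h : homG G M C := ⟨⟨AddMonoidHom.mk' (fun m => q ((L : CHom (Ind G (M →₀ ℤ)) J) (D.sec m)))
          fun a b => by
            rw [← map_add, ← map_add, ← sub_eq_zero, ← map_sub, ← map_sub]
            have hk : D.sec (a + b) - (D.sec a + D.sec b) ∈ kerOf (freeCover G M) := by
              show D.π _ = 0
              rw [map_sub, map_add, D.π_sec, D.π_sec, D.π_sec, sub_self]
            rw [hLy ⟨_, hk⟩]
            exact (hex _).2 ⟨_, rfl⟩⟩, (CHom.fixed_iff _).2 fun g m => by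
            show q ((L : CHom (Ind G (M →₀ ℤ)) J) (D.sec (g • m))) = g • q ((L : CHom (Ind G (M →₀ ℤ)) J) (D.sec m))
            rw [← map_smul, ← (CHom.fixed_iff (L : CHom (Ind G (M →₀ ℤ)) J)).1 L.2,
              ← sub_eq_zero, ← map_sub, ← map_sub]
            have hk : D.sec (g • m) - g • D.sec m ∈ kerOf (freeCover G M) := by
              show D.π _ = 0
              rw [map_sub, map_smul, D.π_sec, D.π_sec, sub_self]
            rw [hLy ⟨_, hk⟩]
            exact (hex _).2 ⟨_, rfl⟩⟩
        refine ⟨h, ?_⟩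
        show (QuotientAddGroup.mk (yh h) : Coh1 (freeCover G M) E) = _
        rw [← sub_eq_zero, ← QuotientAddGroup.mk_sub]
        refine huniq (Lh h - L) _ (fun z => ?_) fun r => ?_
        · show q ((Lh h : CHom (Ind G (M →₀ ℤ)) J) z - (L : CHom (Ind G (M →₀ ℤ)) J) z) = 0
          rw [map_sub, hLh]
          show q ((L : CHom (Ind G (M →₀ ℤ)) J) (D.sec ((freeCover G M) z))) - q ((L : CHom (Ind G (M →₀ ℤ)) J) z) = 0
          rw [← map_sub, ← map_sub]
          have hk : D.sec ((freeCover G M) z) - z ∈ kerOf (freeCover G M) := by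
            show D.π _ = 0
            rw [map_sub, D.π_sec]
            exact sub_self _
          rw [hLy ⟨_, hk⟩]
          exact (hex _).2 ⟨_, rfl⟩
        · show incl ((yh h : CHom ↥(kerOf (freeCover G M)) E) r - (y : CHom ↥(kerOf (freeCover G M)) E) r) = _
          rw [map_sub, hyh, ← hLy]
          rfl
  have hδk : δ.ker = (postHom q : homG G M J →+ homG G M C).range := by
    refine le_antisymm (fun h hh => ?_) ?_
    · obtain ⟨e, he⟩ := mem_resRange.1 ((QuotientAddGroup.eq_zero_iff _).1 hh)
      have hv : ∀ r : ↥(kerOf (freeCover G M)), (Lh h : CHom (Ind G (M →₀ ℤ)) J) r - incl ((e : CHom (Ind G (M →₀ ℤ)) E) r) = 0 := fun r => by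
        rw [sub_eq_zero, ← hyh h r]
        exact congrArg incl (congrArg (fun z : CHom ↥(kerOf (freeCover G M)) E => z r) he).symm
      let l : Ind G (M →₀ ℤ) → J := fun z => (Lh h : CHom (Ind G (M →₀ ℤ)) J) z - incl ((e : CHom (Ind G (M →₀ ℤ)) E) z)
      have hwd : ∀ z z', (freeCover G M) z = (freeCover G M) z' → l z = l z' := fun z z' hzz => by
        have := hv ⟨z - z', by rw [mem_kerOf, map_sub, hzz, sub_self]⟩
        rw [← sub_eq_zero]
        simp only [l] at this ⊢
        rw [map_sub, map_sub, map_sub] at this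
        rw [← this]; abel
      refine ⟨⟨⟨AddMonoidHom.mk' (fun m => l (D.sec m)) fun a b => ?_⟩,
        (CHom.fixed_iff _).2 fun g m => ?_⟩, Subtype.ext (CHom.ext' fun m => ?_)⟩
      · rw [hwd (D.sec (a + b)) (D.sec a + D.sec b) (by
          show D.π _ = D.π _
          rw [map_add, D.π_sec, D.π_sec, D.π_sec])]
        simp only [l, map_add]; abel
      · show l (D.sec (g • m)) = g • l (D.sec m)
        rw [hwd (D.sec (g • m)) (g • D.sec m) (by
          show D.π _ = D.π _
          rw [map_smul, D.π_sec, D.π_sec])]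
        simp only [l, smul_sub, ← map_smul, (CHom.fixed_iff (Lh h : CHom (Ind G (M →₀ ℤ)) J)).1 (Lh h).2,
          (CHom.fixed_iff (e : CHom (Ind G (M →₀ ℤ)) E)).1 e.2]
      · show q (l (D.sec m)) = _
        simp only [l, map_sub, hLh, (hex _).2 ⟨_, rfl⟩, sub_zero]
        rw [show (freeCover G M) (D.sec m) = m from D.π_sec m]
    · rintro _ ⟨j, rfl⟩
      rw [AddMonoidHom.mem_ker]
      show (QuotientAddGroup.mk (yh (postHom q j)) : Coh1 (freeCover G M) E) = 0
      let L' : homG G (Ind G (M →₀ ℤ)) J :=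
        ⟨CHom.pre (freeCover G M) (j : CHom M J), fun g => by rw [← map_smul, j.2]⟩
      refine huniq (Lh (postHom q j) - L') _ (fun z => ?_) fun r => ?_
      · show q ((Lh _ : CHom (Ind G (M →₀ ℤ)) J) z - (j : CHom M J) ((freeCover G M) z)) = 0
        rw [map_sub, hLh]
        exact sub_self _
      · show incl ((yh _ : CHom ↥(kerOf (freeCover G M)) E) r) = (Lh _ : CHom (Ind G (M →₀ ℤ)) J) r - (j : CHom M J) ((freeCover G M) r)
        rw [hyh, mem_kerOf.1 r.2, map_zero, sub_zero]
  have : Finite (postCoh (M := M) incl).ker := by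
    rw [← hδr]; exact Finite.of_surjective _ δ.rangeRestrict_surjective
  refine ⟨this, ?_⟩
  have h5 := dlog_ker_add_range p δ
  rw [hδr, hδk] at h5
  have h6 := dlog_ker_add_range p (postHom q : homG G M J →+ homG G M C)
  have h6k : dlog p (postHom q : homG G M J →+ homG G M C).ker = dlog p (homG G M E) := by
    refine (dlog_congr p (Equiv.ofBijective
      (fun e => ⟨postHom incl e, Subtype.ext (CHom.ext' fun m => (hex _).2 ⟨_, rfl⟩)⟩)
      ⟨fun a b h => Subtype.ext (CHom.ext' fun m => hi
        (congrArg (fun z : homG G M J => (z : CHom M J) m) (congrArg Subtype.val h))),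
      fun j => ?_⟩)).symm
    choose e he using fun m => (hex ((j.1 : CHom M J) m)).1
      (congrArg (fun z : homG G M C => (z : CHom M C) m) j.2)
    exact ⟨⟨⟨AddMonoidHom.mk' e fun a b => hi (by rw [map_add, he, he, he, map_add])⟩,
      (CHom.fixed_iff _).2 fun g m => hi (by
        show incl (e (g • m)) = incl (g • e m)
        rw [map_smul, he, he, (CHom.fixed_iff (j.1 : CHom M J)).1 j.1.2])⟩,
      Subtype.ext (Subtype.ext (CHom.ext' fun m => he m))⟩
  rw [h6k] at h6
  linarith

/-- Glued local elements extend. -/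
theorem extends_glue (q : J →+[G] C) (hpr : IsCoinduced pr) {f : G → M} (hf : d1 f = 0)
    (y : homG G ↥(kerOf (freeCover G M)) J)
    (hy : ∀ v, Extends p ((freePres G M).restrict (Gv v)) (fun h : Gv v => f h)
      (locHom pr ↥(kerOf (freeCover G M)) y v : CHom ↥(kerOf (freeCover G M)) (B v))) :
    Extends p (freePres G M) f (postHom q y : CHom ↥(kerOf (freeCover G M)) C) := by
  classical
  let D := freePres G M
  choose m y' hm hy' hye using hy
  let k := ∏ v, m v
  have hk : ¬ p ∣ k := fun h => by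
    obtain ⟨v, -, hv⟩ := ((Fact.out : p.Prime).prime.dvd_finsetProd_iff _).1 h
    exact hm v hv
  let z : ∀ v, homG (Gv v) (cocExt D f) (B v) := fun v =>
    ⟨(∏ w ∈ Finset.univ.erase v, m w) •
      CHom.pre (cocRestr D (Gv v) hf) (y' v), fun h => by
        rw [smul_comm, ← map_smul, hy' v]⟩
  obtain ⟨Z, hZ⟩ := (hpr.locEquiv (cocExt D f)).surjective z
  refine ⟨k, CHom.post q (Z : CHom (cocExt D f) J), hk, fun g => by rw [← map_smul, Z.2], ?_⟩
  have key : CHom.pre (cocExt.incl D f) (Z : CHom (cocExt D f) J) = k • (y : CHom ↥(kerOf (freeCover G M)) J) := by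
    refine congrArg Subtype.val ((hpr.locEquiv ↥(kerOf (freeCover G M))).injective (a₁ :=
      (⟨CHom.pre (cocExt.incl D f) (Z : CHom (cocExt D f) J), fun g => by
        rw [← map_smul, Z.2]⟩ : homG G ↥(kerOf (freeCover G M)) J)) (a₂ := k • y) ?_)
    refine funext fun v => Subtype.ext (CHom.ext' fun r => ?_)
    have e1 := congrArg (fun w : ∀ v, homG (Gv v) (cocExt D f) (B v) =>
      (w v : CHom _ (B v)) (cocExt.incl D f r)) hZ
    refine e1.trans ?_
    show ((∏ w ∈ Finset.univ.erase v, m w) •
      CHom.pre (cocRestr D (Gv v) hf) (y' v) : CHom _ (B v)) (cocExt.incl D f r) =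
        pr v ((k • (y : CHom ↥(kerOf (freeCover G M)) J) : CHom ↥(kerOf (freeCover G M)) J) r)
    rw [CHom.nsmul_apply, CHom.nsmul_apply, map_nsmul, CHom.pre_apply_apply, cocRestr_incl]
    have e2 := congrArg (fun w : CHom ↥(kerOf (freeCover G M)) (B v) => w r) (hye v)
    simp only [CHom.pre_apply_apply, CHom.nsmul_apply] at e2
    rw [e2, ← mul_smul, mul_comm, Finset.mul_prod_erase _ _ (Finset.mem_univ v)]
    rfl
  refine CHom.ext' fun r => ?_
  have e3 := congrArg (fun w : CHom ↥(kerOf (freeCover G M)) J => q (w r)) key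
  simp only [CHom.pre_apply_apply, CHom.nsmul_apply, map_nsmul] at e3
  rw [CHom.nsmul_apply]
  exact e3

/-- **The Greenberg–Wiles inequality, abstract form.** -/
theorem selmer_le {u : G × G → C} (hu : IsPClassModule p G C u) (q : J →+[G] C)
    (hi : Function.Injective incl) (hq : Function.Surjective q)
    (hex : ∀ j, q j = 0 ↔ ∃ e, incl e = j) (hpr : IsCoinduced pr)
    [Finite (Coh1 (freeCover G M) C)] [Finite (homG G M C)]
    [∀ v, Finite (Coh1 (restrictHom (Gv v) (freeCover G M)) (B v))] [∀ v, Finite (homG (Gv v) M (B v))]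
    (W : Submodule (ZMod p) (G → M)) (hW : ∀ f ∈ W, d1 f = 0)
    (hres : ∀ v, resRange (restrictHom (Gv v) (freeCover G M)) (B v) ≤ Yv v)
    (hY : ∀ v, ∀ y ∈ Yv v, ∀ f ∈ W,
      Extends p ((freePres G M).restrict (Gv v)) (fun h : Gv v => f h) (y : CHom ↥(kerOf (freeCover G M)) (B v))) :
    (Module.finrank (ZMod p) (W ⧸ (LinearMap.range (d0L G M p)).comap W.subtype) : ℤ) ≤
      dlog p (dualSel pr incl Yv) + euler p (freeCover G M) C +
        ∑ v, (dlog p (homG (Gv v) ↥(kerOf (freeCover G M)) (B v) ⧸ Yv v) - euler p (restrictHom (Gv v) (freeCover G M)) (B v)) -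
        dlog p (homG G M E) := by
  classical
  have := Fintype.ofFinite M
  let D := freePres G M
  -- the local components of `Ext(M, J)`
  let eR := locHom pr ↥(kerOf (freeCover G M))
  have heRb : Function.Bijective eR := hpr.locHom_bijective
  have hpi := mem_resRange_iff_loc (M := M) hpr
  obtain ⟨eC⟩ := exists_coh1Equiv (M := M) hpr
  have : Finite (Coh1 (freeCover G M) J) := Finite.of_equiv _ eC.symm
  have : Finite (homG G M J) := Finite.of_equiv _ (hpr.locEquiv M).symm.toEquiv
  have : Finite (homG G M E) := Finite.of_injective (postHom incl) fun a b h =>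
    Subtype.ext (CHom.ext' fun m => hi (congrArg (fun z : homG G M J => (z : CHom M J) m) h))
  -- the maps between the `Ext`-groups
  let φ := postCoh (M := M) incl
  let ψ := postCoh (M := M) q
  let Y' : AddSubgroup (homG G ↥(kerOf (freeCover G M)) J) :=
    (AddSubgroup.pi Set.univ Yv).comap eR
  have hY' : ∀ y, y ∈ Y' ↔ ∀ v, locHom pr ↥(kerOf (freeCover G M)) y v ∈ Yv v := fun y => by
    simp [Y', eR, AddSubgroup.mem_pi]
  have hresY : resRange (freeCover G M) J ≤ Y' := fun y hy =>
    (hY' y).2 fun v => hres v ((hpi y).1 hy v)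
  let Yb : AddSubgroup (Coh1 (freeCover G M) J) := Y'.map (QuotientAddGroup.mk' _)
  -- exactness at `Ext(M, J)`
  have hexJ : ψ.ker = φ.range := ker_postCoh q hi hq hex
  -- the kernel of `φ` is the cokernel of `Hom(M, J) → Hom(M, C)`
  obtain ⟨hfinker, h5⟩ := dlog_ker_postCoh (p := p) (M := M) q hi hq hex
  -- finiteness of `Ext(M, E)`
  have : Finite φ.range := inferInstance
  have : Finite φ.ker := hfinker
  have : Finite (Coh1 (freeCover G M) E) := by
    have : Finite (Coh1 (freeCover G M) E ⧸ φ.ker) :=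
      Finite.of_equiv _ (QuotientAddGroup.quotientKerEquivRange φ).symm.toEquiv
    exact Finite.of_addSubgroup_quotient φ.ker
  -- the glued elements extend
  have hglue : Yb.map ψ ≤ (extAnn p D C W).map (QuotientAddGroup.mk' (resRange (freeCover G M) C)) := by
    rintro _ ⟨_, ⟨y, hy, rfl⟩, rfl⟩
    refine ⟨postHom q y, fun f hf => ?_, rfl⟩
    exact extends_glue q hpr (hW f hf) y fun v => hY v _ ((hY' y).1 hy v) f hf
  -- the count
  obtain ⟨-, hcard⟩ := card_quot_extAnn (C := C) D hu W hW
  have hdim : (Module.finrank (ZMod p)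
      (W ⧸ (LinearMap.range (d0L G M p)).comap W.subtype) : ℤ) =
      dlog p (homG G ↥(kerOf (freeCover G M)) C ⧸ extAnn p D C W) := by
    rw [dlog, hcard, (Fact.out : p.Prime).factorization_pow, Finsupp.single_eq_same]
  have hresT : resRange (freeCover G M) C ≤ extAnn p D C W := fun y hy f _ => by
    obtain ⟨L, hL⟩ := mem_resRange.1 hy
    rw [← show CHom.pre D.i (L : CHom (Ind G (M →₀ ℤ)) C) = (y : CHom ↥(kerOf (freeCover G M)) C) from hL]
    exact extends_pre D L.2
  let T := (extAnn p D C W).map (QuotientAddGroup.mk' (resRange (freeCover G M) C))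
  have h1 : dlog p (homG G ↥(kerOf (freeCover G M)) C ⧸ extAnn p D C W) + dlog p T = dlog p (Coh1 (freeCover G M) C) := by
    rw [dlog_subgroup_add_quot p T,
      dlog_congr p (QuotientAddGroup.quotientQuotientEquivQuotient _ _ hresT).toEquiv, add_comm]
  have h2 : dlog p (Yb.map ψ) ≤ dlog p T := dlog_mono p hglue
  -- `Yb`
  have h3 := dlog_ker_add_range p (ψ.comp Yb.subtype)
  have h3r : (ψ.comp Yb.subtype).range = Yb.map ψ := by
    rw [AddMonoidHom.range_comp, AddSubgroup.range_subtype]
  have h3k : dlog p (ψ.comp Yb.subtype).ker = dlog p ↥(ψ.ker ⊓ Yb) :=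
    dlog_congr p
      { toFun := fun x => ⟨(x : Yb).1, AddMonoidHom.mem_ker.2 x.2, (x : Yb).2⟩
        invFun := fun x => ⟨⟨x.1, x.2.2⟩, x.2.1⟩
        left_inv := fun _ => rfl
        right_inv := fun _ => rfl }
  rw [h3r, h3k, hexJ] at h3
  -- the classes in `dualSel`
  have hS : dualSel pr incl Yv = Yb.comap φ := by
    ext x
    rw [mem_dualSel, AddSubgroup.mem_comap]
    constructor
    · rintro ⟨y, hy, rfl⟩
      exact ⟨postHom incl y, (hY' _).2 hy, rfl⟩
    · induction x using QuotientAddGroup.induction_on with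
      | H y =>
        rintro ⟨w, hw, hwy⟩
        refine ⟨y, (hY' (postHom incl y)).1 ?_, rfl⟩
        have hm := hresY (QuotientAddGroup.eq.1 hwy)
        have := add_mem hw hm
        rwa [add_neg_cancel_left] at this
  have h4 := dlog_ker_add_range p (φ.comp (dualSel pr incl Yv).subtype)
  have h4r : (φ.comp (dualSel pr incl Yv).subtype).range = φ.range ⊓ Yb := by
    rw [AddMonoidHom.range_comp, AddSubgroup.range_subtype, hS, AddSubgroup.map_comap_eq]
  have h4k : dlog p (φ.comp (dualSel pr incl Yv).subtype).ker = dlog p φ.ker := by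
    have hle : φ.ker ≤ dualSel pr incl Yv := by
      rw [hS]
      intro x hx
      rw [AddSubgroup.mem_comap, AddMonoidHom.mem_ker.1 hx]
      exact zero_mem _
    exact dlog_congr p
      { toFun := fun x => ⟨(x : dualSel pr incl Yv).1, x.2⟩
        invFun := fun x => ⟨⟨x.1, hle x.2⟩, x.2⟩
        left_inv := fun _ => rfl
        right_inv := fun _ => rfl }
  rw [h4r, h4k] at h4
  -- the local indices
  have : Finite (homG G ↥(kerOf (freeCover G M)) J ⧸ Y') :=
    Finite.of_surjective (QuotientAddGroup.map _ _ (AddMonoidHom.id _) hresY)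
      fun x => by
        induction x using QuotientAddGroup.induction_on with
        | H z => exact ⟨QuotientAddGroup.mk z, rfl⟩
  have h7 : dlog p Yb + dlog p (homG G ↥(kerOf (freeCover G M)) J ⧸ Y') = dlog p (Coh1 (freeCover G M) J) := by
    rw [dlog_subgroup_add_quot p Yb,
      dlog_congr p (QuotientAddGroup.quotientQuotientEquivQuotient _ _ hresY).toEquiv]
  let F : (homG G ↥(kerOf (freeCover G M)) J ⧸ Y') →+ ∀ v, homG (Gv v) ↥(kerOf (freeCover G M)) (B v) ⧸ Yv v :=
    QuotientAddGroup.lift Y' (AddMonoidHom.mk' (fun y v => (eR y v : homG (Gv v) ↥(kerOf (freeCover G M)) (B v) ⧸ Yv v))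
      fun a b => by ext v; simp) fun y hy => funext fun v =>
        (QuotientAddGroup.eq_zero_iff _).2 ((hY' y).1 hy v)
  have hF : Function.Bijective F := by
    refine ⟨(injective_iff_map_eq_zero _).2 fun x hx => ?_, fun w => ?_⟩
    · induction x using QuotientAddGroup.induction_on with
      | H y =>
        exact (QuotientAddGroup.eq_zero_iff _).2 ((hY' y).2 fun v =>
          (QuotientAddGroup.eq_zero_iff _).1 (congr_fun hx v))
    · obtain ⟨y, hy⟩ := heRb.2 fun v => (w v).out
      exact ⟨QuotientAddGroup.mk y, funext fun v =>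
        (congrArg QuotientAddGroup.mk (congr_fun hy v)).trans (Quotient.out_eq (w v))⟩
  have : ∀ v, Finite (homG (Gv v) ↥(kerOf (freeCover G M)) (B v) ⧸ Yv v) := fun v =>
    Finite.of_surjective (fun x => F x v) fun y =>
      ⟨(hF.2 (Function.update 0 v y)).choose,
        (congr_fun (hF.2 (Function.update 0 v y)).choose_spec v).trans (by simp)⟩
  have h8 : dlog p (homG G ↥(kerOf (freeCover G M)) J ⧸ Y') = ∑ v, dlog p (homG (Gv v) ↥(kerOf (freeCover G M)) (B v) ⧸ Yv v) := by
    rw [dlog_congr p (Equiv.ofBijective F hF), dlog_pi]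
  have h9 : dlog p (Coh1 (freeCover G M) J) = ∑ v, dlog p (Coh1 (restrictHom (Gv v) (freeCover G M)) (B v)) := by
    rw [dlog_congr p eC, dlog_pi]
  have h10 : dlog p (homG G M J) = ∑ v, dlog p (homG (Gv v) M (B v)) := by
    rw [dlog_congr p (hpr.locEquiv M).toEquiv, dlog_pi]
  rw [hdim]
  simp only [euler, Finset.sum_sub_distrib]
  linarith

end Inequality

end Fermat.Agent.ClassField.GW

end
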