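import Fermat.Agent.ClassField.GW.Euler.Additive
import Mathlib.GroupTheory.Sylow

/-!
# Independence of presentations, additivity in the module, Shapiro

Owner: helper41. The coefficient side lives in `Type`.
-/

set_option autoImplicit false

noncomputable section

namespace Fermat.Agent.ClassField.GW

open S55

/-- Functions on a `G`-set with values in a `G`-module, with the diagonal action. -/
@[ext]
structure PermMod (Y M : Type*) where
  /-- the underlying function -/
  val : Y → M

namespace PermMod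

variable {G Y M : Type*} [AddCommGroup M]

instance : Add (PermMod Y M) := ⟨fun f f' => ⟨f.val + f'.val⟩⟩
instance : Zero (PermMod Y M) := ⟨⟨0⟩⟩
instance : Neg (PermMod Y M) := ⟨fun f => ⟨-f.val⟩⟩
instance : Sub (PermMod Y M) := ⟨fun f f' => ⟨f.val - f'.val⟩⟩

instance : AddCommGroup (PermMod Y M) where
  add_assoc f g h := PermMod.ext (add_assoc _ _ _)
  zero_add f := PermMod.ext (zero_add _)
  add_zero f := PermMod.ext (add_zero _)
  add_comm f g := PermMod.ext (add_comm _ _)
  sub_eq_add_neg f g := PermMod.ext (sub_eq_add_neg _ _)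
  neg_add_cancel f := PermMod.ext (neg_add_cancel _)
  nsmul := nsmulRec
  zsmul := zsmulRec

instance [Group G] [MulAction G Y] [DistribMulAction G M] : DistribMulAction G (PermMod Y M) where
  smul g f := ⟨fun y => g • f.val (g⁻¹ • y)⟩
  one_smul f := PermMod.ext (funext fun y => by
    show (1 : G) • f.val ((1 : G)⁻¹ • y) = f.val y
    rw [inv_one, one_smul, one_smul])
  mul_smul g h f := PermMod.ext (funext fun y => by
    show (g * h) • f.val ((g * h)⁻¹ • y) = g • h • f.val (h⁻¹ • g⁻¹ • y)
    rw [mul_inv_rev, mul_smul, mul_smul])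
  smul_zero g := PermMod.ext (funext fun y => smul_zero g)
  smul_add g f f' := PermMod.ext (funext fun y => smul_add g _ _)

end PermMod

variable {p : ℕ} [Fact p.Prime] {G : Type} [Group G] [Finite G]
variable {M : Type} [AddCommGroup M] [DistribMulAction G M] [Finite M]
variable {X : Type*} [AddCommGroup X] [DistribMulAction G X]

/-- invariant homomorphisms from lattices into acyclic modules are norms up to `[G : P]` -/
theorem PAcyclic.exists_norm [Fintype G] (hX : PAcyclic G p X) {R : Type*} [AddCommGroup R]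
    [DistribMulAction G R] [Module.Free ℤ R] (f : CHom R X) (hf : ∀ g : G, g • f = f) :
    ∃ m : ℕ, ¬ p ∣ m ∧ ∃ φ, normSum G φ = m • f := by
  classical
  obtain ⟨P⟩ : Nonempty (Sylow p G) := inferInstance
  obtain ⟨y, hy⟩ := hom_fixed_eq_norm (R := R) P.isPGroup' (hX P P.isPGroup') f fun g => by
    refine CHom.ext' fun r => ?_
    show ((g : G) • f) r = f r
    rw [hf]
  exact ⟨(P : Subgroup G).index, P.not_dvd_index, y, index_smul_eq_normSum _ hf hy⟩

theorem PAcyclic.normSurj [Fintype G] (hX : PAcyclic G p X) : NormSurj p G X :=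
  fun _ _ _ _ _ f hf => hX.exists_norm f hf

/-- For an acyclic target equivariant maps extend along `ℤ`-split inclusions of lattices, up to an
integer prime to `p`. -/
theorem exists_extend {A : Type*} [AddCommGroup A] [DistribMulAction G A] [Module.Free ℤ A]
    [Module.Finite ℤ A] (hX : PAcyclic G p X) (B : AddSubgroup A)
    (hB : ∀ g : G, ∀ b ∈ B, g • b ∈ B)
    (r : A →+ A) (hr : ∀ a, r a ∈ B) (hr' : ∀ b ∈ B, r b = b) (f : A →+ X)
    (hf : ∀ g : G, ∀ b ∈ B, f (g • b) = g • f b) :
    ∃ (m : ℕ) (F : A →+ X), ¬ p ∣ m ∧ (∀ (g : G) (a : A), F (g • a) = g • F a) ∧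
      ∀ b ∈ B, F b = m • f b := by
  classical
  letI := Fintype.ofFinite G
  letI : DistribMulAction G B :=
    { smul := fun g b => ⟨g • (b : A), hB g b b.2⟩
      one_smul := fun b => Subtype.ext (one_smul G (b : A))
      mul_smul := fun g h b => Subtype.ext (mul_smul g h (b : A))
      smul_zero := fun g => Subtype.ext (smul_zero g)
      smul_add := fun g b b' => Subtype.ext (smul_add g (b : A) b') }
  have : Module.Free ℤ B :=
    Module.Free.of_equiv ((AddEquiv.refl (AddSubgroup.toIntSubmodule B)).toIntLinearEquiv :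
      AddSubgroup.toIntSubmodule B ≃ₗ[ℤ] B)
  let fB : CHom B X := ⟨f.comp B.subtype⟩
  obtain ⟨m, hm, φ, hφ⟩ := hX.exists_norm fB ((CHom.fixed_iff fB).2 fun g b => hf g b b.2)
  let F0 : CHom A X := ⟨φ.hom.comp (r.codRestrict B hr)⟩
  refine ⟨m, (normSum G F0).hom, hm, fun g a => (CHom.fixed_iff _).1 (fun h => smul_normSum h F0) g a,
    fun b hb => ?_⟩
  have := congrArg (fun u : CHom B X => u ⟨b, hb⟩) hφ
  simp only [CHom.nsmul_apply] at this
  refine Eq.trans ?_ this
  show normSum G F0 b = normSum G φ ⟨b, hb⟩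
  simp only [normSum, AddMonoidHom.coe_mk, ZeroHom.coe_mk, CHom.sum_apply, CHom.smul_apply]
  refine Finset.sum_congr rfl fun g _ => congrArg _ ?_
  show φ _ = φ _
  exact congrArg _ (Subtype.ext (hr' _ (hB _ b hb)))

omit [Fact p.Prime] [Finite G] [Finite M] in
theorem dlog_eq_padicValNat [Fact p.Prime] (A : Type*) :
    dlog p A = padicValNat p (Nat.card A) := by
  rw [dlog, Nat.factorization_def _ Fact.out]

omit [Fact p.Prime] [Finite G] [Finite M] in
theorem resRange_eq {A : Type*} [AddCommGroup A] [DistribMulAction G A] (π : A →+[G] M) :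
    resRange π X = (resMap π X).range := by
  ext x
  simp only [resRange, AddSubgroup.mem_addSubgroupOf, AddMonoidHom.mem_range,
    AddMonoidHom.domRestrict_apply]
  constructor
  · rintro ⟨f, hf⟩
    exact ⟨f, Subtype.ext hf⟩
  · rintro ⟨f, rfl⟩
    exact ⟨f, rfl⟩

omit [Finite G] [Finite M] in
theorem euler_eq_eulOf {A : Type*} [AddCommGroup A] [DistribMulAction G A] {π : A →+[G] M}
    (hπ : Function.Surjective π) : euler p π X = eulOf p π X := by
  rw [euler, eulOf, hv, dlog_eq_padicValNat, dlog_eq_padicValNat,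
    Nat.card_congr (kerResEquiv π hπ), ← resRange_eq]
  rfl

theorem eulerChar_eq_eul [Fintype G] : eulerChar G p M X = eul p G M X := by
  rw [eulerChar, Subsingleton.elim (Fintype.ofFinite G) ‹_›]
  exact euler_eq_eulOf freeCover_surjective

omit [Group G] [Finite G] [DistribMulAction G M] in
/-- the additive dual of a finite `p`-torsion group has the same size -/
theorem natCard_addHom_zmod (hM : ∀ x : M, p • x = 0) :
    Nat.card (M →+ ZMod p) = Nat.card M := by
  let i : Module (ZMod p) M := AddCommGroup.zmodModule hM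
  have key : ∀ (V : Type) [AddCommGroup V] [Module (ZMod p) V] [Finite V],
      Nat.card (V →+ ZMod p) = Nat.card V := by
    intro V _ _ _
    let e2 : (V →+ ZMod p) ≃ Module.Dual (ZMod p) V :=
      { toFun := fun f => f.toZModLinearMap p, invFun := fun f => f.toAddMonoidHom,
        left_inv := fun f => rfl, right_inv := fun f => rfl }
    rw [Nat.card_congr e2, Module.natCard_eq_pow_finrank (K := ZMod p) (V := Module.Dual (ZMod p) V),
      Module.natCard_eq_pow_finrank (K := ZMod p) (V := V), Subspace.dual_finrank_eq]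
  exact key M

variable (hM : ∀ x : M, p • x = 0) (hXf : PFinite p X)
include hM hXf

theorem finite_coh0 : Finite (homG G M X) := finite_fixed_CHom hXf hM

theorem finite_coh1 {A : Type*} [AddCommGroup A] [DistribMulAction G A] {π : A →+[G] M}
    (hπ : IsPresentation π) : Finite (Coh1 π X) := by
  have := hπ.free
  have := hπ.finite
  have h := (hfin_resMap hXf π hπ.surj hM).coker
  rw [← resRange_eq] at h
  exact Nat.finite_of_card_ne_zero h

omit hXf in
theorem euler_eq_eulerChar (hX : PAcyclic G p X) {A : Type} [AddCommGroup A]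
    [DistribMulAction G A] {π : A →+[G] M} (hπ : IsPresentation π) :
    euler p π X = eulerChar G p M X := by
  letI := Fintype.ofFinite G
  have := hπ.free
  have := hπ.finite
  rw [euler_eq_eulOf hπ.surj, eulerChar_eq_eul, eul_eq_eulOf π hπ.surj hM hX.normSurj]

theorem eulerChar_add (hX : PAcyclic G p X) {M₁ M₂ : Type} [AddCommGroup M₁]
    [DistribMulAction G M₁] [Finite M₁] [AddCommGroup M₂] [DistribMulAction G M₂] [Finite M₂]
    (i : M₁ →+[G] M) (j : M →+[G] M₂) (hi : Function.Injective i) (hj : Function.Surjective j)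
    (hex : ∀ m, j m = 0 ↔ ∃ m₁, i m₁ = m) :
    eulerChar G p M X = eulerChar G p M₁ X + eulerChar G p M₂ X := by
  letI := Fintype.ofFinite G
  rw [eulerChar_eq_eul, eulerChar_eq_eul, eulerChar_eq_eul]
  exact eul_add hXf i j hi hj hex hM hX.normSurj

omit hXf in
theorem eulerChar_congr (hX : PAcyclic G p X) {M₂ : Type} [AddCommGroup M₂]
    [DistribMulAction G M₂] [Finite M₂] (e : M →+[G] M₂) (he : Function.Bijective e) :
    eulerChar G p M X = eulerChar G p M₂ X := by
  letI := Fintype.ofFinite G
  rw [eulerChar_eq_eul, eulerChar_eq_eul]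
  refine eul_congr e he (fun n => ?_) hX.normSurj
  obtain ⟨x, rfl⟩ := he.2 n
  rw [← map_nsmul, hM, map_zero]

omit hM hXf

namespace PermMod

variable {Y L L' : Type*} [AddCommGroup L] [AddCommGroup L']

omit [Group G] [Finite G] in
/-- evaluation -/
def evalHom (y : Y) : PermMod Y L →+ L where
  toFun f := f.val y
  map_zero' := rfl
  map_add' _ _ := rfl

omit [Group G] [Finite G] in
theorem sum_val {ι : Type*} (s : Finset ι) (f : ι → PermMod Y L) (y : Y) :
    (∑ i ∈ s, f i).val y = ∑ i ∈ s, (f i).val y :=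
  map_sum (evalHom y) f s

open Classical in
/-- delta functions -/
def single (y : Y) : L →+ PermMod Y L where
  toFun l := ⟨fun z => if z = y then l else 0⟩
  map_zero' := PermMod.ext (funext fun z => ite_self _)
  map_add' a b := PermMod.ext (funext fun z => by
    show (if z = y then a + b else 0) = (if z = y then a else 0) + (if z = y then b else 0)
    split <;> simp)

omit [Group G] [Finite G] in
theorem eq_sum_single [Fintype Y] (f : PermMod Y L) : f = ∑ y, single y (f.val y) := by
  classical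
  refine PermMod.ext (funext fun z => ?_)
  rw [sum_val]
  show f.val z = ∑ y, if z = y then f.val y else 0
  simp

omit [Group G] [Finite G] in
theorem evalHom_single (y : Y) (l : L) : evalHom y (single y l) = l := by
  simp [evalHom, single]

omit [Group G] [Finite G] in
theorem evalHom_single_of_ne {y z : Y} (h : z ≠ y) (l : L) : evalHom z (single y l) = 0 := by
  simp [evalHom, single, h]

variable [MulAction G Y] [DistribMulAction G L] [DistribMulAction G L']

/-- functoriality -/
def map (φ : L →+[G] L') : PermMod Y L →+[G] PermMod Y L' where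
  toFun f := ⟨fun y => φ (f.val y)⟩
  map_smul' g f := PermMod.ext (funext fun y => map_smul φ g _)
  map_zero' := PermMod.ext (funext fun y => map_zero φ)
  map_add' f f' := PermMod.ext (funext fun y => map_add φ _ _)

omit [Finite G] in
theorem smul_single (g : G) (y : Y) (l : L) : g • single y l = single (g • y) (g • l) := by
  classical
  refine PermMod.ext (funext fun z => ?_)
  show g • (if g⁻¹ • z = y then l else 0) = if z = g • y then g • l else 0
  simp only [inv_smul_eq_iff]
  split <;> simp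

/-- the kernel of a map on functions -/
def kerEquiv (φ : L →+[G] L') : kerOf (map (Y := Y) φ) ≃+ PermMod Y (kerOf φ) where
  toFun f := ⟨fun y => ⟨f.1.val y, congrArg (fun u : PermMod Y L' => u.val y) f.2⟩⟩
  invFun f := ⟨⟨fun y => (f.val y).1⟩, PermMod.ext (funext fun y => (f.val y).2)⟩
  left_inv f := rfl
  right_inv f := rfl
  map_add' f f' := rfl

end PermMod

section Shapiro

variable (D : Subgroup G) {L : Type*} [AddCommGroup L] [DistribMulAction G L]

open PermMod in
/-- Shapiro on homomorphisms -/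
def shapiroHom [Fintype (G ⧸ D)] :
    fixedSub G (CHom (PermMod (G ⧸ D) L) X) ≃+ fixedSub D (CHom L X) where
  toFun F := ⟨⟨F.1.hom.comp (single ((1 : G) : G ⧸ D))⟩, (CHom.fixed_iff _).2 fun d l => by
    show F.1 (single _ ((d : G) • l)) = (d : G) • F.1 (single _ l)
    rw [← (CHom.fixed_iff F.1).1 F.2, smul_single]
    congr 3
    exact (QuotientGroup.eq.2 (by simp)).symm⟩
  invFun f := ⟨⟨∑ q : G ⧸ D, (DistribSMul.toAddMonoidHom X (Quotient.out q)).comp
      (f.1.hom.comp ((DistribSMul.toAddMonoidHom L (Quotient.out q)⁻¹).comp (evalHom q)))⟩,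
    (CHom.fixed_iff _).2 fun g φ => by
      show (∑ q : G ⧸ D, (DistribSMul.toAddMonoidHom X (Quotient.out q)).comp
        (f.1.hom.comp ((DistribSMul.toAddMonoidHom L (Quotient.out q)⁻¹).comp (evalHom q)))) (g • φ)
        = g • (∑ q : G ⧸ D, (DistribSMul.toAddMonoidHom X (Quotient.out q)).comp
        (f.1.hom.comp ((DistribSMul.toAddMonoidHom L (Quotient.out q)⁻¹).comp (evalHom q)))) φ
      simp only [AddMonoidHom.finsetSum_apply, Finset.smul_sum, AddMonoidHom.coe_comp,
        Function.comp_apply, DistribSMul.toAddMonoidHom_apply]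
      refine (Fintype.sum_equiv (MulAction.toPerm g) _ _ fun r => ?_).symm
      obtain ⟨d, hd⟩ : ∃ d : D, Quotient.out (g • r) = g * Quotient.out r * d := by
        refine ⟨⟨(g * Quotient.out r)⁻¹ * Quotient.out (g • r), ?_⟩, by simp [mul_assoc]⟩
        rw [← QuotientGroup.eq, QuotientGroup.out_eq']
        conv_rhs => rw [← QuotientGroup.out_eq' r]
        rfl
      show g • Quotient.out r • f.1 ((Quotient.out r)⁻¹ • φ.val r) =
        Quotient.out (g • r) • f.1 ((Quotient.out (g • r))⁻¹ • (g • φ.val (g⁻¹ • g • r)))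
      rw [inv_smul_smul, ← mul_smul ((Quotient.out (g • r))⁻¹), hd,
        show (g * Quotient.out r * (d : G))⁻¹ * g = ((d⁻¹ : D) : G) * (Quotient.out r)⁻¹ by
          simp [mul_assoc],
        mul_smul ((d⁻¹ : D) : G), ← Subgroup.smul_def, (CHom.fixed_iff f.1).1 f.2,
        Subgroup.smul_def, ← mul_smul, ← mul_smul]
      simp⟩
  left_inv F := Subtype.ext (CHom.ext' fun φ => by
    show (∑ q : G ⧸ D, (DistribSMul.toAddMonoidHom X (Quotient.out q)).comp
      ((F.1.hom.comp (single ((1 : G) : G ⧸ D))).comp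
        ((DistribSMul.toAddMonoidHom L (Quotient.out q)⁻¹).comp (evalHom q)))) φ = F.1 φ
    conv_rhs => rw [eq_sum_single φ, map_sum]
    simp only [AddMonoidHom.finsetSum_apply, AddMonoidHom.coe_comp, Function.comp_apply,
      DistribSMul.toAddMonoidHom_apply]
    refine Finset.sum_congr rfl fun q _ => ?_
    rw [← (CHom.fixed_iff F.1).1 F.2, smul_single, smul_inv_smul]
    congr 3
    rw [MulAction.Quotient.smul_coe, smul_eq_mul, mul_one, QuotientGroup.out_eq'])
  right_inv f := Subtype.ext (CHom.ext' fun l => by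
    classical
    show (∑ q : G ⧸ D, (DistribSMul.toAddMonoidHom X (Quotient.out q)).comp
      (f.1.hom.comp ((DistribSMul.toAddMonoidHom L (Quotient.out q)⁻¹).comp (evalHom q))))
        (single ((1 : G) : G ⧸ D) l) = f.1 l
    simp only [AddMonoidHom.finsetSum_apply, AddMonoidHom.coe_comp, Function.comp_apply,
      DistribSMul.toAddMonoidHom_apply]
    rw [Finset.sum_eq_single ((1 : G) : G ⧸ D)]
    · obtain ⟨d, hd⟩ := QuotientGroup.mk_out_eq_mul D 1
      rw [evalHom_single, hd, one_mul, ← Subgroup.coe_inv, ← Subgroup.smul_def, ← Subgroup.smul_def,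
        (CHom.fixed_iff f.1).1 f.2, smul_inv_smul]
    · intro q _ hq
      rw [evalHom_single_of_ne hq, smul_zero, map_zero, smul_zero]
    · exact fun h => absurd (Finset.mem_univ _) h)
  map_add' F F' := Subtype.ext (CHom.ext' fun l => rfl)

end Shapiro

variable (hM : ∀ x : M, p • x = 0)
include hM

/-- Shapiro. -/
theorem eulerChar_permMod (hX : PAcyclic G p X) (D : Subgroup G) :
    eulerChar G p (PermMod (G ⧸ D) M) X = eulerChar D p M X := by
  classical
  letI := Fintype.ofFinite G
  letI := Fintype.ofFinite D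
  letI := Fintype.ofFinite (G ⧸ D)
  let π := freeCover G M
  let πD : Ind G (M →₀ ℤ) →+[D] M := restrictHom D π
  let L := PermMod (G ⧸ D) (Ind G (M →₀ ℤ))
  have : Finite (PermMod (G ⧸ D) M) :=
    Finite.of_injective PermMod.val fun a b h => PermMod.ext h
  let eL : ((G ⧸ D) → Ind G (M →₀ ℤ)) ≃ₗ[ℤ] L := AddEquiv.toIntLinearEquiv
    { toFun := fun f => ⟨f⟩, invFun := PermMod.val, left_inv := fun f => rfl,
      right_inv := fun f => rfl, map_add' := fun f f' => rfl }
  have : Module.Free ℤ L := Module.Free.of_equiv eL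
  have : Module.Finite ℤ L := Module.Finite.equiv eL
  let Pm : L →+[G] PermMod (G ⧸ D) M := PermMod.map π
  have hPm : Function.Surjective Pm := fun f =>
    ⟨⟨fun y => Function.surjInv freeCover_surjective (f.val y)⟩,
      PermMod.ext (funext fun y => Function.surjInv_eq freeCover_surjective _)⟩
  have hXD : PAcyclic D p X := fun Q hQ => by
    have h := hX (Q.map D.subtype) (hQ.map _)
    let e : Q ≃* Q.map D.subtype := Q.equivMapOfInjective D.subtype Subtype.val_injective
    refine ⟨fun H f hf => ?_, fun H c hc => ?_⟩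
    · let H' := H.map e.toMonoidHom
      let eH : H ≃* H' := H.equivMapOfInjective e.toMonoidHom e.injective
      obtain ⟨x, hx⟩ := h.h1 H' (fun a => f (eH.symm a)) (funext fun ⟨a, b⟩ => by
        obtain ⟨a, rfl⟩ := eH.surjective a
        obtain ⟨b, rfl⟩ := eH.surjective b
        have := congrFun hf (a, b)
        simp only [d1, ← map_mul, MulEquiv.symm_apply_apply] at this ⊢
        exact this)
      refine ⟨x, funext fun a => ?_⟩
      have := congrFun hx (eH a)
      simp only [MulEquiv.symm_apply_apply] at this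
      exact this
    · let H' := H.map e.toMonoidHom
      let eH : H ≃* H' := H.equivMapOfInjective e.toMonoidHom e.injective
      obtain ⟨b, hb⟩ := h.h2 H' (fun a => c (eH.symm a.1, eH.symm a.2)) fun g h' j => by
        obtain ⟨g, rfl⟩ := eH.surjective g
        obtain ⟨h', rfl⟩ := eH.surjective h'
        obtain ⟨j, rfl⟩ := eH.surjective j
        simp only [← map_mul, MulEquiv.symm_apply_apply]
        exact hc g h' j
      refine ⟨fun a => b (eH a), funext fun ⟨a, a'⟩ => ?_⟩
      have := congrFun hb (eH a, eH a')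
      simp only [d1, ← map_mul, MulEquiv.symm_apply_apply] at this ⊢
      exact this
  rw [eulerChar_eq_eul, eulerChar_eq_eul,
    eul_eq_eulOf Pm hPm (fun f => PermMod.ext (funext fun y => by
      show (PermMod.evalHom y) (p • f) = 0
      rw [map_nsmul]
      exact hM _)) hX.normSurj,
    eul_eq_eulOf (G := D) πD freeCover_surjective hM hXD.normSurj]
  let ek : kerOf Pm →+[G] PermMod (G ⧸ D) (kerOf π) :=
    { toFun := PermMod.kerEquiv π, map_smul' := fun g f => rfl, map_zero' := rfl,
      map_add' := fun f f' => rfl }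
  let ek' : PermMod (G ⧸ D) (kerOf π) →+[G] kerOf Pm :=
    { toFun := (PermMod.kerEquiv π).symm, map_smul' := fun g f => rfl, map_zero' := rfl,
      map_add' := fun f f' => rfl }
  let E : fixedSub G (CHom (kerOf Pm) X) ≃+ fixedSub G (CHom (PermMod (G ⧸ D) (kerOf π)) X) :=
    { toFun := fixMap (CHom.pre ek'), invFun := fixMap (CHom.pre ek), left_inv := fun f => rfl,
      right_inv := fun f => rfl, map_add' := map_add _ }
  let E2 : fixedSub D (CHom (kerOf π) X) ≃+ fixedSub D (CHom (kerOf πD) X) :=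
    { toFun := fun f => ⟨⟨f.1.hom⟩, f.2⟩, invFun := fun f => ⟨⟨f.1.hom⟩, f.2⟩,
      left_inv := fun f => rfl, right_inv := fun f => rfl, map_add' := fun f f' => rfl }
  refine (hv_congr (shapiroHom D) ((E.trans (shapiroHom D)).trans E2) fun a => ?_).1
  refine Subtype.ext (CHom.ext' fun r => ?_)
  obtain ⟨r, hr⟩ := r
  show a.1 _ = a.1 _
  congr 1
  refine PermMod.ext (funext fun z => ?_)
  show ((PermMod.evalHom z (PermMod.single ((1 : G) : G ⧸ D) (⟨r, hr⟩ : kerOf π)) : kerOf π) : Ind G (M →₀ ℤ)) =
    PermMod.evalHom z (PermMod.single ((1 : G) : G ⧸ D) r)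
  by_cases hz : z = ((1 : G) : G ⧸ D)
  · subst hz
    rw [PermMod.evalHom_single, PermMod.evalHom_single]
  · rw [PermMod.evalHom_single_of_ne hz, PermMod.evalHom_single_of_ne hz]
    rfl

omit hM in
/-- acyclicity of induced modules -/
theorem pAcyclic_ind (B : Type*) [AddCommGroup B] : PAcyclic G p (Ind G B) := by
  intro Q _
  have key : ∀ (H : Subgroup Q), ∃ (h : G → H) (r : G → G), (∀ τ, ((h τ : Q) : G) * r τ = τ) ∧
      ∀ (g : H) τ, h (((g : Q) : G)⁻¹ * τ) = g⁻¹ * h τ ∧ r (((g : Q) : G)⁻¹ * τ) = r τ := by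
    intro H
    let K := H.map Q.subtype
    let o : G → G := fun τ => Quotient.out (QuotientGroup.mk τ⁻¹ : G ⧸ K)
    have ho : ∀ τ, τ * o τ ∈ K := fun τ => by
      obtain ⟨k, hk⟩ := QuotientGroup.mk_out_eq_mul K τ⁻¹
      simp [o, hk]
    have hi : ∀ τ, ∃ h : H, ((h : Q) : G) = τ * o τ := fun τ => by
      obtain ⟨q, hq, e⟩ := Subgroup.mem_map.1 (ho τ)
      exact ⟨⟨q, hq⟩, e⟩
    choose h hh using hi
    refine ⟨h, fun τ => (o τ)⁻¹, fun τ => by rw [hh]; simp, fun g τ => ?_⟩
    have e : o (((g : Q) : G)⁻¹ * τ) = o τ := by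
      simp only [o]
      congr 1
      rw [QuotientGroup.eq]
      exact Subgroup.mem_map.2 ⟨((g : Q))⁻¹, H.inv_mem g.2, by simp [mul_assoc]⟩
    refine ⟨Subtype.ext (Subtype.ext ?_), by show (o _)⁻¹ = (o _)⁻¹; rw [e]⟩
    rw [hh, e]
    push_cast
    rw [hh, mul_assoc]
  refine ⟨fun H z hz => ?_, fun H c hc => ?_⟩
  · obtain ⟨h, r, hr, hg⟩ := key H
    refine ⟨⟨fun τ => -(z (h τ)).val τ⟩, funext fun g => Ind.ext (funext fun τ => ?_)⟩
    have e := congrArg (fun u : Ind G B => u.val τ) (congrFun hz (g, g⁻¹ * h τ))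
    simp only [d1, mul_inv_cancel_left, Ind.add_apply, Ind.sub_apply, Pi.zero_apply,
      Ind.zero_apply] at e
    change (z (g⁻¹ * h τ)).val (((g : Q) : G)⁻¹ * τ) - _ + _ = 0 at e
    show -(z (h (((g : Q) : G)⁻¹ * τ))).val (((g : Q) : G)⁻¹ * τ) - -(z (h τ)).val τ = (z g).val τ
    rw [(hg g τ).1, ← sub_eq_zero, ← neg_eq_zero, ← e]
    abel
  · obtain ⟨h, r, hr, hg⟩ := key H
    refine ⟨fun g => ⟨fun τ => (c ((h τ)⁻¹, g)).val (r τ)⟩,
      funext fun ⟨g, k⟩ => Ind.ext (funext fun τ => ?_)⟩
    have e := congrArg (fun f : Ind G B => f.val (r τ)) (hc (h τ)⁻¹ g k)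
    simp only [Ind.add_apply, Ind.sub_apply, Ind.zero_apply] at e
    change (c (g, k)).val (((((h τ)⁻¹ : H) : Q) : G)⁻¹ * r τ) - _ + _ - _ = 0 at e
    simp only [d1, Ind.add_apply, Ind.sub_apply]
    show (c ((h (((g : Q) : G)⁻¹ * τ))⁻¹, k)).val (r (((g : Q) : G)⁻¹ * τ)) - _ + _ = _
    rw [(hg g τ).1, (hg g τ).2, mul_inv_rev, inv_inv]
    rw [show ((((h τ)⁻¹ : H) : Q) : G)⁻¹ * r τ = τ by push_cast; rw [inv_inv, hr]] at e
    rw [← sub_eq_zero, ← neg_eq_zero, ← e]
    abel

omit hM in
/-- a torsion-free target is computed by reduction modulo `p` -/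
theorem eulerChar_of_torsionFree (hM : ∀ x : M, p • x = 0) (hXt : ∀ x : X, p • x = 0 → x = 0) :
    eulerChar G p M X = dlog p (homG G M (X ⧸ pSub p X)) := by
  classical
  letI := Fintype.ofFinite G
  rw [eulerChar_eq_eul]
  let π := freeCover G M
  have hπ : Function.Surjective π := freeCover_surjective
  have h0 : Nat.card (resMap π X).ker = 1 := by
    rw [← Nat.card_congr (kerResEquiv π hπ), Nat.card_eq_one_iff_unique]
    refine ⟨⟨fun a b => Subtype.ext (CHom.ext' fun m => sub_eq_zero.1 (hXt _ ?_))⟩, ⟨0⟩⟩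
    rw [← CHom.sub_apply, ← map_nsmul, hM, map_zero]
  have hm : ∀ x : Ind G (M →₀ ℤ), p • x ∈ kerOf π := fun x => by rw [mem_kerOf, map_nsmul, hM]
  let pR : Ind G (M →₀ ℤ) →+ kerOf π :=
    AddMonoidHom.mk' (fun x => ⟨p • x, hm x⟩) fun x y => Subtype.ext (smul_add p x y)
  have hpr : ∀ r : kerOf π, pR r.1 = p • r := fun r => Subtype.ext rfl
  have hpg : ∀ (g : G) x, pR (g • x) = g • pR x := fun g x => Subtype.ext (smul_comm p g x)
  have hlift : ∀ (f : CHom (kerOf π) X) x y, π x = π y →
      (pRed G p (f (pR x)) : X ⧸ pSub p X) = pRed G p (f (pR y)) := fun f x y e => by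
    rw [← sub_eq_zero, ← map_sub, ← map_sub, ← map_sub,
      hpr ⟨x - y, by rw [mem_kerOf, map_sub, e, sub_self]⟩, map_nsmul]
    exact (QuotientAddGroup.eq_zero_iff _).2 (mem_pSub.2 ⟨_, rfl⟩)
  let Θ : fixedSub G (CHom (kerOf π) X) →+ fixedSub G (CHom M (X ⧸ pSub p X)) :=
    AddMonoidHom.mk' (fun f => ⟨⟨AddMonoidHom.mk' (fun n => pRed G p (f.1 (pR (Function.surjInv hπ n))))
      fun a b => by
        rw [← map_add (pRed G p), ← map_add, ← map_add]
        exact hlift f.1 _ _ (by simp [map_add, Function.surjInv_eq hπ])⟩, by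
      refine (CHom.fixed_iff _).2 fun g n => ?_
      show pRed G p (f.1 (pR _)) = g • pRed G p (f.1 (pR _))
      rw [← map_smul, ← (CHom.fixed_iff f.1).1 f.2, ← hpg]
      exact hlift f.1 _ _ (by simp [map_smul, Function.surjInv_eq hπ])⟩)
      fun f f' => Subtype.ext (CHom.ext' fun n => map_add (pRed G p) _ _)
  have hsurj : Function.Surjective Θ := by
    intro ψ
    obtain ⟨h0, hh0⟩ := Module.projective_lifting_property
      (pRed G (A := X) p : X →+ X ⧸ pSub p X).toIntLinearMap
      (ψ.1.hom.toIntLinearMap.comp (Finsupp.linearCombination ℤ (id : M → M)))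
      QuotientAddGroup.mk_surjective
    let h : CHom (Ind G (M →₀ ℤ)) X := ⟨AddMonoidHom.mk' (fun f => ∑ τ : G, τ • h0 (f.val τ))
      fun f f' => by simp [Finset.sum_add_distrib]⟩
    have hh : ∀ x, pRed G p (h x) = ψ.1 (π x) := fun x => by
      show pRed G p (∑ τ : G, τ • h0 (x.val τ)) =
        ψ.1 (∑ τ : G, τ • Finsupp.linearCombination ℤ id (x.val τ))
      rw [map_sum, map_sum]
      refine Finset.sum_congr rfl fun τ _ => ?_
      rw [map_smul, (CHom.fixed_iff ψ.1).1 ψ.2]
      exact congrArg _ (LinearMap.congr_fun hh0 _)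
    have hf : ∀ r : kerOf π, ∃ y, p • y = h r.1 := fun r =>
      mem_pSub.1 ((QuotientAddGroup.eq_zero_iff _).1 (by
        show pRed G p (h r.1) = 0
        rw [hh, mem_kerOf.1 r.2, map_zero]))
    choose f hf using hf
    let fH : CHom (kerOf π) X := ⟨AddMonoidHom.mk' f fun a b => sub_eq_zero.1 (hXt _ (by
      rw [nsmul_sub, nsmul_add, hf, hf, hf, AddSubgroup.coe_add, map_add, sub_self]))⟩
    have hhg : ∀ (g : G) x, h (g • x) = g • h x := fun g x => by
      show ∑ τ : G, τ • h0 (x.val (g⁻¹ * τ)) = g • ∑ τ : G, τ • h0 (x.val τ)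
      rw [Finset.smul_sum]
      exact Fintype.sum_equiv (Equiv.mulLeft g⁻¹) _ _ fun τ => by
        simp [← mul_smul, mul_inv_cancel_left]
    refine ⟨⟨fH, (CHom.fixed_iff fH).2 fun g r => sub_eq_zero.1 (hXt _ ?_)⟩,
      Subtype.ext (CHom.ext' fun n => ?_)⟩
    · show p • (f (g • r) - g • f r) = 0
      rw [nsmul_sub, hf, smul_comm p g, hf]
      exact sub_eq_zero.2 (hhg g r.1)
    · show pRed G p (f (pR (Function.surjInv hπ n))) = ψ.1 n
      conv_rhs => rw [← Function.surjInv_eq hπ n, ← hh]
      refine congrArg _ (sub_eq_zero.1 (hXt _ ?_))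
      rw [nsmul_sub, hf, ← map_nsmul]
      exact sub_self _
  have hker : Θ.ker = (resMap π X).range := by
    ext f
    constructor
    · intro hf
      have hd : ∀ x, ∃ y, p • y = f.1 (pR x) := fun x =>
        mem_pSub.1 ((QuotientAddGroup.eq_zero_iff _).1 (by
          show pRed G p (f.1 (pR x)) = 0
          rw [hlift f.1 x _ (Function.surjInv_eq hπ (π x)).symm]
          exact congrArg (fun u : fixedSub G (CHom M (X ⧸ pSub p X)) =>
            (u.1 : CHom M (X ⧸ pSub p X)) (π x)) hf))
      choose y hy using hd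
      let yH : CHom (Ind G (M →₀ ℤ)) X := ⟨AddMonoidHom.mk' y fun a b => sub_eq_zero.1 (hXt _ (by
        rw [nsmul_sub, nsmul_add, hy, hy, hy, map_add, map_add, sub_self]))⟩
      refine ⟨⟨yH, (CHom.fixed_iff yH).2 fun g x => sub_eq_zero.1 (hXt _ ?_)⟩,
        Subtype.ext (CHom.ext' fun r => sub_eq_zero.1 (hXt _ ?_))⟩
      · show p • (y (g • x) - g • y x) = 0
        rw [nsmul_sub, hy, smul_comm p g, hy, hpg, (CHom.fixed_iff f.1).1 f.2, sub_self]
      · show p • (y r.1 - f.1 r) = 0
        rw [nsmul_sub, hy, hpr, map_nsmul, sub_self]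
    · rintro ⟨a, rfl⟩
      refine Subtype.ext (CHom.ext' fun n => ?_)
      show pRed G p (a.1 (p • Function.surjInv hπ n)) = 0
      rw [map_nsmul]
      exact (QuotientAddGroup.eq_zero_iff _).2 (mem_pSub.2 ⟨_, rfl⟩)
  rw [eul, eulOf, hv, h0, ← hker, AddSubgroup.index_ker, dlog_eq_padicValNat,
    AddMonoidHom.range_eq_top.2 hsurj]
  simp

theorem eulerChar_ind_int : eulerChar G p M (Ind G ℤ) = dlog p M := by
  classical
  letI := Fintype.ofFinite G
  rw [eulerChar_of_torsionFree hM fun x hx => Ind.ext (funext fun τ => by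
    have := congrArg (fun u : Ind G ℤ => u.val τ) hx
    simp only [Ind.nsmul_apply, Ind.zero_apply, nsmul_eq_mul, mul_eq_zero] at this
    exact this.resolve_left (by exact_mod_cast (Fact.out : p.Prime).ne_zero))]
  let Q := Ind G ℤ ⧸ pSub p (Ind G ℤ)
  let red : Q →+ (G → ZMod p) := QuotientAddGroup.lift _
    { toFun := fun u τ => (u.val τ : ZMod p)
      map_zero' := funext fun τ => by simp
      map_add' := fun u u' => funext fun τ => by simp }
    (fun u hu => by
      obtain ⟨w, rfl⟩ := mem_pSub.1 hu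
      exact funext fun τ => by simp [nsmul_eq_mul])
  have hred : Function.Bijective red := by
    constructor
    · rw [injective_iff_map_eq_zero]
      intro c hc
      induction c using QuotientAddGroup.induction_on with
      | H u =>
        have hd : ∀ τ, (p : ℤ) ∣ u.val τ := fun τ =>
          (ZMod.intCast_zmod_eq_zero_iff_dvd _ p).1 (congrFun hc τ)
        choose w hw using hd
        exact (QuotientAddGroup.eq_zero_iff _).2 (mem_pSub.2
          ⟨⟨w⟩, Ind.ext (funext fun τ => by rw [Ind.nsmul_apply, hw τ, nsmul_eq_mul])⟩)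
    · intro v
      exact ⟨QuotientAddGroup.mk ⟨fun τ => ((v τ).val : ℤ)⟩, funext fun τ => by
        show (((v τ).val : ℤ) : ZMod p) = v τ
        simp⟩
  have hsm : ∀ (g : G) (c : Q) τ, red (g • c) τ = red c (g⁻¹ * τ) := fun g c τ => by
    induction c using QuotientAddGroup.induction_on with
    | H u => rfl
  let e : homG G M Q ≃ (M →+ ZMod p) :=
    { toFun := fun ψ => ((Pi.evalAddMonoidHom (fun _ : G => ZMod p) 1).comp red).comp ψ.1.hom
      invFun := fun l => ⟨⟨AddMonoidHom.mk' (fun m => (Equiv.ofBijective red hred).symm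
          fun τ => l (τ⁻¹ • m)) fun a b => hred.1 (funext fun τ => by
        rw [Equiv.ofBijective_apply_symm_apply red hred, map_add,
          Equiv.ofBijective_apply_symm_apply red hred, Equiv.ofBijective_apply_symm_apply red hred]
        simp [smul_add])⟩, by
        refine (CHom.fixed_iff _).2 fun g m => hred.1 (funext fun τ => ?_)
        show red ((Equiv.ofBijective red hred).symm fun τ => l (τ⁻¹ • g • m)) τ = red (g • _) τ
        rw [hsm, Equiv.ofBijective_apply_symm_apply red hred]
        show _ = red ((Equiv.ofBijective red hred).symm fun τ => l (τ⁻¹ • m)) (g⁻¹ * τ)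
        rw [Equiv.ofBijective_apply_symm_apply red hred]
        simp [mul_smul]⟩
      left_inv := fun ψ => Subtype.ext (CHom.ext' fun m => hred.1 (funext fun τ => by
        show red ((Equiv.ofBijective red hred).symm fun τ => red (ψ.1 (τ⁻¹ • m)) 1) τ = _
        rw [Equiv.ofBijective_apply_symm_apply red hred, (CHom.fixed_iff ψ.1).1 ψ.2, hsm]
        simp))
      right_inv := fun l => AddMonoidHom.ext fun m => by
        show red ((Equiv.ofBijective red hred).symm fun τ => l (τ⁻¹ • m)) 1 = l m
        rw [Equiv.ofBijective_apply_symm_apply red hred]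
        simp }
  rw [dlog, dlog, Nat.card_congr e]
  congr 2
  rw [natCard_addHom_zmod hM]

end Fermat.Agent.ClassField.GW

end
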