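import Fermat.Agent.ClassField.S55.TateNakayama

/-!
# Greenberg–Wiles: Euler characteristics of `Ext(M, X)` for a finite group

For a finite group `G`, a finite `G`-module `M` killed by `p`, a lattice presentation
`π : A →+[G] M` with kernel `B` and a `G`-module `X`:
`coh0 = Hom_G(M, X)`, `coh1 = Hom_G(B, X) / res Hom_G(A, X)`, `euler = log_p #coh1 - log_p #coh0`.
For a group of order prime to `p` this is `qHom`, which is additive in short exact sequences.
-/

set_option autoImplicit false

noncomputable section

namespace Fermat.Agent.ClassField.GW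

open S55

/-- The exponent of `p` in the cardinality of a type. -/
def dlog (p : ℕ) (A : Type*) : ℤ := ((Nat.card A).factorization p : ℤ)

section Modules

variable (G : Type*) [Group G]

/-- `Hom_G(A, X)`. -/
abbrev homG (A X : Type*) [AddCommGroup A] [DistribMulAction G A] [AddCommGroup X]
    [DistribMulAction G X] : AddSubgroup (CHom A X) :=
  fixedSub G (CHom A X)

variable {G}

/-- An equivariant map, seen as equivariant for a subgroup. -/
def restrictHom {A B : Type*} [AddCommGroup A] [DistribMulAction G A] [AddCommGroup B]
    [DistribMulAction G B] (D : Subgroup G) (f : A →+[G] B) : A →+[D] B where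
  toFun := f
  map_smul' d a := map_smul f (d : G) a
  map_zero' := map_zero f
  map_add' := map_add f

variable (G) in
/-- Multiplication by `p`. -/
def pMul (p : ℕ) (X : Type*) [AddCommGroup X] [DistribMulAction G X] : X →+[G] X where
  toFun x := p • x
  map_smul' g x := (smul_comm g p x).symm
  map_zero' := nsmul_zero p
  map_add' x y := nsmul_add x y p

variable (G) in
/-- `X[p]`. -/
abbrev pTor (p : ℕ) (X : Type*) [AddCommGroup X] [DistribMulAction G X] : AddSubgroup X :=
  kerOf (pMul G p X)

variable {A M : Type*} [AddCommGroup A] [DistribMulAction G A] [AddCommGroup M]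
  [DistribMulAction G M]

/-- A presentation by a lattice of finite rank. -/
structure IsPresentation (π : A →+[G] M) : Prop where
  surj : Function.Surjective π
  free : Module.Free ℤ A
  finite : Module.Finite ℤ A

/-- The restrictions of equivariant homomorphisms from `A` to the kernel of `π`. -/
def resRange (π : A →+[G] M) (X : Type*) [AddCommGroup X] [DistribMulAction G X] :
    AddSubgroup (homG G (kerOf π) X) :=
  (((CHom.pre (kerIncl π) : CHom A X →+[G] CHom (kerOf π) X) : CHom A X →+ CHom (kerOf π) X).domRestrict
    (homG G A X)).range.addSubgroupOf _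

/-- `Ext¹_G(M, X)`, computed by the presentation. -/
abbrev Coh1 (π : A →+[G] M) (X : Type*) [AddCommGroup X] [DistribMulAction G X] : Type _ :=
  homG G (kerOf π) X ⧸ resRange π X

/-- `log #Ext¹ - log #Hom`. -/
def euler (p : ℕ) (π : A →+[G] M) (X : Type*) [AddCommGroup X] [DistribMulAction G X] : ℤ :=
  dlog p (Coh1 π X) - dlog p (homG G M X)

variable (G) in
/-- `log #Ext¹ - log #Hom`, with the free presentation. -/
def eulerChar (p : ℕ) [Finite G] (M X : Type*) [AddCommGroup M] [DistribMulAction G M]
    [AddCommGroup X] [DistribMulAction G X] : ℤ :=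
  letI := Fintype.ofFinite G
  euler p (freeCover G M) X

variable (G) in
/-- `log #Hom_G(M, X/p) - log #Hom_G(M, X[p])`. -/
def qHom (p : ℕ) (M X : Type*) [AddCommGroup M] [DistribMulAction G M] [AddCommGroup X]
    [DistribMulAction G X] : ℤ :=
  dlog p (homG G M (X ⧸ pSub p X)) - dlog p (homG G M (pTor G p X))

variable (G) in
/-- Acyclicity for all `p`-subgroups. -/
def PAcyclic (p : ℕ) (X : Type*) [AddCommGroup X] [DistribMulAction G X] : Prop :=
  ∀ Q : Subgroup G, IsPGroup p Q → Acyclic Q X

/-- `X/p` and `X[p]` are finite. -/
structure PFinite (p : ℕ) (X : Type*) [AddCommGroup X] : Prop where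
  quot : Finite (X ⧸ pSub p X)
  tors : Finite {x : X // p • x = 0}

end Modules

end Fermat.Agent.ClassField.GW

end
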