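import Fermat.Agent.ClassField.GW.Defs
import Fermat.Agent.ClassField.S55.Bridge.Perm

/-!
# Greenberg–Wiles: the Kummer cocycle of an extension class

`ρ : Γ →* G`, a presentation `R → P → M` of a `G`-module killed by `p`, a `G`-module `E` mapped
equivariantly into a `p`-divisible `Γ`-module `Ω`.  An extension `Φ : P →+ Ω` of an invariant
`y : R →+ E` gives the cocycle `γ ↦ γΦ - Φ` with values in `Hom(M, Ω)`; up to coboundaries it
only depends on `y`, and it is a coboundary only if `y` extends invariantly to `P`, provided `E`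
is saturated in the invariants of `ker ρ`.
-/

set_option autoImplicit false

noncomputable section

namespace Fermat.Agent.ClassField.GW

open S55

variable {Γ G : Type*} [Group Γ] [Group G] (ρ : Γ →* G)
  {R P M E Ω : Type*} [AddCommGroup R] [DistribMulAction G R] [AddCommGroup P]
  [DistribMulAction G P] [AddCommGroup M] [DistribMulAction G M] [AddCommGroup E]
  [DistribMulAction G E] [AddCommGroup Ω] [DistribMulAction Γ Ω]

/-- Conjugation of a homomorphism `M →+ Ω` by an element of `Γ`. -/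
def twist (γ : Γ) : (M →+ Ω) →+ (M →+ Ω) where
  toFun f := (DistribSMul.toAddMonoidHom Ω γ).comp
    (f.comp (DistribSMul.toAddMonoidHom M (ρ γ)⁻¹))
  map_zero' := AddMonoidHom.ext fun _ => smul_zero γ
  map_add' _ _ := AddMonoidHom.ext fun _ => smul_add γ _ _

theorem twist_apply (γ : Γ) (f : M →+ Ω) (m : M) :
    twist ρ γ f m = γ • f ((ρ γ)⁻¹ • m) := rfl

/-- The data of a presentation with a map into the big module. -/
structure KummerData (p : ℕ) where
  /-- the inclusion of the relations -/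
  i : R →+[G] P
  /-- the presentation -/
  π : P →+[G] M
  i_inj : Function.Injective i
  π_surj : Function.Surjective π
  exact : ∀ a, π a = 0 ↔ ∃ r, i r = a
  pM : ∀ m : M, p • m = 0
  free : Module.Free ℤ P
  /-- the map into the big module -/
  j : E →+ Ω
  j_inj : Function.Injective j
  j_smul : ∀ (γ : Γ) (e : E), j (ρ γ • e) = γ • j e
  divisible : ∀ x : Ω, ∃ z, p • z = x

variable {ρ} {p : ℕ} (D : KummerData ρ (R := R) (P := P) (M := M) (E := E) (Ω := Ω) p)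

namespace KummerData

/-- `Φ` extends `y`. -/
def IsLift (y : CHom R E) (Φ : P →+ Ω) : Prop := ∀ r, Φ (D.i r) = D.j (y r)

theorem exists_isLift [Fact p.Prime] (y : CHom R E) : ∃ Φ, D.IsLift y Φ := by
  have := D.free
  let S : AddSubgroup P := (D.i : R →+ P).range
  let e : R ≃+ S := AddMonoidHom.ofInjective D.i_inj
  obtain ⟨F, hF⟩ := exists_extend (X := Ω) p (Module.Free.chooseBasis ℤ P) S
    (fun v => by
      obtain ⟨r, hr⟩ := (D.exact (p • v)).1 (by rw [map_nsmul, D.pM])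
      exact ⟨r, hr⟩)
    D.divisible ((D.j.comp y.hom).comp e.symm.toAddMonoidHom)
  refine ⟨F, fun r => ?_⟩
  have h := hF (e r)
  rw [AddMonoidHom.comp_apply, AddEquiv.coe_toAddMonoidHom, AddEquiv.symm_apply_apply] at h
  exact h

variable {D} {y : CHom R E} {Φ : P →+ Ω}

/-- The defect `γΦ - Φ` on `P`. -/
def defect (ρ : Γ →* G) (Φ : P →+ Ω) (γ : Γ) : P →+ Ω :=
  (DistribSMul.toAddMonoidHom Ω γ).comp (Φ.comp (DistribSMul.toAddMonoidHom P (ρ γ)⁻¹)) - Φ

theorem defect_apply (Φ : P →+ Ω) (γ : Γ) (a : P) :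
    defect ρ Φ γ a = γ • Φ ((ρ γ)⁻¹ • a) - Φ a := rfl

theorem defect_eq_zero_of_mem (hy : ∀ g : G, g • y = y) (h : D.IsLift y Φ) (γ : Γ) (r : R) :
    defect ρ Φ γ (D.i r) = 0 := by
  rw [defect_apply, ← map_smul D.i, h, h, ← D.j_smul, ← (CHom.fixed_iff y).1 hy, smul_inv_smul, sub_self]

variable (D) in
/-- The Kummer cocycle. -/
def coc (Φ : P →+ Ω) (γ : Γ) : M →+ Ω :=
  haveI := Classical.propDecidable (∀ r, defect ρ Φ γ (D.i r) = 0)
  if h : ∀ r, defect ρ Φ γ (D.i r) = 0 then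
    (D.π : P →+ M).liftOfSurjective D.π_surj ⟨defect ρ Φ γ, fun a ha => by
      obtain ⟨r, rfl⟩ := (D.exact a).1 ha
      exact h r⟩
  else 0

theorem coc_π (hy : ∀ g : G, g • y = y) (h : D.IsLift y Φ) (γ : Γ) (a : P) :
    D.coc Φ γ (D.π a) = γ • Φ ((ρ γ)⁻¹ • a) - Φ a := by
  rw [coc, dif_pos (defect_eq_zero_of_mem hy h γ)]
  exact AddMonoidHom.liftOfRightInverse_comp_apply _ _ _ _ a

theorem coc_mul (hy : ∀ g : G, g • y = y) (h : D.IsLift y Φ) (γ δ : Γ) :
    D.coc Φ (γ * δ) = D.coc Φ γ + twist ρ γ (D.coc Φ δ) := by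
  refine AddMonoidHom.ext fun m => ?_
  obtain ⟨a, rfl⟩ := D.π_surj m
  rw [AddMonoidHom.add_apply, twist_apply, ← map_smul D.π, coc_π hy h, coc_π hy h, coc_π hy h,
    map_mul, mul_inv_rev, mul_smul, mul_smul, smul_sub]
  abel

theorem coc_sub {y' : CHom R E} {Φ' : P →+ Ω} (hy : ∀ g : G, g • y = y)
    (hy' : ∀ g : G, g • y' = y') (h : D.IsLift y Φ) (h' : D.IsLift y' Φ') (γ : Γ) :
    D.coc (Φ - Φ') γ = D.coc Φ γ - D.coc Φ' γ ∧ D.IsLift (y - y') (Φ - Φ') := by
  have hl : D.IsLift (y - y') (Φ - Φ') := fun r => by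
    rw [AddMonoidHom.sub_apply, h, h', CHom.sub_apply, map_sub]
  refine ⟨AddMonoidHom.ext fun m => ?_, hl⟩
  obtain ⟨a, rfl⟩ := D.π_surj m
  rw [AddMonoidHom.sub_apply, coc_π (fun g => by rw [smul_sub, hy, hy']) hl, coc_π hy h,
    coc_π hy' h', AddMonoidHom.sub_apply, AddMonoidHom.sub_apply, smul_sub]
  abel

/-- Factor a homomorphism killing the relations through `π`. -/
theorem exists_comp_π {X : Type*} [AddCommGroup X] (F : P →+ X) (hF : ∀ r, F (D.i r) = 0) :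
    ∃ T : M →+ X, ∀ a, T (D.π a) = F a :=
  ⟨(D.π : P →+ M).liftOfSurjective D.π_surj ⟨F, fun a ha => by
      obtain ⟨r, rfl⟩ := (D.exact a).1 ha
      exact hF r⟩,
    fun a => AddMonoidHom.liftOfRightInverse_comp_apply _ _ _ _ a⟩

/-- The class of the cocycle does not depend on the lift. -/
theorem exists_coboundary_of_isLift {Φ' : P →+ Ω} (hy : ∀ g : G, g • y = y) (h : D.IsLift y Φ)
    (h' : D.IsLift y Φ') :
    ∃ T : M →+ Ω, ∀ γ, D.coc Φ γ - D.coc Φ' γ = twist ρ γ T - T := by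
  obtain ⟨T, hT⟩ := exists_comp_π (D := D) (Φ - Φ') fun r => by
    rw [AddMonoidHom.sub_apply, h, h', sub_self]
  refine ⟨T, fun γ => AddMonoidHom.ext fun m => ?_⟩
  obtain ⟨a, rfl⟩ := D.π_surj m
  rw [AddMonoidHom.sub_apply, AddMonoidHom.sub_apply, twist_apply, ← map_smul D.π, hT, hT,
    coc_π hy h, coc_π hy h', AddMonoidHom.sub_apply, AddMonoidHom.sub_apply, smul_sub]
  abel

/-- A class whose cocycle is a coboundary comes from an invariant homomorphism on `P`. -/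
theorem exists_pre_eq_of_coc_eq_coboundary
    (hsat : ∀ x : Ω, (∀ γ ∈ ρ.ker, γ • x = x) → p • x ∈ D.j.range → x ∈ D.j.range)
    (hy : ∀ g : G, g • y = y) (h : D.IsLift y Φ) (hρ : Function.Surjective ρ) (T : M →+ Ω)
    (hT : ∀ γ, D.coc Φ γ = twist ρ γ T - T) :
    ∃ F : CHom P E, (∀ g : G, g • F = F) ∧ CHom.pre D.i F = y := by
  let Φ₀ : P →+ Ω := Φ - T.comp (D.π : P →+ M)
  have hinv : ∀ γ a, γ • Φ₀ a = Φ₀ (ρ γ • a) := by
    intro γ a
    have h1 := coc_π hy h γ (ρ γ • a)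
    rw [hT, AddMonoidHom.sub_apply, twist_apply, inv_smul_smul, map_smul D.π, inv_smul_smul] at h1
    show γ • (Φ a - T (D.π a)) = Φ (ρ γ • a) - T (D.π (ρ γ • a))
    rw [map_smul D.π, smul_sub, sub_eq_sub_iff_sub_eq_sub]
    exact h1.symm
  have hR : ∀ r, Φ₀ (D.i r) = D.j (y r) := fun r => by
    show Φ (D.i r) - T (D.π (D.i r)) = _
    rw [(D.exact _).2 ⟨r, rfl⟩, map_zero, sub_zero, h]
  have hmem : ∀ a, Φ₀ a ∈ D.j.range := fun a => hsat _
    (fun γ hγ => by rw [hinv, MonoidHom.mem_ker.1 hγ, one_smul]) (by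
      obtain ⟨r, hr⟩ := (D.exact (p • a)).1 (by rw [map_nsmul, D.pM])
      exact ⟨y r, by rw [← hR, hr, map_nsmul]⟩)
  let e : E ≃+ D.j.range := AddMonoidHom.ofInjective D.j_inj
  let F : CHom P E := ⟨e.symm.toAddMonoidHom.comp (Φ₀.codRestrict D.j.range hmem)⟩
  have hjF : ∀ a, D.j (F a) = Φ₀ a := fun a =>
    congrArg Subtype.val (e.apply_symm_apply ⟨Φ₀ a, hmem a⟩)
  refine ⟨F, (CHom.fixed_iff F).2 fun g a => D.j_inj ?_, CHom.ext' fun r => D.j_inj ?_⟩
  · obtain ⟨γ, rfl⟩ := hρ g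
    rw [hjF, ← hinv, D.j_smul, hjF]
  · rw [CHom.pre_apply_apply, hjF, hR]

/-- The value of the cocycle at an element acting trivially through `ρ`. -/
theorem coc_π_of_mem_ker (hy : ∀ g : G, g • y = y) (h : D.IsLift y Φ) {τ : Γ} (hτ : ρ τ = 1)
    (a : P) : D.coc Φ τ (D.π a) = τ • Φ a - Φ a := by
  rw [coc_π hy h, hτ, inv_one, one_smul]

/-- Right translation by elements fixing the values of the lift. -/
theorem coc_mul_right (hy : ∀ g : G, g • y = y) (h : D.IsLift y Φ) (γ : Γ) {τ : Γ} (hτ : ρ τ = 1)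
    (hfix : ∀ a, τ • Φ a = Φ a) : D.coc Φ (γ * τ) = D.coc Φ γ := by
  have h0 : D.coc Φ τ = 0 := AddMonoidHom.ext fun m => by
    obtain ⟨a, rfl⟩ := D.π_surj m
    rw [coc_π_of_mem_ker hy h hτ, hfix, sub_self, AddMonoidHom.zero_apply]
  rw [coc_mul hy h, h0, map_zero, add_zero]

/-- Local triviality: if `y` extends invariantly at `H`, the cocycle is a coboundary on `H`. -/
theorem exists_coboundary_on (hy : ∀ g : G, g • y = y) (h : D.IsLift y Φ)
    {Ω' : Type*} [AddCommGroup Ω'] (ι : Ω →+ Ω') (hι : Function.Injective ι)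
    (htor : ∀ x : Ω', p • x = 0 → x ∈ ι.range) (φ : P →+ Ω') (hφ : ∀ r, φ (D.i r) = ι (D.j (y r)))
    (H : Set Γ) (act : Γ → Ω' →+ Ω') (hact : ∀ γ ∈ H, ∀ x, ι (γ • x) = act γ (ι x))
    (hφH : ∀ γ ∈ H, ∀ a, φ (ρ γ • a) = act γ (φ a)) :
    ∃ T : M →+ Ω, ∀ γ ∈ H, D.coc Φ γ = twist ρ γ T - T := by
  obtain ⟨T', hT'⟩ := exists_comp_π (D := D) (ι.comp Φ - φ) fun r => by
    rw [AddMonoidHom.sub_apply, AddMonoidHom.comp_apply, h, hφ, sub_self]
  let e : Ω ≃+ ι.range := AddMonoidHom.ofInjective hι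
  let T : M →+ Ω := e.symm.toAddMonoidHom.comp (T'.codRestrict ι.range fun m =>
    htor _ (by rw [← map_nsmul, D.pM, map_zero]))
  have hιT : ∀ m, ι (T m) = T' m := fun m =>
    congrArg Subtype.val (e.apply_symm_apply ⟨T' m, _⟩)
  refine ⟨T, fun γ hγ => AddMonoidHom.ext fun m => hι ?_⟩
  obtain ⟨a, rfl⟩ := D.π_surj m
  rw [coc_π hy h, AddMonoidHom.sub_apply, twist_apply, map_sub, map_sub, hact γ hγ, hact γ hγ,
    ← map_smul D.π, hιT, hιT, hT', hT', AddMonoidHom.sub_apply, AddMonoidHom.sub_apply,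
    AddMonoidHom.comp_apply, AddMonoidHom.comp_apply, map_sub, ← hφH γ hγ, smul_inv_smul]
  abel

end KummerData

end Fermat.Agent.ClassField.GW
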