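import Fermat.Agent.ClassField.GW.Kummer
import Fermat.Agent.ClassField.S55.Bridge.H90
import Fermat.Agent.ClassField.S55.Bridge.Units
import Fermat.Agent.ClassField.Idele.Unramified
import Fermat.Agent.ClassField.Idele.Descent
import Fermat.Agent.ClassField.Idele.Herbrand.TUnits
import Fermat.Agent.ClassField.UnitsAction

/-!
# Greenberg–Wiles: arithmetic of Kummer cocycles

The Kummer cocycle is unramified where the class is a unit up to `p`-th powers, and there are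
only finitely many Kummer characters of a number field unramified outside a finite set.
-/

set_option autoImplicit false

noncomputable section

open scoped Fermat.Agent.ClassField

namespace Fermat.Agent.ClassField.GW

open S55 Idele IntermediateField

local notation "Qb" => AlgebraicClosure ℚ
local notation "Γ" => (AlgebraicClosure ℚ ≃ₐ[ℚ] AlgebraicClosure ℚ)

theorem norm_natPrime_pos (q : Nat.Primes) : 0 < ‖((q : ℕ) : PadicAlgCl (q : ℕ))‖ := by
  refine norm_pos_iff.mpr ?_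
  exact_mod_cast q.2.ne_zero

theorem norm_natPrime_lt_one (q : Nat.Primes) : ‖((q : ℕ) : PadicAlgCl (q : ℕ))‖ < 1 := by
  rw [← map_natCast (algebraMap ℚ_[(q : ℕ)] (PadicAlgCl (q : ℕ))), norm_algebraMap',
    Padic.norm_p]
  exact inv_lt_one_of_one_lt₀ (Nat.one_lt_cast.2 q.2.one_lt)

theorem norm_natPrime_zpow_injective (q : Nat.Primes) {i j : ℤ}
    (h : ‖((q : ℕ) : PadicAlgCl (q : ℕ))‖ ^ i = ‖((q : ℕ) : PadicAlgCl (q : ℕ))‖ ^ j) : i = j :=
  zpow_right_injective₀ (norm_natPrime_pos q) (norm_natPrime_lt_one q).ne h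

section Inertia

variable {G : Type*} [Group G] {ρ : Γ →* G}
  {R P M E : Type*} [AddCommGroup R] [DistribMulAction G R] [AddCommGroup P]
  [DistribMulAction G P] [AddCommGroup M] [DistribMulAction G M] [AddCommGroup E]
  [DistribMulAction G E] {p : ℕ} [Fact p.Prime]
  {D : KummerData ρ (R := R) (P := P) (M := M) (E := E) (Ω := Additive Qbˣ) p}

/-- Inertia at a prime where the class is a unit up to `p`-th powers kills the cocycle. -/
theorem coc_eq_zero_of_mem_inertia {y : CHom R E} {Φ : P →+ Additive Qbˣ}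
    (hy : ∀ g : G, g • y = y) (h : D.IsLift y Φ) {q : Nat.Primes} (hqp : (q : ℕ) ≠ p)
    {A : ValuationSubring Qb} (hA : A.LiesOverPrime (q : ℕ)) {τ : Γ}
    (hτ : τ ∈ A.inertiaSubgroupIn ℚ) (hρ : ρ τ = 1)
    (hnorm : ∀ r a, D.i r = p • a → ∀ ι : Emb q, ∃ k : ℤ,
      ‖ι (((D.j (y r)).toMul : Qbˣ) : Qb)‖ =
        ‖((q : ℕ) : PadicAlgCl (q : ℕ))‖ ^ ((p : ℤ) * k)) :
    D.coc Φ τ = 0 := by
  have hp : p.Prime := Fact.out
  refine AddMonoidHom.ext fun m => ?_
  obtain ⟨a, rfl⟩ := D.π_surj m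
  rw [KummerData.coc_π_of_mem_ker hy h hρ, AddMonoidHom.zero_apply, sub_eq_zero]
  obtain ⟨r, hr⟩ := (D.exact (p • a)).1 (by rw [map_nsmul, D.pM])
  set b : Qb := (((Φ a).toMul : Qbˣ) : Qb) with hb
  have hb0 : b ≠ 0 := Units.ne_zero _
  have hbp : (((D.j (y r)).toMul : Qbˣ) : Qb) = b ^ p := by
    rw [← h r, hr, map_nsmul, toMul_nsmul, Units.val_pow_eq_pow_val]
  obtain ⟨ι, hι⟩ := exists_emb_of_liesOverPrime q hA
  obtain ⟨k, hk⟩ := hnorm r a hr ι
  set c : Qb := ((q : ℕ) : Qb) ^ k with hc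
  have hc0 : c ≠ 0 := zpow_ne_zero _ (by exact_mod_cast q.2.ne_zero)
  have h1 : ‖ι (b / c)‖ = 1 := by
    refine (pow_left_inj₀ (norm_nonneg _) zero_le_one hp.ne_zero).mp ?_
    rw [one_pow, ← norm_pow, ← map_pow, div_pow, ← hbp, map_div₀, norm_div, hk, hc,
      map_pow, map_zpow₀, map_natCast, norm_pow, norm_zpow, ← zpow_natCast, ← zpow_mul,
      mul_comm k, div_self (zpow_ne_zero _ (norm_natPrime_pos q).ne')]
  have hfixp : τ (b ^ p) = b ^ p := by
    rw [← hbp]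
    have h2 := D.j_smul τ (y r)
    rw [hρ, one_smul] at h2
    have h3 := congrArg (fun x : Additive Qbˣ => ((x.toMul : Qbˣ) : Qb)) h2
    simp only [val_smul_additive] at h3
    exact h3.symm
  have hτc : τ c = c := by rw [hc, map_zpow₀, map_natCast]
  have h4 : τ (b / c) = b / c :=
    apply_eq_of_mem_inertia (n := p)
      (fun hd => hqp ((Nat.prime_dvd_prime_iff_eq q.2 hp).mp hd)) hA hτ
      (hι _ h1.le) (hι _ (by rw [map_inv₀, norm_inv, h1, inv_one]))
      (div_ne_zero hb0 hc0) (by rw [div_pow, map_div₀, hfixp, map_pow, hτc])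
  refine Additive.toMul.injective (Units.ext ?_)
  show τ b = b
  rw [map_div₀, hτc] at h4
  exact (div_left_inj' hc0).mp h4

end Inertia

/-- Roots of unity of order `p` are fixed over a field containing a primitive one. -/
theorem kummer_root_fixed {p : ℕ} [Fact p.Prime] {K₀ : IntermediateField ℚ Qb} {ζ : Qb}
    (hζ : IsPrimitiveRoot ζ p) (hζK : ζ ∈ K₀) {σ : Γ} (hσ : σ ∈ K₀.fixingSubgroup) {μ : Qb}
    (hμ : μ ^ p = 1) : σ μ = μ := by
  obtain ⟨i, -, rfl⟩ := hζ.eq_pow_of_pow_eq_one hμ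
  rw [map_pow, (IntermediateField.mem_fixingSubgroup_iff _ _).mp hσ ζ hζK]

/-- A root of a Kummer character unramified outside `S` has absolute values which are powers of
the primes outside `S`. -/
theorem exists_norm_zpow_of_kummer {S : Finset Nat.Primes} {K₀ : IntermediateField ℚ Qb}
    [FiniteDimensional ℚ K₀] (hK₀ : K₀.IsUnramifiedOutside S) {x : Qb} (hx0 : x ≠ 0)
    {q : Nat.Primes} (hq : q ∉ S)
    (hx : ∀ A : ValuationSubring Qb, A.LiesOverPrime (q : ℕ) → ∀ τ ∈ K₀.fixingSubgroup,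
      τ ∈ A.inertiaSubgroupIn ℚ → τ x = x) (ι : Emb q) :
    ∃ k : ℤ, ‖ι x‖ = ‖((q : ℕ) : PadicAlgCl (q : ℕ))‖ ^ k := by
  set F := K₀ ⊔ IntermediateField.adjoin ℚ ({x} : Set Qb) with hF
  have : FiniteDimensional ℚ (IntermediateField.adjoin ℚ ({x} : Set Qb)) :=
    IntermediateField.adjoin.finiteDimensional (Algebra.IsIntegral.isIntegral x)
  have : FiniteDimensional ℚ F := IntermediateField.finiteDimensional_sup _ _
  have hun : IsUnramifiedAt ⊥ F q := isUnramifiedAt_of_inertia_le ⊥ F fun A hA => by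
    refine inf_le_left.trans fun τ hτ => ?_
    rw [hF, IntermediateField.fixingSubgroup_sup]
    refine ⟨hK₀.2 q hq A hA hτ, (IntermediateField.mem_fixingSubgroup_iff _ _).mpr
      fun z hz => ?_⟩
    have hle : IntermediateField.adjoin ℚ ({x} : Set Qb) ≤
        IntermediateField.fixedField (Subgroup.zpowers τ) := by
      rw [IntermediateField.adjoin_le_iff, Set.singleton_subset_iff]
      rintro ⟨g, hg⟩
      obtain ⟨n, rfl⟩ := Subgroup.mem_zpowers_iff.mp hg
      have hmem : τ ∈ MulAction.stabilizer Γ x := hx A hA τ (hK₀.2 q hq A hA hτ) hτ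
      exact MulAction.mem_stabilizer_iff.mp (Subgroup.zpow_mem _ hmem n)
    exact hle hz ⟨τ, Subgroup.mem_zpowers τ⟩
  exact exists_norm_eq_natCast_zpow hun ι
    (apply_mem_localField ((le_sup_right : _ ≤ F) (IntermediateField.mem_adjoin_simple_self ℚ x)))
    fun h0 => hx0 (ι.toRingHom.injective (h0.trans (map_zero ι.toRingHom).symm))

/-- The finitely many Kummer characters of `K₀` unramified outside `S`. -/
theorem finite_kummerChars {p : ℕ} [hp : Fact p.Prime] (S : Finset Nat.Primes)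
    (K₀ : IntermediateField ℚ Qb) [FiniteDimensional ℚ K₀] (hK₀ : K₀.IsUnramifiedOutside S)
    {ζ : Qb} (hζ : IsPrimitiveRoot ζ p) (hζK : ζ ∈ K₀) :
    Set.Finite {a : K₀.fixingSubgroup → Qb |
      (∀ g h, a (g * h) = a g * a h) ∧ (∀ g, a g ^ p = 1) ∧
      (∃ L : IntermediateField ℚ Qb, FiniteDimensional ℚ L ∧
        ∀ g t : K₀.fixingSubgroup, (t : Γ) ∈ L.fixingSubgroup → a (g * t) = a g) ∧
      ∀ q : Nat.Primes, q ∉ S → ∀ A : ValuationSubring Qb, A.LiesOverPrime (q : ℕ) →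
        ∀ t : K₀.fixingSubgroup, (t : Γ) ∈ A.inertiaSubgroupIn ℚ → a t = 1} := by
  classical
  obtain ⟨T, hTfin, hT⟩ := exists_finite_generating K₀
  choose pr hpr using fun w => Herbrand.exists_prime_mem (K := K₀) w
  set T' : Finset Nat.Primes := S ∪ hTfin.toFinset.image pr with hT'
  have := Herbrand.finite_tUnits (K := K₀) (T := (T' : Set Nat.Primes)) T'.finite_toSet
  set U := Herbrand.tUnits (T' : Set Nat.Primes) K₀ with hU
  have : Group.FG U :=
    GroupFG.iff_add_fg.mpr (Module.Finite.iff_addGroup_fg.mp inferInstance)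
  set Pw : Subgroup U := (powMonoidHom p : U →* U).range with hPw
  have : Finite (U ⧸ Pw) := CommGroup.finite_of_fg_isMulTorsion _ fun z => by
    obtain ⟨u, rfl⟩ := QuotientGroup.mk_surjective z
    refine isOfFinOrder_iff_pow_eq_one.2 ⟨p, hp.out.pos, ?_⟩
    rw [← QuotientGroup.mk_pow]
    exact (QuotientGroup.eq_one_iff _).2 ⟨u, rfl⟩
  choose root hroot using fun z : Qb => IsAlgClosed.exists_pow_nat_eq z hp.out.pos
  let cand : U ⧸ Pw → (K₀.fixingSubgroup → Qb) := fun z g =>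
    (g : Γ) (root ((((z.out : U) : K₀ˣ) : K₀) : Qb)) / root ((((z.out : U) : K₀ˣ) : K₀) : Qb)
  refine (Set.finite_range cand).subset ?_
  rintro a ⟨hmul, hpow, ⟨L, hL, hlev⟩, hur⟩
  have ha0 : ∀ g, a g ≠ 0 := fun g h0 => by
    have := hpow g
    rw [h0, zero_pow hp.out.ne_zero] at this
    exact zero_ne_one this
  have ha1 : a 1 = 1 := (mul_eq_left₀ (ha0 1)).mp (by rw [← hmul, one_mul])
  set N := IntermediateField.normalClosure ℚ L Qb with hN
  have : Normal ℚ N := normalClosure.normal ℚ L Qb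
  have hLN : L ≤ N := IntermediateField.le_normalClosure L
  have hfixg : ∀ (g : K₀.fixingSubgroup) (h : K₀.fixingSubgroup), g • a h = a h := fun g h =>
    kummer_root_fixed hζ hζK g.2 (hpow h)
  obtain ⟨x, hx0, hx⟩ := exists_hilbert90 (K₀.fixingSubgroup.subtype) (RingHom.id Qb)
    (fun h z => rfl) N a ha0
    (fun g h => by rw [hfixg, hmul, mul_comm])
    (fun g s hs => hlev g s (IntermediateField.fixingSubgroup_antitone hLN hs))
  have hxa : ∀ g : K₀.fixingSubgroup, (g : Γ) x = a g * x := fun g => by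
    rw [hx g, div_mul_cancel₀ _ hx0]
    rfl
  have hαK : x ^ p ∈ K₀ := mem_of_forall_fixingSubgroup K₀ fun σ hσ => by
    rw [map_pow, hxa ⟨σ, hσ⟩, mul_pow, hpow, one_mul]
  set α : Qbˣ := Units.mk0 x hx0 ^ p with hα
  have hk : ∀ q : Nat.Primes, ∀ ι : Emb q, ∃ k : ℤ, q ∉ S →
      ‖ι x‖ = ‖((q : ℕ) : PadicAlgCl (q : ℕ))‖ ^ k := by
    intro q ι
    by_cases hq : q ∈ S
    · exact ⟨0, fun h => absurd hq h⟩
    · obtain ⟨k, hk⟩ := exists_norm_zpow_of_kummer hK₀ hx0 hq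
        (fun A hA τ hτ hτI => by
          rw [hxa ⟨τ, hτ⟩, hur q hq A hA ⟨τ, hτ⟩ hτI, one_mul]) ι
      exact ⟨k, fun _ => hk⟩
  choose k hk using hk
  let fr : Raw := fun q ι => if q ∈ S then 1 else
    Units.mk0 ((((q : ℕ) : PadicAlgCl (q : ℕ))) ^ k q ι)
      (zpow_ne_zero _ (by exact_mod_cast q.2.ne_zero))
  have hfr : ∀ q ∉ S, ∀ ι : Emb q, ‖((fr q ι : (PadicAlgCl (q : ℕ))ˣ) : PadicAlgCl (q : ℕ))‖ =
      ‖ι x‖ := fun q hq ι => by
    simp only [fr, if_neg hq, Units.val_mk0, norm_zpow, hk q ι hq]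
  have hsame : ∀ q ∉ S, ∀ ι ι' : Emb q, ‖ι (x ^ p)‖ = ‖ι' (x ^ p)‖ → k q ι = k q ι' := by
    intro q hq ι ι' h
    rw [map_pow, map_pow, norm_pow, norm_pow,
      pow_left_inj₀ (norm_nonneg _) (norm_nonneg _) hp.out.ne_zero, hk q ι hq, hk q ι' hq] at h
    exact norm_natPrime_zpow_injective q h
  have hequiv : IsEquivariant fr := by
    intro q τ ι
    by_cases hq : q ∈ S
    · simp [fr, hq]
    · simp only [fr, if_neg hq, Units.val_mk0, map_zpow₀, map_natCast]
      rw [hsame q hq (localComp τ ι) ι (by rw [localComp_apply]; exact spectralNorm_eq_of_equiv τ _ |>.symm)]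
  have hfix : ∀ σ ∈ K₀.fixingSubgroup, σ • fr = fr := fun σ hσ => Raw.ext fun q ι => by
    show fr q (globalComp ι σ) = fr q ι
    by_cases hq : q ∈ S
    · simp [fr, hq]
    · simp only [fr, if_neg hq]
      refine Units.ext ?_
      simp only [Units.val_mk0]
      rw [hsame q hq (globalComp ι σ) ι (by
        rw [globalComp_apply, (IntermediateField.mem_fixingSubgroup_iff _ _).mp hσ _ hαK])]
  obtain ⟨Tx, hTx⟩ := exists_primes_norm_eq_one (Units.mk0 x hx0)
  have hfmem : fr ∈ ideles := ⟨hequiv, ⟨K₀, inferInstance, hfix⟩, ⟨S ∪ Tx, fun q hq ι => by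
    rw [Finset.notMem_union] at hq
    rw [hfr q hq.1 ι]
    exact hTx q hq.2 ι⟩⟩
  obtain ⟨y, hy0, hy⟩ := exists_principal_norm_eq_one hT
    (f := (⟨fr, hfmem⟩ : IdeleGroup)) (fun σ hσ => Subtype.ext (hfix σ hσ))
  set β : K₀ := ⟨x ^ p, hαK⟩ * y ^ p with hβ
  have hβ0 : β ≠ 0 := mul_ne_zero (fun h => hx0 (by
    exact pow_eq_zero_iff hp.out.ne_zero |>.mp (congrArg Subtype.val h))) (pow_ne_zero _ hy0)
  have hβU : Units.mk0 β hβ0 ∈ U := by
    intro q hq ι
    rw [hT', Finset.coe_union, Set.mem_union, not_or] at hq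
    have hplace : placeAt ι K₀ ∉ T := fun hm => hq.2 (by
      refine Finset.mem_image.mpr ⟨placeAt ι K₀, hTfin.mem_toFinset.mpr hm, ?_⟩
      exact Herbrand.prime_unique (hpr _) (natCast_mem_primeIdeal ι K₀))
    have h1 := hy q ι hplace
    rw [norm_mul, hfr q hq.1 ι, ← norm_mul] at h1
    show ‖ι ((β : K₀) : Qb)‖ = 1
    rw [hβ]
    show ‖ι (x ^ p * (y : Qb) ^ p)‖ = 1
    rw [← mul_pow, map_pow, norm_pow, map_mul, mul_comm, h1, one_pow]
  refine ⟨QuotientGroup.mk ⟨_, hβU⟩, funext fun g => ?_⟩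
  set z := (QuotientGroup.mk (⟨_, hβU⟩ : U) : U ⧸ Pw).out with hz
  obtain ⟨⟨_, v, rfl⟩, hv⟩ := QuotientGroup.mk_out_eq_mul Pw (⟨_, hβU⟩ : U)
  have hzv : ((((z : U) : K₀ˣ) : K₀) : Qb) = (x * (y : Qb) * (((v : K₀ˣ) : K₀) : Qb)) ^ p := by
    rw [hz, hv]
    simp [hβ, mul_pow]
  set r := root ((((z : U) : K₀ˣ) : K₀) : Qb) with hr
  have hrp : r ^ p = (x * (y : Qb) * (((v : K₀ˣ) : K₀) : Qb)) ^ p := (hroot _).trans hzv
  have hw0 : x * (y : Qb) * (((v : K₀ˣ) : K₀) : Qb) ≠ 0 :=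
    mul_ne_zero (mul_ne_zero hx0 (fun h => hy0 (Subtype.ext h)))
      (fun h => (v : K₀ˣ).ne_zero (Subtype.ext h))
  have hr0 : r ≠ 0 := fun h => by
    rw [h, zero_pow hp.out.ne_zero] at hrp
    exact pow_ne_zero _ hw0 hrp.symm
  set μ := r / (x * (y : Qb) * (((v : K₀ˣ) : K₀) : Qb)) with hμ
  have hμp : μ ^ p = 1 := by rw [hμ, div_pow, hrp, div_self (pow_ne_zero _ hw0)]
  have hr' : r = μ * (x * (y : Qb) * (((v : K₀ˣ) : K₀) : Qb)) := (div_mul_cancel₀ _ hw0).symm
  have hg := (IntermediateField.mem_fixingSubgroup_iff _ _).mp g.2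
  show (g : Γ) r / r = a g
  rw [div_eq_iff hr0, hr', map_mul, map_mul, map_mul, kummer_root_fixed hζ hζK g.2 hμp, hxa,
    hg _ y.2, hg _ ((v : K₀ˣ) : K₀).2]
  ring

end Fermat.Agent.ClassField.GW

end
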