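import Fermat.Agent.ClassField.GW.Bound
import Fermat.Agent.ClassField.S55.Final.Level
import Fermat.Agent.ClassField.S55.Bridge.Capitulation
import Fermat.Agent.ClassField.Idele.Herbrand.TUnits
import Fermat.Agent.ClassField.Idele.SecondIneq.IdealIdele

/-!
# Greenberg–Wiles: the exact sequence of a level

For a normal number field `K`, unramified outside a finite set `T` of primes whose places generate
the class group: `0 → T`-units `→ J → classes of K` modulo units away from `T → 0` is exact, and
`J` is the product over `q ∈ T` of the local units coinduced from the decomposition group.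
-/

set_option autoImplicit false

noncomputable section

open scoped NumberField Fermat.Agent.ClassField
open IntermediateField

namespace Fermat.Agent.ClassField.GW

open S55 Idele Idele.Herbrand

local notation "Qb" => AlgebraicClosure ℚ
local notation "Γ" => (AlgebraicClosure ℚ ≃ₐ[ℚ] AlgebraicClosure ℚ)

variable (K : IntermediateField ℚ Qb) [Normal ℚ K] (T : Finset Nat.Primes)

/-! ### `T`-units -/

/-- The units of `K` outside `T`, inside `ℚ̄ˣ`. -/
def levelUnits : AddSubgroup (Additive Qbˣ) where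
  carrier := {x | ((x.toMul : Qbˣ) : Qb) ∈ K ∧ ∀ ℓ ∉ T, ∀ ι : Emb ℓ, ‖ι ((x.toMul : Qbˣ) : Qb)‖ = 1}
  add_mem' {x y} hx hy := ⟨K.mul_mem hx.1 hy.1, fun ℓ hℓ ι => by
    rw [toMul_add, Units.val_mul, map_mul, norm_mul, hx.2 ℓ hℓ ι, hy.2 ℓ hℓ ι, mul_one]⟩
  zero_mem' := ⟨K.one_mem, fun ℓ _ ι => by simp⟩
  neg_mem' {x} hx := ⟨by
      rw [toMul_neg, Units.val_inv_eq_inv_val]
      exact K.inv_mem hx.1, fun ℓ hℓ ι => by
      rw [toMul_neg, Units.val_inv_eq_inv_val, map_inv₀, norm_inv, hx.2 ℓ hℓ ι, inv_one]⟩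

variable {K T}

theorem smul_mem_levelUnits (σ : Γ) {x : Additive Qbˣ} (hx : x ∈ levelUnits K T) :
    σ • x ∈ levelUnits K T :=
  ⟨(IntermediateField.normal_iff_forall_map_le'.mp ‹Normal ℚ K› σ) ⟨_, hx.1, rfl⟩,
    fun ℓ hℓ ι => hx.2 ℓ hℓ (globalComp ι σ)⟩

instance levelUnitsAbsAction : DistribMulAction Γ (levelUnits K T) where
  smul σ x := ⟨σ • (x : Additive Qbˣ), smul_mem_levelUnits σ x.2⟩
  one_smul x := Subtype.ext (one_smul Γ (x : Additive Qbˣ))
  mul_smul σ τ x := Subtype.ext (mul_smul σ τ (x : Additive Qbˣ))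
  smul_zero σ := Subtype.ext (smul_zero σ)
  smul_add σ x y := Subtype.ext (smul_add σ (x : Additive Qbˣ) (y : Additive Qbˣ))

variable (K T)

theorem levelUnits_smul_eq_of_mem {σ : Γ} (hσ : σ ∈ K.fixingSubgroup) (x : levelUnits K T) :
    σ • x = x :=
  Subtype.ext (Additive.toMul.injective (Units.ext
    ((IntermediateField.mem_fixingSubgroup_iff _ _).mp hσ _ x.2.1)))

instance levelUnitsAction : DistribMulAction (LevelGroup K) (levelUnits K T) :=
  descendAction K.fixingSubgroup fun _ hσ x => levelUnits_smul_eq_of_mem K T hσ x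

theorem coe_toLevel_smul_levelUnits (σ : Γ) (x : levelUnits K T) :
    ((toLevel K σ • x : levelUnits K T) : Additive Qbˣ) = σ • (x : Additive Qbˣ) := rfl

/-! ### the product of the coinduced local units -/

/-- Families `LevelGroup K → K_q^×` equivariant for the decomposition groups. -/
def coindFamilies : AddSubgroup (∀ q : T, LevelGroup K → locUnits K (q : Nat.Primes)) where
  carrier := {F | ∀ (q : T) (h : decGroup K (q : Nat.Primes)) (g : LevelGroup K),
    F q ((h : LevelGroup K) * g) = h • F q g}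
  add_mem' {F F'} hF hF' q h g := by simp only [Pi.add_apply, hF q h g, hF' q h g, smul_add]
  zero_mem' q h g := (smul_zero h).symm
  neg_mem' {F} hF q h g := by simp only [Pi.neg_apply, hF q h g, smul_neg]

/-- The ideles of `K` supported on `T`, as a product of coinduced modules. -/
abbrev LevelJ : Type := ↥(coindFamilies K T)

instance levelJAction : DistribMulAction (LevelGroup K) (LevelJ K T) where
  smul g F := ⟨fun q x => F.1 q (x * g), fun q h x => by
    beta_reduce
    rw [mul_assoc]
    exact F.2 q h (x * g)⟩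
  one_smul F := Subtype.ext (funext fun q => funext fun x => by
    show F.1 q (x * 1) = _
    rw [mul_one])
  mul_smul g g' F := Subtype.ext (funext fun q => funext fun x => by
    show F.1 q (x * (g * g')) =
      F.1 q (x * g * g')
    rw [mul_assoc])
  smul_zero g := rfl
  smul_add g F F' := rfl

theorem smul_levelJ_apply (g : LevelGroup K) (F : LevelJ K T) (q : T) (x : LevelGroup K) :
    (g • F : LevelJ K T).1 q x = F.1 q (x * g) := rfl

/-- The projection to the local units at `q`. -/
def prLevel (q : T) : LevelJ K T →+[decGroup K (q : Nat.Primes)] locUnits K (q : Nat.Primes) where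
  toFun F := F.1 q 1
  map_smul' h F := by
    show F.1 q (1 * (h : LevelGroup K)) = h • F.1 q 1
    rw [one_mul, ← mul_one (h : LevelGroup K)]
    exact F.2 q h 1
  map_zero' := rfl
  map_add' _ _ := rfl

theorem prLevel_smul (q : T) (g : LevelGroup K) (F : LevelJ K T) :
    prLevel K T q (g • F) = F.1 q g := by
  show F.1 q (1 * g) = _
  rw [one_mul]

theorem isCoinduced_prLevel : IsCoinduced (prLevel K T) where
  inj F h := Subtype.ext (funext fun q => funext fun g => by
    rw [← prLevel_smul K T q g F]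
    exact h q g)
  surj F hF := ⟨⟨F, hF⟩, fun q g => prLevel_smul K T q g _⟩

variable {K}

omit [Normal ℚ K] in
theorem compFix {f : IdeleGroup} (_hf : f ∈ idelesOf K) (q : Nat.Primes) (τ : LocalGal q) (σ : Γ) :
    Additive.ofMul ((f : Raw) q (globalComp (emb0 q) (S55.locHom q τ * σ))) =
      τ • (Additive.ofMul ((f : Raw) q (globalComp (emb0 q) σ)) : LUnits q) := by
  rw [globalComp_locHom_mul]
  exact Additive.toMul.injective (Units.ext (f.2.1 q τ _))

theorem compFix' {f : IdeleGroup} (hf : f ∈ idelesOf K) (q : Nat.Primes) {σ σ' : Γ}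
    (h : toLevel K σ = toLevel K σ') :
    (f : Raw) q (globalComp (emb0 q) σ) = (f : Raw) q (globalComp (emb0 q) σ') := by
  have hU : σ⁻¹ * σ' ∈ K.fixingSubgroup := QuotientGroup.eq.mp h
  conv_rhs => rw [← mul_inv_cancel_left σ σ', globalComp_mul]
  exact (congrArg (fun g : IdeleGroup => (g : Raw) q (globalComp (emb0 q) σ)) (hf _ hU)).symm

theorem comp_mem_locUnits {f : IdeleGroup} (hf : f ∈ idelesOf K) (q : Nat.Primes) (σ : Γ) :
    (Additive.ofMul ((f : Raw) q (globalComp (emb0 q) σ)) : LUnits q) ∈ locUnits K q := by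
  intro τ hτ
  rw [← compFix hf]
  refine congrArg Additive.ofMul (compFix' hf q ?_)
  rw [map_mul, show toLevel K (S55.locHom q τ) = 1 from (QuotientGroup.eq_one_iff _).mpr hτ, one_mul]

variable {T}

/-- The components at `T` of an idele of `K`. -/
def compLevel (T : Finset Nat.Primes) : idelesOf K →* Multiplicative (LevelJ K T) where
  toFun f := Multiplicative.ofAdd ⟨fun q x =>
    ⟨_, comp_mem_locUnits f.2 (q : Nat.Primes) (Quotient.out x)⟩, fun q h x => by
      refine Subtype.ext ?_
      obtain ⟨τ, hτ⟩ := h.2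
      rw [coe_smul_locUnits (show toLevel K (S55.locHom (q : Nat.Primes) τ) = h from hτ)]
      rw [← compFix f.2]
      refine congrArg Additive.ofMul (compFix' f.2 _ ?_)
      rw [map_mul, show toLevel K (S55.locHom (q : Nat.Primes) τ) = h from hτ]
      rw [show toLevel K (Quotient.out ((h : LevelGroup K) * x)) = (h : LevelGroup K) * x from
        Quotient.out_eq _, show toLevel K (Quotient.out x) = x from Quotient.out_eq _]⟩
  map_one' := rfl
  map_mul' f g := rfl

theorem compLevel_apply (f : idelesOf K) (q : T) (σ : Γ) :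
    (((compLevel T f).toAdd.1 q (toLevel K σ) : locUnits K (q : Nat.Primes)) : LUnits q) =
      Additive.ofMul ((f : IdeleGroup).1 q (globalComp (emb0 (q : Nat.Primes)) σ)) :=
  congrArg Additive.ofMul (compFix' f.2 _ (Quotient.out_eq (toLevel K σ)))

variable (hK : K.IsUnramifiedOutside T)

include hK in
theorem exists_idele_of_levelJ (F : LevelJ K T) :
    ∃ f : IdeleGroup, f ∈ idelesOf K ∧ (∀ ℓ ∉ T, ∀ ι, (f : Raw) ℓ ι = 1) ∧
      ∀ (q : T) (σ : Γ), Additive.ofMul ((f : Raw) q (globalComp (emb0 (q : Nat.Primes)) σ)) =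
        ((F.1 q (toLevel K σ) : locUnits K (q : Nat.Primes)) : LUnits q) := by
  classical
  let φ : ∀ q : Nat.Primes, Γ → LUnits q := fun q σ =>
    if hq : q ∈ T then ((F.1 ⟨q, hq⟩ (toLevel K σ) : locUnits K q) : LUnits q) else 0
  obtain ⟨j, hjfix, hj⟩ := exists_jmod (S := T) φ (fun q hq τ σ => by
    simp only [φ, dif_pos hq]
    rw [map_mul]
    exact (congrArg Subtype.val (F.2 ⟨q, hq⟩ ⟨_, τ, rfl⟩ (toLevel K σ))).trans
      (coe_smul_locUnits rfl _)) K.fixingSubgroup ⟨K, hK, inferInstance, rfl⟩ fun q hq σ u hu => by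
    simp only [φ, dif_pos hq]
    rw [map_mul, show toLevel K u = 1 from (QuotientGroup.eq_one_iff u).mpr hu, mul_one]
  refine ⟨((j.toMul : sIdeles T) : IdeleGroup), fun s hs => ?_, (j.toMul : sIdeles T).2.2,
    fun q σ => ?_⟩
  · exact congrArg (fun z : JMod T => ((z.toMul : sIdeles T) : IdeleGroup)) (hjfix s hs)
  · refine (hj q q.2 σ).trans ?_
    exact dif_pos q.2

theorem idele_ext {f f' : IdeleGroup}
    (hout : ∀ ℓ ∉ T, ∀ ι, (f : Raw) ℓ ι = 1) (hout' : ∀ ℓ ∉ T, ∀ ι, (f' : Raw) ℓ ι = 1)
    (h : ∀ (q : T) (σ : Γ), (f : Raw) q (globalComp (emb0 (q : Nat.Primes)) σ) =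
      (f' : Raw) q (globalComp (emb0 (q : Nat.Primes)) σ)) : f = f' := by
  refine Subtype.ext (Raw.ext fun ℓ ι => ?_)
  by_cases hℓ : ℓ ∈ T
  · obtain ⟨σ, rfl⟩ := globalComp_surjective ℓ ι
    exact h ⟨ℓ, hℓ⟩ σ
  · rw [hout ℓ hℓ ι, hout' ℓ hℓ ι]

/-- The idele of a family. -/
def toIdele (F : LevelJ K T) : IdeleGroup := (exists_idele_of_levelJ hK F).choose

theorem toIdele_mem (F : LevelJ K T) : toIdele hK F ∈ idelesOf K :=
  (exists_idele_of_levelJ hK F).choose_spec.1

theorem toIdele_out (F : LevelJ K T) : ∀ ℓ ∉ T, ∀ ι, (toIdele hK F : Raw) ℓ ι = 1 :=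
  (exists_idele_of_levelJ hK F).choose_spec.2.1

theorem toIdele_apply (F : LevelJ K T) (q : T) (σ : Γ) :
    Additive.ofMul ((toIdele hK F : Raw) q (globalComp (emb0 (q : Nat.Primes)) σ)) =
      ((F.1 q (toLevel K σ) : locUnits K (q : Nat.Primes)) : LUnits q) :=
  (exists_idele_of_levelJ hK F).choose_spec.2.2 q σ

theorem toIdele_add (F F' : LevelJ K T) :
    toIdele hK (F + F') = toIdele hK F * toIdele hK F' :=
  idele_ext (toIdele_out hK _) (fun ℓ hℓ ι => by
      rw [Subgroup.coe_mul, Raw.mul_apply, toIdele_out hK F ℓ hℓ ι, toIdele_out hK F' ℓ hℓ ι,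
        mul_one])
    fun q σ => Additive.ofMul.injective (by
      rw [Subgroup.coe_mul, Raw.mul_apply, ofMul_mul, toIdele_apply, toIdele_apply, toIdele_apply]
      rfl)

theorem toIdele_zero : toIdele hK (0 : LevelJ K T) = 1 :=
  idele_ext (toIdele_out hK _) (fun _ _ _ => rfl) fun q σ =>
    Additive.ofMul.injective ((toIdele_apply hK 0 q σ).trans rfl)

theorem toIdele_smul (g : Γ) (F : LevelJ K T) :
    toIdele hK (toLevel K g • F) = g • toIdele hK F :=
  idele_ext (toIdele_out hK _) (fun ℓ hℓ ι => toIdele_out hK F ℓ hℓ _)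
    fun q σ => Additive.ofMul.injective (by
      refine (toIdele_apply hK _ q σ).trans ?_
      rw [smul_levelJ_apply, ← map_mul, coe_smul, Raw.smul_apply, ← globalComp_mul]
      exact (toIdele_apply hK F q (σ * g)).symm)

theorem toIdele_compLevel (f : idelesOf K) :
    toIdele hK (compLevel T f).toAdd = truncate T (f : IdeleGroup) :=
  idele_ext (toIdele_out hK _) (fun ℓ hℓ ι => by simp [truncate_apply, hℓ])
    fun q σ => Additive.ofMul.injective (by
      rw [toIdele_apply, compLevel_apply, truncate_apply, if_pos q.2])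

variable [FiniteDimensional ℚ K]

variable (T) in
/-- The diagonal map of the `T`-units. -/
def inclLevel : levelUnits K T →+[LevelGroup K] LevelJ K T where
  toFun x := (compLevel T ⟨principal (x : Additive Qbˣ).toMul,
    SecondIneq.principal_mem_idelesOf x.2.1⟩).toAdd
  map_zero' := by
    rw [show (⟨principal ((0 : levelUnits K T) : Additive Qbˣ).toMul,
      SecondIneq.principal_mem_idelesOf (0 : levelUnits K T).2.1⟩ : idelesOf K) = 1 from
      Subtype.ext (map_one principal), map_one]
    rfl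
  map_add' x y := by
    rw [← toAdd_mul, ← map_mul]
    exact congrArg (fun z => (compLevel T z).toAdd) (Subtype.ext (map_mul principal _ _))
  map_smul' g x := by
    obtain ⟨γ, rfl⟩ := QuotientGroup.mk'_surjective K.fixingSubgroup g
    refine Subtype.ext (funext fun q => funext fun y => Subtype.ext ?_)
    obtain ⟨σ, rfl⟩ := QuotientGroup.mk'_surjective K.fixingSubgroup y
    rw [smul_levelJ_apply, MonoidHom.id_apply, ← map_mul, compLevel_apply, compLevel_apply]
    refine Additive.toMul.injective (Units.ext ?_)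
    rfl

omit [FiniteDimensional ℚ K] in
theorem inclLevel_apply (x : levelUnits K T) (q : T) (σ : Γ) :
    ((((inclLevel T x).1 q (toLevel K σ) : locUnits K (q : Nat.Primes)) : LUnits q).toMul :
      PadicAlgCl ((q : Nat.Primes) : ℕ)) = emb0 (q : Nat.Primes) (σ ((x : Additive Qbˣ).toMul : Qb)) := by
  show ((((compLevel T _).toAdd.1 q (toLevel K σ) : locUnits K (q : Nat.Primes)) : LUnits q).toMul :
    PadicAlgCl ((q : Nat.Primes) : ℕ)) = _
  rw [compLevel_apply]
  rfl

omit [FiniteDimensional ℚ K] in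
theorem inclLevel_injective (hT : T.Nonempty) : Function.Injective (inclLevel (K := K) T) := by
  intro x y h
  obtain ⟨q, hq⟩ := hT
  have e := inclLevel_apply x ⟨q, hq⟩ 1
  rw [h, inclLevel_apply y ⟨q, hq⟩ 1] at e
  exact Subtype.ext (Additive.toMul.injective (Units.ext ((emb0 q).toRingHom.injective e.symm)))

/-- The map to the classes. -/
def projLevel : LevelJ K T →+[LevelGroup K] ClassMod K T where
  toFun F := classOf K T (toIdele hK F) (toIdele_mem hK F)
  map_zero' := congrArg Additive.ofMul (Subtype.ext (by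
    show classMap (T : Set Nat.Primes) (toIdele hK 0) = 1
    rw [toIdele_zero, map_one]))
  map_add' F F' := congrArg Additive.ofMul (Subtype.ext (by
    show classMap (T : Set Nat.Primes) (toIdele hK (F + F')) =
      classMap (T : Set Nat.Primes) (toIdele hK F) * classMap (T : Set Nat.Primes) (toIdele hK F')
    rw [toIdele_add, map_mul]))
  map_smul' g F := by
    obtain ⟨γ, rfl⟩ := QuotientGroup.mk'_surjective K.fixingSubgroup g
    rw [MonoidHom.id_apply, toLevel_smul_classMod]
    refine congrArg Additive.ofMul (Subtype.ext ?_)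
    show classMap (T : Set Nat.Primes) (toIdele hK (toLevel K γ • F)) =
      γ • classMap (T : Set Nat.Primes) (toIdele hK F)
    rw [toIdele_smul, smul_classMap]

/-- The places over `T` generate the class group. -/
def ClassGenerated (K : IntermediateField ℚ Qb) [FiniteDimensional ℚ K] (T : Finset Nat.Primes) :
    Prop :=
  Subgroup.closure (placeClass K '' placesOver (T : Set Nat.Primes) K) = ⊤

theorem projLevel_surjective (hgen : ClassGenerated K T) :
    Function.Surjective (projLevel hK) := by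
  intro c
  obtain ⟨f, hf, hfc⟩ := c.toMul.2
  obtain ⟨x, hx0, hx⟩ := exists_principal_norm_eq_one hgen hf
  let x' : Qbˣ := Units.mk0 (x : Qb) fun h => hx0 (Subtype.ext h)
  have hg : principal x' * f ∈ idelesOf K :=
    mul_mem (SecondIneq.principal_mem_idelesOf x.2) hf
  refine ⟨(compLevel T ⟨_, hg⟩).toAdd, congrArg Additive.ofMul (Subtype.ext ?_)⟩
  refine (congrArg (classMap (T : Set Nat.Primes)) (toIdele_compLevel hK ⟨_, hg⟩)).trans ?_
  refine (classMap_truncate (g := principal x' * f) fun ℓ hℓ ι => ?_).trans ?_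
  · have h1 := hx ℓ ι fun h => hℓ ((placeAt_mem_placesOver_iff ι).mp h)
    rw [Subgroup.coe_mul, Raw.mul_apply, Units.val_mul, principal_apply]
    exact h1
  · rw [map_mul, classMap_principal, one_mul, hfc]
    rfl

omit [FiniteDimensional ℚ K] in
theorem projLevel_eq_zero_iff (hT : T.Nonempty) (F : LevelJ K T) :
    projLevel hK F = 0 ↔ ∃ x, inclLevel T x = F := by
  constructor
  · intro h
    have h' : classMap (T : Set Nat.Primes) (toIdele hK F) = 1 :=
      congrArg (fun z : ClassMod K T => (z.toMul : IdeleClass (T : Set Nat.Primes))) h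
    rw [QuotientGroup.mk'_apply, QuotientGroup.eq_one_iff, trivialClasses, Subgroup.mem_sup] at h'
    obtain ⟨_, ⟨x, rfl⟩, u, hu, he⟩ := h'
    have hcomp : ∀ ℓ ∈ T, ∀ ι : Emb ℓ,
        ((toIdele hK F : Raw) ℓ ι : PadicAlgCl (ℓ : ℕ)) = ι (x : Qb) := fun ℓ hℓ ι => by
      rw [← he, Subgroup.coe_mul, Raw.mul_apply, hu.1 ℓ hℓ ι, mul_one]
      rfl
    have hxK : (x : Qb) ∈ K := by
      obtain ⟨q, hq⟩ := hT
      obtain ⟨ι⟩ := nonempty_emb q
      refine mem_of_forall_fixingSubgroup K fun s hs => ι.toRingHom.injective ?_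
      have e := congrArg (fun f : IdeleGroup => ((f : Raw) q ι : PadicAlgCl (q : ℕ)))
        (toIdele_mem hK F s hs)
      rw [coe_smul, Raw.smul_apply, hcomp q hq, hcomp q hq] at e
      exact e
    have hxn : ∀ ℓ ∉ T, ∀ ι : Emb ℓ, ‖ι (x : Qb)‖ = 1 := fun ℓ hℓ ι => by
      have e := congrArg (fun f : IdeleGroup => ‖((f : Raw) ℓ ι : PadicAlgCl (ℓ : ℕ))‖) he
      rw [toIdele_out hK F ℓ hℓ ι, Subgroup.coe_mul, Raw.mul_apply, Units.val_mul, norm_mul,
        hu.2 ℓ hℓ ι, mul_one, principal_apply, Units.val_one, norm_one] at e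
      exact e
    refine ⟨⟨Additive.ofMul x, hxK, hxn⟩, Subtype.ext (funext fun q => funext fun y =>
      Subtype.ext ?_)⟩
    obtain ⟨σ, rfl⟩ := QuotientGroup.mk'_surjective K.fixingSubgroup y
    rw [← toIdele_apply hK F q σ]
    refine Additive.toMul.injective (Units.ext ?_)
    rw [inclLevel_apply]
    exact (hcomp q q.2 (globalComp (emb0 (q : Nat.Primes)) σ)).symm
  · rintro ⟨x, rfl⟩
    refine congrArg Additive.ofMul (Subtype.ext ?_)
    refine (congrArg (classMap (T : Set Nat.Primes)) (toIdele_compLevel hK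
      ⟨principal (x : Additive Qbˣ).toMul, SecondIneq.principal_mem_idelesOf x.2.1⟩)).trans ?_
    refine (classMap_truncate (g := principal (x : Additive Qbˣ).toMul) fun ℓ hℓ ι => ?_).trans
      (classMap_principal _ _)
    rw [principal_apply]
    exact x.2.2 ℓ hℓ ι

omit [Normal ℚ K] in
/-- The primes of finitely many rational primes generate the class group. -/
theorem exists_classGenerated :
    ∃ U : Finset Nat.Primes, ∀ T : Finset Nat.Primes, U ⊆ T → ClassGenerated K T := by
  classical
  obtain ⟨A, hA, hgen⟩ := exists_finite_generating K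
  choose pr hpr using fun w : IsDedekindDomain.HeightOneSpectrum (𝓞 K) => exists_prime_mem w
  refine ⟨hA.toFinset.image pr, fun T hT => eq_top_iff.mpr (hgen.symm.le.trans ?_)⟩
  exact Subgroup.closure_mono (Set.image_mono fun w hw =>
    ⟨pr w, hT (Finset.mem_image.mpr ⟨w, hA.mem_toFinset.mpr hw, rfl⟩), hpr w⟩)

end Fermat.Agent.ClassField.GW
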