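import Fermat.Agent.ClassField.GW.Defs
import Fermat.Agent.ClassField.S55.FiniteDuality

/-!
# Greenberg–Wiles: extending homomorphisms along the extension of a cocycle

For a presentation `0 → R → P → N → 0` and a cocycle `f : G → N` the lattice
`cocExt D f = {(x, n) : π x + Σ n_h f_h = 0, Σ n_h = 0}` contains `R`, with quotient the
augmentation lattice.  For a class module `(C, u)` the element `θ(a)` of `Hom_G(R, C)` extends to
it, up to an integer prime to `p`, iff the mod `p` pairing `Φ(a) f` vanishes.  Hence the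
homomorphisms which extend for all `f` in a space `W` of cocycles have index `#(W / W ∩ B¹)`.
-/

set_option autoImplicit false

noncomputable section

namespace Fermat.Agent.ClassField.GW

open S55

variable {G : Type*} [Group G] [Fintype G] {R P N Y : Type*} [AddCommGroup R] [AddCommGroup P]
  [AddCommGroup N] [DistribMulAction G R] [DistribMulAction G P] [DistribMulAction G N]
  [MulAction G Y] {p : ℕ} [Fact p.Prime] [Module (ZMod p) N] (D : FinPresentation G R P N Y)

/-- The extension of `R` by the augmentation lattice defined by a cochain `f`: the pairs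
`(x, n)` all of whose translates satisfy `π x + Σ n_h f_h = 0` and `Σ n_h = 0`. -/
def cocExt (f : G → N) : AddSubgroup (P × Ind G ℤ) where
  carrier := {e | ∀ g : G,
    D.π (g • e.1) + ∑ h : G, (g • e.2).val h • f h = 0 ∧ ∑ h : G, (g • e.2).val h = 0}
  add_mem' := by
    intro a b ha hb g
    simp only [Prod.fst_add, Prod.snd_add, smul_add, map_add, Ind.add_apply, add_smul,
      Finset.sum_add_distrib]
    refine ⟨?_, by rw [(ha g).2, (hb g).2, add_zero]⟩
    rw [add_add_add_comm, (ha g).1, (hb g).1, add_zero]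
  zero_mem' := by intro g; simp
  neg_mem' := by
    intro a ha g
    simp only [Prod.fst_neg, Prod.snd_neg, smul_neg, map_neg, Ind.neg_apply, neg_smul,
      Finset.sum_neg_distrib]
    exact ⟨by rw [← neg_add, (ha g).1, neg_zero], by rw [(ha g).2, neg_zero]⟩

namespace cocExt

variable {D} {f : G → N}

omit [Fact p.Prime] [Module (ZMod p) N] in
lemma smul_mem (g : G) {e : P × Ind G ℤ} (he : e ∈ cocExt D f) : g • e ∈ cocExt D f := fun g' => by
  simpa [Prod.smul_fst, Prod.smul_snd, ← mul_smul] using he (g' * g)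

instance : DistribMulAction G (cocExt D f) where
  smul g e := ⟨g • (e : P × Ind G ℤ), smul_mem g e.2⟩
  one_smul e := Subtype.ext (one_smul G (e : P × Ind G ℤ))
  mul_smul g h e := Subtype.ext (mul_smul g h (e : P × Ind G ℤ))
  smul_zero g := Subtype.ext (smul_zero g)
  smul_add g a b := Subtype.ext (smul_add g (a : P × Ind G ℤ) b)

omit [Fact p.Prime] [Module (ZMod p) N] in
lemma mem_iff (hf : d1 f = 0) {e : P × Ind G ℤ} :
    e ∈ cocExt D f ↔ D.π e.1 + ∑ h : G, e.2.val h • f h = 0 ∧ ∑ h : G, e.2.val h = 0 := by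
  refine ⟨fun h => by simpa using h 1, fun ⟨h1, h2⟩ g => ?_⟩
  have e2 : ∑ h : G, (g • e.2).val h = 0 := by
    rw [← h2]
    exact Fintype.sum_equiv (Equiv.mulLeft g⁻¹) _ _ fun h => rfl
  refine ⟨?_, e2⟩
  have hco : ∀ h, f (g * h) = g • f h + f g := fun h => by
    have := congr_fun hf (g, h)
    simp only [d1, Pi.zero_apply] at this
    rw [eq_comm, ← sub_eq_zero, ← this]; abel
  have e1 : ∑ h : G, (g • e.2).val h • f h = ∑ h : G, e.2.val h • f (g * h) :=
    Fintype.sum_equiv (Equiv.mulLeft g⁻¹) _ _ fun h => by simp [Ind.smul_apply]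
  rw [e1]
  simp only [hco, smul_add, Finset.sum_add_distrib, ← Finset.sum_smul, h2, zero_smul, add_zero]
  rw [map_smul, show ∑ h : G, e.2.val h • g • f h = g • ∑ h : G, e.2.val h • f h from ?_,
    ← smul_add, h1, smul_zero]
  rw [Finset.smul_sum]
  exact Finset.sum_congr rfl fun h _ => (smul_comm g (e.2.val h) (f h)).symm

variable (D) (f) in
/-- The inclusion of `R`. -/
def incl : R →+[G] cocExt D f where
  toFun r := ⟨(D.i r, 0), fun g => by simp [← map_smul, D.π_i]⟩
  map_smul' g r := Subtype.ext (Prod.ext (map_smul D.i g r) (smul_zero g).symm)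
  map_zero' := Subtype.ext (Prod.ext (map_zero D.i) rfl)
  map_add' r s := Subtype.ext (Prod.ext (map_add D.i r s) (add_zero 0).symm)

variable (D) (f) in
/-- The projection to `P`. -/
def fstHom : cocExt D f →+[G] P where
  toFun e := (e : P × Ind G ℤ).1
  map_smul' _ _ := rfl
  map_zero' := rfl
  map_add' _ _ := rfl

variable (D) (f) in
/-- Lifts of the values of `f`, vanishing at `1`. -/
def lift (h : G) : P :=
  haveI := Classical.decEq G
  if h = 1 then 0 else D.sec (f h)

lemma π_lift (hf : d1 f = 0) (h : G) : D.π (lift D f h) = f h := by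
  unfold lift
  split_ifs with hh
  · subst hh
    have := congr_fun hf (1, 1)
    simp only [d1, one_smul, mul_one, Pi.zero_apply, sub_self, zero_add] at this
    rw [this, map_zero]
  · exact D.π_sec _

lemma lift_one : lift D f 1 = 0 := by simp [lift]

/-- A (non equivariant) retraction onto `R`. -/
def ret (hf : d1 f = 0) : cocExt D f →+ R :=
  have key : ∀ e : cocExt D f, ∃ r, D.i r = (e : P × Ind G ℤ).1 +
      ∑ h : G, (e : P × Ind G ℤ).2.val h • lift D f h := fun e => (D.exact _).1 (by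
    rw [map_add, map_sum]
    simp only [map_zsmul, π_lift hf]
    exact ((mem_iff hf).1 e.2).1)
  AddMonoidHom.mk' (fun e => (key e).choose) fun a b => D.i_inj (by
    rw [map_add, (key _).choose_spec, (key _).choose_spec, (key _).choose_spec]
    simp only [AddSubgroup.coe_add, Prod.fst_add, Prod.snd_add, Ind.add_apply, add_smul,
      Finset.sum_add_distrib]
    abel)

lemma i_ret (hf : d1 f = 0) (e : cocExt D f) :
    D.i (ret hf e) =
      (e : P × Ind G ℤ).1 + ∑ h : G, (e : P × Ind G ℤ).2.val h • lift D f h := by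
  exact ((D.exact _).1 (by
    rw [map_add, map_sum]
    simp only [map_zsmul, π_lift hf]
    exact ((mem_iff hf).1 e.2).1)).choose_spec

lemma ret_incl (hf : d1 f = 0) (r : R) : ret hf (incl D f r) = r :=
  D.i_inj (by
    rw [i_ret]
    show D.i r + ∑ h : G, (0 : Ind G ℤ).val h • lift D f h = D.i r
    simp)

include D in
lemma moduleFree [Finite Y] : Module.Free ℤ (cocExt D f) := by
  have : Module.Finite ℤ P := Module.Finite.of_basis D.b
  have := D.free_P
  let e : Ind G ℤ ≃ₗ[ℤ] (G → ℤ) :=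
    AddEquiv.toIntLinearEquiv
      { toFun := Ind.val, invFun := Ind.mk, left_inv := fun _ => rfl, right_inv := fun _ => rfl,
        map_add' := fun _ _ => rfl }
  have : Module.Free ℤ (Ind G ℤ) := Module.Free.of_equiv e.symm
  have : Module.Finite ℤ (Ind G ℤ) := Module.Finite.equiv e.symm
  exact inferInstanceAs (Module.Free ℤ (cocExt D f).toIntSubmodule)

end cocExt

variable {C : Type*} [AddCommGroup C] [DistribMulAction G C]

variable (p) in
/-- `y` extends equivariantly to `cocExt D f`, up to an integer prime to `p`. -/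
def Extends (f : G → N) (y : CHom R C) : Prop :=
  ∃ (m : ℕ) (y' : CHom (cocExt D f) C),
    ¬ p ∣ m ∧ (∀ g : G, g • y' = y') ∧ CHom.pre (cocExt.incl D f) y' = m • y

omit [Module (ZMod p) N] in
lemma Extends.of_nsmul {f : G → N} {y : CHom R C} {k : ℕ} (hk : ¬ p ∣ k)
    (h : Extends p D f (k • y)) : Extends p D f y := by
  obtain ⟨m, y', hm, hy', he⟩ := h
  exact ⟨m * k, y', fun h => ((Fact.out : p.Prime).dvd_mul.1 h).elim hm hk, hy',
    by rw [he, ← mul_smul]⟩

omit [Module (ZMod p) N] in
lemma Extends.nsmul {f : G → N} {y : CHom R C} (k : ℕ) (h : Extends p D f y) :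
    Extends p D f (k • y) := by
  obtain ⟨m, y', hm, hy', he⟩ := h
  exact ⟨m, k • y', hm, fun g => by rw [smul_comm, hy'],
    by rw [map_nsmul, he, smul_comm]⟩

omit [Module (ZMod p) N] in
lemma Extends.add {f : G → N} {y z : CHom R C} (h : Extends p D f y) (h' : Extends p D f z) :
    Extends p D f (y + z) := by
  obtain ⟨m, y', hm, hy', he⟩ := h
  obtain ⟨k, z', hk, hz', he'⟩ := h'
  refine ⟨m * k, k • y' + m • z', fun h => ((Fact.out : p.Prime).dvd_mul.1 h).elim hm hk,
    fun g => by rw [smul_add, smul_comm, hy', smul_comm, hz'], ?_⟩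
  rw [map_add, map_nsmul, map_nsmul, he, he', smul_add, ← mul_smul, ← mul_smul, mul_comm k m]

omit [Module (ZMod p) N] in
lemma Extends.neg {f : G → N} {y : CHom R C} (h : Extends p D f y) : Extends p D f (-y) := by
  obtain ⟨m, y', hm, hy', he⟩ := h
  exact ⟨m, -y', hm, fun g => by rw [smul_neg, hy'], by rw [map_neg, he, smul_neg]⟩

omit [Module (ZMod p) N] in
/-- Restrictions from `P` extend. -/
lemma extends_pre {f : G → N} {h : CHom P C} (hh : ∀ g : G, g • h = h) :
    Extends p D f (CHom.pre D.i h) :=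
  ⟨1, CHom.pre (cocExt.fstHom D f) h, (Fact.out : p.Prime).not_dvd_one,
    fun g => by rw [← map_smul, hh], by rw [one_smul]; rfl⟩

omit [Module (ZMod p) N] in
/-- Norms extend. -/
lemma extends_normSum {f : G → N} (hf : d1 f = 0) (η : CHom R C) :
    Extends p D f (normSum G η) := by
  refine ⟨1, normSum G ⟨η.hom.comp (cocExt.ret hf)⟩, (Fact.out : p.Prime).not_dvd_one,
    fun g => smul_normSum g _, ?_⟩
  rw [one_smul, map_normSum]
  refine congrArg (normSum G) (CHom.ext' fun r => ?_)
  exact congrArg η.hom (cocExt.ret_incl hf r)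

/-- The pairing vanishes on cycles of the extension. -/
lemma Phi_cocExt_eq_zero {f : G → N} (hf : d1 f = 0) (a : G → (cocExt D f →+ ℤ))
    (ha : bd1 G (cocExt D f) a = 0) :
    Phi p D (fun g => (a g).comp (cocExt.incl D f : R →+ cocExt D f)) f = 0 := by
  classical
  have hp0 : ∀ x : N, (p : ℤ) • x = 0 := fun x => by
    rw [natCast_zsmul]; exact ZModModule.char_nsmul_eq_zero p x
  let δ : G → Ind G ℤ := fun h => Ind.single h (1 : ℤ) - Ind.single 1 (1 : ℤ)
  have hδ : ∀ h τ, (δ h).val τ = (if τ = h then 1 else 0) - (if τ = 1 then 1 else 0) := by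
    intro h τ
    simp [δ, Ind.single]
  have hδsum : ∀ h, ∑ τ : G, (δ h).val τ = 0 := fun h => by simp [hδ]
  have hδf : ∀ h, ∑ τ : G, (δ h).val τ • f τ = f h - f 1 := fun h => by
    simp [hδ, sub_smul, ite_smul]
  have hf1 : f 1 = 0 := by
    rw [← cocExt.π_lift (D := D) hf 1, cocExt.lift_one, map_zero]
  let w : G → cocExt D f := fun h => ⟨(0, (p : ℤ) • δ h), (cocExt.mem_iff hf).2 ⟨by
    have : ∀ τ, ((p : ℤ) • δ h).val τ = (p : ℤ) * (δ h).val τ := fun τ =>
      map_zsmul (Ind.evalHom τ) (p : ℤ) (δ h)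
    simp [mul_smul, hp0], by
    have : ∀ τ, ((p : ℤ) • δ h).val τ = (p : ℤ) * (δ h).val τ := fun τ =>
      map_zsmul (Ind.evalHom τ) (p : ℤ) (δ h)
    simp [← Finset.mul_sum, hδsum]⟩⟩
  let e : G → cocExt D f := fun h => ⟨(-cocExt.lift D f h, δ h), (cocExt.mem_iff hf).2
    ⟨by rw [map_neg, cocExt.π_lift hf, hδf, hf1, sub_zero, neg_add_cancel], hδsum h⟩⟩
  -- translates of `w`
  have hw : ∀ g h, g • w h = w (g * h) - w g := by
    intro g h
    refine Subtype.ext (Prod.ext ?_ (Ind.ext (funext fun τ => ?_)))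
    · show g • (0 : P) = (0 : P) - 0
      simp
    · show ((p : ℤ) • δ h).val (g⁻¹ * τ) = ((p : ℤ) • δ (g * h) - (p : ℤ) • δ g).val τ
      rw [Ind.sub_apply]
      show Ind.evalHom _ _ = Ind.evalHom _ _ - Ind.evalHom _ _
      simp only [map_zsmul]
      show (p : ℤ) • (δ h).val (g⁻¹ * τ) = (p : ℤ) • (δ (g * h)).val τ - (p : ℤ) • (δ g).val τ
      simp only [hδ, inv_mul_eq_iff_eq_mul, mul_one, ← smul_sub]
      congr 1
      ring
  have hcyc : ∀ h, ∑ g : G, (a g (w (g * h)) - a g (w g) - a g (w h)) = 0 := fun h => by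
    have := DFunLike.congr_fun ha (w h)
    simpa [bd1_apply, hw, map_sub] using this
  have hzero : ∑ g : G, a g (w g) = 0 := by
    have h2 : ∑ h : G, ∑ g : G, (a g (w (g * h)) - a g (w g) - a g (w h)) = 0 :=
      Finset.sum_eq_zero fun h _ => hcyc h
    simp only [Finset.sum_sub_distrib] at h2
    have e1 : ∑ h : G, ∑ g : G, a g (w (g * h)) = ∑ h : G, ∑ g : G, a g (w h) := by
      rw [Finset.sum_comm, Finset.sum_comm (f := fun h g => a g (w h))]
      exact Finset.sum_congr rfl fun g _ => Fintype.sum_equiv (Equiv.mulLeft g) _ _ fun h => rfl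
    rw [e1, sub_right_comm, sub_self, zero_sub, neg_eq_zero, Finset.sum_const] at h2
    exact (smul_eq_zero.1 h2).resolve_left (by simp [Fintype.card_ne_zero])
  rw [Phi_apply]
  have hterm : ∀ g, D.dlt p ((a g).comp (cocExt.incl D f : R →+ cocExt D f)) (f g) =
      ((a g (w g) : ℤ) : ZMod p) := by
    intro g
    rw [D.dlt_apply _ (cocExt.π_lift hf g)]
    have : (cocExt.incl D f (D.pR p (cocExt.lift D f g))) = w g - (p : ℤ) • e g := by
      refine Subtype.ext (Prod.ext ?_ ?_)
      · show D.i (D.pR p (cocExt.lift D f g)) = (0 : P) - (p : ℤ) • -cocExt.lift D f g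
        rw [D.i_pR]; simp
      · show (0 : Ind G ℤ) = (p : ℤ) • δ g - (p : ℤ) • δ g
        rw [sub_self]
    show ((a g (cocExt.incl D f (D.pR p (cocExt.lift D f g))) : ℤ) : ZMod p) = _
    rw [this, map_sub, map_zsmul, smul_eq_mul]
    simp
  rw [Finset.sum_congr rfl fun g _ => hterm g, ← Int.cast_sum, hzero, Int.cast_zero]

/-- A cycle killed by `f` extends to a cycle of the extension. -/
lemma exists_cycle_cocExt {f : G → N} (hf : d1 f = 0) (a : G → (R →+ ℤ))
    (ha : bd1 G R a = 0) (h0 : Phi p D a f = 0) :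
    ∃ a' : G → (cocExt D f →+ ℤ), bd1 G (cocExt D f) a' = 0 ∧
      (fun g => (a' g).comp (cocExt.incl D f : R →+ cocExt D f)) = a := by
  classical
  let α : G → (P →+ ℤ) := fun g => (a g).comp (D.pR p)
  have hα : ∀ y, ∑ g : G, (α g (g • y) - α g y) = 0 := fun y => by
    simpa [α, D.pR_smul, bd1_apply] using DFunLike.congr_fun ha (D.pR p y)
  have hαi : ∀ g r, α g (D.i r) = (p : ℤ) * a g r := fun g r => by
    simp [α, D.pR_i]
  let y := cocExt.lift D f
  let β : G → ℤ := fun h => ∑ g : G, (α g (y (g * h)) - α g (y h))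
  have hβp : ∀ h, ((β h : ℤ) : ZMod p) = 0 := by
    intro h
    have e1 : ∀ g z, ((α g z : ℤ) : ZMod p) = D.dlt p (a g) (D.π z) := fun g z =>
      (D.dlt_apply (a g) (rfl : D.π z = D.π z)).symm
    have hco : ∀ g, f (g * h) = g • f h + f g := fun g => by
      have := congr_fun hf (g, h)
      simp only [d1, Pi.zero_apply] at this
      rw [eq_comm, ← sub_eq_zero, ← this]; abel
    simp only [β, Int.cast_sum, Int.cast_sub, e1, y, cocExt.π_lift hf, hco, map_add]
    have hd : ∑ g : G, (D.dlt p (a g) (g • f h) - D.dlt p (a g) (f h)) = 0 := by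
      have := dlt_bd1 (p := p) D a (f h)
      rw [ha, map_zero, Phi_apply] at this
      simpa [d0, map_sub] using this.symm
    rw [Phi_apply] at h0
    have e2 : ∑ g : G, (D.dlt p (a g) (g • f h) + D.dlt p (a g) (f g) - D.dlt p (a g) (f h)) =
        ∑ g : G, (D.dlt p (a g) (g • f h) - D.dlt p (a g) (f h)) + ∑ g : G, D.dlt p (a g) (f g) := by
      rw [← Finset.sum_add_distrib]
      exact Finset.sum_congr rfl fun g _ => by abel
    rw [e2, hd, h0, add_zero]
  have hdvd : ∀ h, (p : ℤ) ∣ β h := fun h => (ZMod.intCast_zmod_eq_zero_iff_dvd _ p).1 (hβp h)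
  have hβsum : ∑ h : G, β h = 0 := by
    simp only [β, Finset.sum_sub_distrib]
    rw [sub_eq_zero, Finset.sum_comm, Finset.sum_comm (f := fun h g => α g (y h))]
    exact Finset.sum_congr rfl fun g _ => Fintype.sum_equiv (Equiv.mulLeft g) _ _ fun h => rfl
  let coord : cocExt D f →+ ℤ :=
    (Ind.evalHom 1).comp ((AddMonoidHom.snd P (Ind G ℤ)).comp (cocExt D f).subtype)
  let a' : G → (cocExt D f →+ ℤ) := fun g =>
    (a g).comp (cocExt.ret hf) - (β g⁻¹ / p) • coord
  refine ⟨a', ?_, funext fun g => AddMonoidHom.ext fun r => ?_⟩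
  swap
  · show a g (cocExt.ret hf (cocExt.incl D f r)) -
      (β g⁻¹ / p) • coord (cocExt.incl D f r) = a g r
    rw [cocExt.ret_incl, show coord (cocExt.incl D f r) = 0 from rfl, smul_zero, sub_zero]
  ext e
  rw [AddMonoidHom.zero_apply, bd1_apply]
  obtain ⟨⟨x, n⟩, he⟩ := e
  have hp0 : (p : ℤ) ≠ 0 := Int.natCast_ne_zero.2 (Fact.out : p.Prime).ne_zero
  refine (mul_eq_zero.1 ?_).resolve_left hp0
  rw [Finset.mul_sum]
  have key : ∀ (g : G) (x' : P) (n' : Ind G ℤ) (he' : (x', n') ∈ cocExt D f),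
      (p : ℤ) * a' g ⟨(x', n'), he'⟩ =
        α g x' + ∑ h : G, n'.val h * α g (y h) - β g⁻¹ * n'.val 1 := by
    intro g x' n' he'
    show (p : ℤ) * (a g (cocExt.ret hf ⟨(x', n'), he'⟩) - (β g⁻¹ / p) * n'.val 1) = _
    rw [mul_sub, ← hαi, cocExt.i_ret, ← mul_assoc, Int.mul_ediv_cancel' (hdvd _), map_add,
      map_sum]
    simp [y]
  have hs : ∀ g : G, g • (⟨(x, n), he⟩ : cocExt D f) =
      ⟨(g • x, g • n), cocExt.smul_mem g he⟩ := fun g => rfl
  simp only [mul_sub, hs, key, Ind.smul_apply, mul_one]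
  have e1 : ∀ g, ∑ h : G, n.val (g⁻¹ * h) * α g (y h) = ∑ h : G, n.val h * α g (y (g * h)) :=
    fun g => Fintype.sum_equiv (Equiv.mulLeft g⁻¹) _ _ fun h => by simp
  have e2 : ∑ g : G, β g⁻¹ * n.val g⁻¹ = ∑ h : G, n.val h * β h :=
    Fintype.sum_equiv (Equiv.inv G) _ _ fun g => by simp [mul_comm]
  have e3 : ∑ g : G, β g⁻¹ * n.val 1 = 0 := by
    rw [← Finset.sum_mul, show ∑ g : G, β g⁻¹ = 0 from
      (Fintype.sum_equiv (Equiv.inv G) _ _ fun g => rfl).trans hβsum, zero_mul]
  have e4 : ∑ h : G, n.val h * β h =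
      ∑ g : G, ∑ h : G, n.val h * α g (y (g * h)) - ∑ g : G, ∑ h : G, n.val h * α g (y h) := by
    simp only [β, Finset.mul_sum, mul_sub, Finset.sum_sub_distrib]
    rw [Finset.sum_comm, Finset.sum_comm (f := fun h g => n.val h * α g (y h))]
  have e5 := hα x
  simp only [Finset.sum_sub_distrib, Finset.sum_add_distrib, e1, e2, e3] at e5 ⊢
  rw [e4]
  linarith

variable [Fintype Y] [Module.Free ℤ R] {u : G × G → C}

/-- **The criterion.** A cycle extends iff its pairing with the cocycle vanishes. -/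
theorem extends_theta_iff (hu : IsPClassModule p G C u) {f : G → N} (hf : d1 f = 0)
    {a : G → (R →+ ℤ)} (ha : bd1 G R a = 0) :
    Extends p D f (theta u a) ↔ Phi p D a f = 0 := by
  have : IsTwoCocycle u := ⟨hu.cocycle⟩
  refine ⟨?_, fun h0 => ?_⟩
  swap
  · obtain ⟨a', ha', he⟩ := exists_cycle_cocExt D hf a ha h0
    exact ⟨1, theta u a', (Fact.out : p.Prime).not_dvd_one, theta_fixed ha',
      by rw [one_smul, ← theta_comp, he]⟩
  rintro ⟨m, y', hm, hy', he⟩
  have := cocExt.moduleFree (D := D) (f := f)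
  obtain ⟨m₁, hm₁, hsurj⟩ := theta_surjective (R := cocExt D f) hu
  obtain ⟨a', η, ha', hay⟩ := hsurj y' hy'
  obtain ⟨m₂, hm₂, hinj⟩ := theta_injective (R := R) hu
  let a'' : G → (R →+ ℤ) := fun g => (a' g).comp (cocExt.incl D f : R →+ cocExt D f)
  have ha'' : bd1 G R a'' = 0 := AddMonoidHom.ext fun r => by rw [bd1_comp, ha']; rfl
  have hth : (m₁ * m) • theta u a = theta u a'' + normSum G (CHom.pre (cocExt.incl D f) η) := by
    rw [mul_smul, ← he, ← map_nsmul, hay, map_add, map_normSum, theta_comp]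
  obtain ⟨b, hb⟩ := hinj ((m₁ * m) • a - a'') (CHom.pre (cocExt.incl D f) η)
    (by rw [map_sub, map_nsmul, ha, ha'', smul_zero, sub_zero])
    (by rw [map_sub, map_nsmul, hth, add_sub_cancel_left])
  have e := congrArg (fun c => Phi p D c f) hb
  simp only [Phi_bd2, hf, Pi.zero_apply, map_zero, Finset.sum_const_zero, map_nsmul, map_sub,
    LinearMap.smul_apply, LinearMap.sub_apply, a'', Phi_cocExt_eq_zero D hf a' ha', sub_zero,
    nsmul_eq_mul] at e
  have hne : ∀ k : ℕ, ¬ p ∣ k → (k : ZMod p) ≠ 0 := fun k hk h =>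
    hk ((ZMod.natCast_eq_zero_iff k p).1 h)
  rw [← mul_assoc] at e
  refine (mul_eq_zero.1 e.symm).resolve_left (mul_ne_zero (hne _ hm₂) (hne _ fun h => ?_))
  exact ((Fact.out : p.Prime).dvd_mul.1 h).elim hm₁ hm

variable (p C) in
/-- The equivariant homomorphisms which extend for every cocycle in `W`. -/
def extAnn (W : Submodule (ZMod p) (G → N)) : AddSubgroup (homG G R C) where
  carrier := {y | ∀ f ∈ W, Extends p D f (y : CHom R C)}
  add_mem' ha hb f hf := (ha f hf).add D (hb f hf)
  zero_mem' f _ := ⟨1, 0, (Fact.out : p.Prime).not_dvd_one, smul_zero, by simp⟩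
  neg_mem' ha f hf := (ha f hf).neg D

omit [Fintype Y] [Module.Free ℤ R] in
lemma mem_extAnn {W : Submodule (ZMod p) (G → N)} {y : homG G R C} :
    y ∈ extAnn p D C W ↔ ∀ f ∈ W, Extends p D f (y : CHom R C) := Iff.rfl

/-- **Counting.** The homomorphisms extending for all `f ∈ W` have index `#(W / W ∩ B¹)`. -/
theorem card_quot_extAnn [Finite N] (hu : IsPClassModule p G C u)
    (W : Submodule (ZMod p) (G → N)) (hW : ∀ f ∈ W, d1 f = 0) :
    Finite (homG G R C ⧸ extAnn p D C W) ∧
    Nat.card (homG G R C ⧸ extAnn p D C W) =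
      p ^ Module.finrank (ZMod p)
        (W ⧸ (LinearMap.range (d0L G N p)).comap W.subtype) := by
  classical
  have : IsTwoCocycle u := ⟨hu.cocycle⟩
  obtain ⟨m, hm, hsurj⟩ := theta_surjective (R := R) hu
  obtain ⟨m', hm', hinj⟩ := theta_injective (R := R) hu
  have hne : ∀ k : ℕ, ¬ p ∣ k → (k : ZMod p) ≠ 0 := fun k hk h =>
    hk ((ZMod.natCast_eq_zero_iff k p).1 h)
  choose a η ha hay using fun y : homG G R C => hsurj (y : CHom R C) y.2
  have huniq : ∀ (c c' : G → (R →+ ℤ)) (z z' : CHom R C), bd1 G R c = 0 → bd1 G R c' = 0 →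
      theta u c + normSum G z = theta u c' + normSum G z' → ∀ f ∈ W,
      Phi p D c f = Phi p D c' f := by
    intro c c' z z' hc hc' h f hf
    obtain ⟨b, hb⟩ := hinj (c - c') (z' - z) (by rw [map_sub, hc, hc', sub_zero])
      (by rw [map_sub, map_sub, sub_eq_sub_iff_add_eq_add, h, add_comm])
    have e := congrArg (fun c => Phi p D c f) hb
    simp only [Phi_bd2, hW f hf, Pi.zero_apply, map_zero, Finset.sum_const_zero, map_nsmul,
      map_sub, LinearMap.smul_apply, LinearMap.sub_apply, nsmul_eq_mul] at e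
    exact sub_eq_zero.1 ((mul_eq_zero.1 e.symm).resolve_left (hne _ hm'))
  let B := (LinearMap.range (d0L G N p)).comap W.subtype
  let Ξ : homG G R C →+ Module.Dual (ZMod p) W :=
    AddMonoidHom.mk' (fun y => (Phi p D (a y)).comp W.subtype) fun y z => LinearMap.ext fun f => by
      show Phi p D (a (y + z)) f = Phi p D (a y) f + Phi p D (a z) f
      rw [huniq (a (y + z)) (a y + a z) (η (y + z)) (η y + η z) (ha _)
        (by rw [map_add, ha, ha, add_zero])
        (by rw [← hay, AddSubgroup.coe_add, smul_add, hay, hay, map_add, map_add]; abel) f f.2,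
        map_add, LinearMap.add_apply]
  have hker : Ξ.ker = extAnn p D C W := by
    ext y
    rw [AddMonoidHom.mem_ker, mem_extAnn]
    have key : ∀ f ∈ W, (Extends p D f (y : CHom R C) ↔ Phi p D (a y) f = 0) := by
      intro f hf
      have hN := extends_normSum (p := p) D (hW f hf) (η y)
      rw [← extends_theta_iff D hu (hW f hf) (ha y)]
      constructor
      · intro h
        have := (h.nsmul D m).add D (hN.neg D)
        rwa [hay, add_neg_cancel_right] at this
      · intro h
        refine Extends.of_nsmul D hm ?_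
        rw [hay]
        exact h.add D hN
    refine ⟨fun h f hf => (key f hf).2 (LinearMap.congr_fun h ⟨f, hf⟩), fun h =>
      LinearMap.ext fun f => (key f f.2).1 (h f f.2)⟩
  have hrange : Ξ.range = B.dualAnnihilator.toAddSubgroup := by
    refine le_antisymm ?_ fun Λ hΛ => ?_
    · rintro _ ⟨y, rfl⟩
      rw [Submodule.mem_toAddSubgroup, Submodule.mem_dualAnnihilator]
      rintro f hf
      obtain ⟨n, hn⟩ := hf
      show Phi p D (a y) f = 0
      rw [show (f : G → N) = d0 n from hn.symm, ← dlt_bd1, ha, map_zero]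
      rfl
    · rw [Submodule.mem_toAddSubgroup, Submodule.mem_dualAnnihilator] at hΛ
      let B1 := LinearMap.range (d0L G N p)
      let q := B1.mkQ
      let qW : (W ⧸ B) →ₗ[ZMod p] (G → N) ⧸ B1 :=
        B.liftQ (q.comp W.subtype) fun f hf => by
          rw [LinearMap.mem_ker, LinearMap.comp_apply, Submodule.mkQ_apply,
            Submodule.Quotient.mk_eq_zero]
          exact hf
      have hqW : Function.Injective qW := by
        rw [← LinearMap.ker_eq_bot, eq_bot_iff]
        intro x hx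
        obtain ⟨f, rfl⟩ := B.mkQ_surjective x
        rw [LinearMap.mem_ker, Submodule.mkQ_apply, Submodule.liftQ_apply, LinearMap.comp_apply,
          Submodule.mkQ_apply, Submodule.Quotient.mk_eq_zero] at hx
        rw [Submodule.mem_bot, Submodule.mkQ_apply, Submodule.Quotient.mk_eq_zero]
        exact hx
      obtain ⟨l, hl⟩ := LinearMap.exists_leftInverse_of_injective qW (LinearMap.ker_eq_bot.2 hqW)
      let Λ₀ : Module.Dual (ZMod p) (W ⧸ B) :=
        B.liftQ Λ fun f hf => LinearMap.mem_ker.2 (hΛ f hf)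
      let L : Module.Dual (ZMod p) (G → N) := (Λ₀.comp l).comp q
      obtain ⟨c, hc, hcL⟩ := exists_cycle_Phi_eq (p := p) D L fun n => by
        show Λ₀ (l (q (d0 n))) = 0
        rw [show q (d0 n) = 0 from (Submodule.Quotient.mk_eq_zero _).2 ⟨n, rfl⟩, map_zero,
          map_zero]
      refine ⟨((m : ZMod p)⁻¹.val) • ⟨theta u c, fun g => theta_fixed hc g⟩,
        LinearMap.ext fun f => ?_⟩
      set k := ((m : ZMod p)⁻¹).val
      show Phi p D (a _) f = Λ f
      rw [huniq _ ((m * k) • c) _ 0 (ha _) (by rw [map_nsmul, hc, smul_zero]) (by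
        rw [← hay, map_zero, add_zero, map_nsmul, mul_smul]; rfl) f f.2, map_nsmul,
        LinearMap.smul_apply, hcL, nsmul_eq_mul, Nat.cast_mul, ZMod.natCast_zmod_val,
        mul_inv_cancel₀ (hne _ hm), one_mul]
      show Λ₀ (l (qW (B.mkQ f))) = Λ f
      rw [← LinearMap.comp_apply l qW, hl]
      rfl
  let e : (homG G R C ⧸ extAnn p D C W) ≃+ B.dualAnnihilator.toAddSubgroup :=
    (QuotientAddGroup.quotientAddEquivOfEq hker.symm).trans
      ((QuotientAddGroup.quotientKerEquivRange Ξ).trans (AddEquiv.addSubgroupCongr hrange))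
  have hfin : Finite (Module.Dual (ZMod p) W) :=
    Finite.of_injective (fun l : Module.Dual (ZMod p) W => (l : W → ZMod p))
      DFunLike.coe_injective
  refine ⟨Finite.of_equiv _ e.symm.toEquiv, ?_⟩
  rw [Nat.card_congr e.toEquiv]
  show Nat.card B.dualAnnihilator = _
  rw [Module.natCard_eq_pow_finrank (K := ZMod p), Nat.card_zmod,
    (Subspace.quotEquivAnnihilator B).finrank_eq.symm]

end Fermat.Agent.ClassField.GW

end
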