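import Fermat.Agent.ClassField.GW.QHom
import Mathlib.NumberTheory.LSeries.PrimesInAP
import Mathlib.LinearAlgebra.Matrix.Charpoly.FiniteField
import Mathlib.LinearAlgebra.PID
import Mathlib.LinearAlgebra.Dimension.Torsion.Finite

/-!
# `qHom` of a cyclic group is determined by the ranks of invariants

For an integer representation of a finite group the trace at `g` equals the trace at `g ^ a` for
`a` prime to the order of `g` (compare modulo primes congruent to `a`), so the ranks of the
invariants of the cyclic subgroups determine all traces.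
-/

set_option autoImplicit false

noncomputable section

namespace Fermat.Agent.ClassField.GW

open S55

section Trace

variable {G : Type*} [Group G] {T : Type*} [AddCommGroup T] [DistribMulAction G T]
  [Module.Free ℤ T] [Module.Finite ℤ T]

theorem trace_pow_eq [Finite G] (g : G) {a : ℕ} (ha : Nat.Coprime a (orderOf g)) :
    LinearMap.trace ℤ T (actLin G T (g ^ a)) = LinearMap.trace ℤ T (actLin G T g) := by
  classical
  have : NeZero (orderOf g) := ⟨(orderOf_pos g).ne'⟩
  have hu : IsUnit (a : ZMod (orderOf g)) := ⟨ZMod.unitOfCoprime a ha, rfl⟩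
  let b := Module.Free.chooseBasis ℤ T
  let A : G → Matrix _ _ ℤ := fun g => LinearMap.toMatrix b b (actLin G T g)
  have hpow : ∀ k : ℕ, A (g ^ k) = A g ^ k := by
    intro k
    induction k with
    | zero =>
      simp only [A, pow_zero, show actLin G T (1 : G) = LinearMap.id from
        LinearMap.ext (one_smul G), LinearMap.toMatrix_id]
    | succ k ih =>
      rw [pow_succ, pow_succ, ← ih]
      simp only [A, ← LinearMap.toMatrix_comp b b b]
      congr 1
      exact LinearMap.ext fun x => mul_smul _ _ x
  rw [← sub_eq_zero]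
  by_contra hne
  refine (Nat.infinite_setOfPred_prime_and_eq_mod hu).not_finite ?_
  refine Set.Finite.subset (Set.finite_le_nat
    (LinearMap.trace ℤ T (actLin G T (g ^ a)) - LinearMap.trace ℤ T (actLin G T g)).natAbs)
    fun ℓ hℓ => ?_
  obtain ⟨hp, heq⟩ := hℓ
  refine Nat.le_of_dvd (Int.natAbs_pos.2 hne) ?_
  have : Fact ℓ.Prime := ⟨hp⟩
  have hga : g ^ ℓ = g ^ a := pow_eq_pow_iff_modEq.2 ((ZMod.natCast_eq_natCast_iff _ _ _).1 heq)
  rw [← Int.natCast_dvd, ← ZMod.intCast_zmod_eq_zero_iff_dvd, Int.cast_sub, sub_eq_zero,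
    LinearMap.trace_eq_matrix_trace ℤ b, LinearMap.trace_eq_matrix_trace ℤ b]
  show (((A (g ^ a)).trace : ℤ) : ZMod ℓ) = (((A g).trace : ℤ) : ZMod ℓ)
  rw [← hga, hpow]
  have e : ∀ M : Matrix (Module.Free.ChooseBasisIndex ℤ T)
      (Module.Free.ChooseBasisIndex ℤ T) ℤ, ((M.trace : ℤ) : ZMod ℓ) =
      (M.map (Int.castRingHom (ZMod ℓ))).trace := fun M => by
    simp [Matrix.trace, Matrix.map_apply]
  rw [e, e, Matrix.map_pow, ZMod.trace_pow_card, ZMod.pow_card]

/-- the trace of the norm -/
theorem sum_trace_eq [Fintype G] :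
    ∑ g : G, LinearMap.trace ℤ T (actLin G T g) =
      (Fintype.card G : ℤ) * Module.finrank ℤ (fixedSub G T) := by
  classical
  let N : T →ₗ[ℤ] T := (normSum G (V := T)).toIntLinearMap
  have hN : N = ∑ g : G, actLin G T g := LinearMap.ext fun x => by
    simp [N, actLin, normSum, LinearMap.sum_apply]
  rw [← map_sum, ← hN]
  let F := (fixedSub G T).toIntSubmodule
  have hmem : ∀ x, N x ∈ F := fun x g => smul_normSum g x
  have key := LinearMap.trace_restrict_eq_of_forall_mem F N hmem
  rw [← key, show (N.restrict fun x _ => hmem x) = (Fintype.card G : ℤ) • LinearMap.id from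
    LinearMap.ext fun x => Subtype.ext (by
      show normSum G x.1 = (Fintype.card G : ℤ) • x.1
      rw [normSum_of_fixed x.2, natCast_zsmul]), map_smul, LinearMap.trace_id, smul_eq_mul]
  rfl

/-- traces are determined by the ranks of invariants -/
theorem trace_eq_of_finrank_fixed [Finite G] {T' : Type*} [AddCommGroup T'] [DistribMulAction G T']
    [Module.Free ℤ T'] [Module.Finite ℤ T']
    (h : ∀ D : Subgroup G, IsCyclic D →
      Module.finrank ℤ (fixedSub D T) = Module.finrank ℤ (fixedSub D T')) (g : G) :
    LinearMap.trace ℤ T (actLin G T g) = LinearMap.trace ℤ T' (actLin G T' g) := by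
  classical
  induction hn : orderOf g using Nat.strong_induction_on generalizing g with
  | _ n ih =>
    let D := Subgroup.zpowers g
    let _ := Fintype.ofFinite D
    have e1 := sum_trace_eq (G := D) (T := T)
    have e2 := sum_trace_eq (G := D) (T := T')
    rw [h D inferInstance] at e1
    have hsum : ∑ d : D, (LinearMap.trace ℤ T (actLin G T (d : G)) -
        LinearMap.trace ℤ T' (actLin G T' (d : G))) = 0 := by
      rw [Finset.sum_sub_distrib, sub_eq_zero]
      exact e1.trans e2.symm
    rw [← sub_eq_zero]
    let δ := LinearMap.trace ℤ T (actLin G T g) - LinearMap.trace ℤ T' (actLin G T' g)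
    have hterm : ∀ d : D, (LinearMap.trace ℤ T (actLin G T (d : G)) -
        LinearMap.trace ℤ T' (actLin G T' (d : G))) = if orderOf (d : G) = n then δ else 0 := by
      intro d
      obtain ⟨a, ha⟩ := (mem_powers_iff_mem_zpowers).2 d.2
      change g ^ a = (d : G) at ha
      split
      next hd =>
        have hco : Nat.Coprime a (orderOf g) := by
          rw [← ha, orderOf_pow, hn] at hd
          rw [hn]
          have hn0 : 0 < n := hn ▸ orderOf_pos g
          have hg : Nat.gcd n a ∣ n := Nat.gcd_dvd_left n a
          have : Nat.gcd n a = 1 := by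
            have := Nat.div_mul_cancel hg
            rw [hd] at this
            exact Nat.eq_of_mul_eq_mul_left hn0 (by rw [this, mul_one])
          rw [Nat.coprime_comm]
          exact this
        rw [← ha, trace_pow_eq g hco, trace_pow_eq g hco]
      next hd =>
        rw [sub_eq_zero]
        refine ih _ ?_ (d : G) rfl
        refine lt_of_le_of_ne ?_ hd
        rw [← hn, ← ha]
        exact orderOf_pow_dvd a |> Nat.le_of_dvd (orderOf_pos g)
    rw [Finset.sum_congr rfl fun d _ => hterm d, Finset.sum_ite, Finset.sum_const_zero, add_zero,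
      Finset.sum_const, nsmul_eq_mul, mul_eq_zero, Nat.cast_eq_zero] at hsum
    refine hsum.resolve_left fun h0 => ?_
    rw [Finset.card_eq_zero, Finset.eq_empty_iff_forall_notMem] at h0
    exact h0 ⟨g, Subgroup.mem_zpowers g⟩ (Finset.mem_filter.2 ⟨Finset.mem_univ _, hn⟩)

end Trace

variable {p : ℕ} [Fact p.Prime] {H : Type} [Group H] [Finite H] (hH : ¬ p ∣ Nat.card H)
variable {M : Type} [AddCommGroup M] [DistribMulAction H M] [Finite M] (hM : ∀ x : M, p • x = 0)
include hH hM

omit hH hM in
theorem pFinite_of_fg {X : Type} [AddCommGroup X] [Module.Finite ℤ X] : PFinite p X := by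
  refine ⟨finite_mod_p X, ?_⟩
  have : Finite (Submodule.torsion ℤ X) := Module.finite_of_fg_torsion _ Submodule.torsion_isTorsion
  refine Finite.of_injective (β := Submodule.torsion ℤ X) (fun x => ⟨x.1, ⟨⟨(p : ℤ),
    mem_nonZeroDivisors_of_ne_zero (by exact_mod_cast (Fact.out : p.Prime).ne_zero)⟩,
      (natCast_zsmul x.1 p).trans x.2⟩⟩) fun a b h => Subtype.ext (congrArg (fun z => z.1) h)

/-- For a cyclic group of order prime to `p`, `qHom` of a finitely generated module only depends
on the ranks of the invariants of the subgroups. -/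
theorem qHom_eq_of_finrank_fixed [IsCyclic H] {X Y : Type} [AddCommGroup X]
    [DistribMulAction H X] [Module.Finite ℤ X] [AddCommGroup Y] [DistribMulAction H Y]
    [Module.Finite ℤ Y]
    (h : ∀ D : Subgroup H, Module.finrank ℤ (fixedSub D X) = Module.finrank ℤ (fixedSub D Y)) :
    qHom H p M X = qHom H p M Y := by
  classical
  let _ := Fintype.ofFinite H
  have key : ∀ (Z : Type) [AddCommGroup Z] [DistribMulAction H Z] [Module.Finite ℤ Z],
      ∃ (T : Type) (_ : AddCommGroup T) (_ : DistribMulAction H T) (_ : Module.Free ℤ T)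
        (_ : Module.Finite ℤ T),
        qHom H p M Z = qHom H p M T ∧
          ∀ D : Subgroup H, Module.finrank ℤ (fixedSub D T) = Module.finrank ℤ (fixedSub D Z) := by
    intro Z _ _ _
    let t := Submodule.torsion ℤ Z
    have hfin : Finite t := Module.finite_of_fg_torsion _ Submodule.torsion_isTorsion
    have hinv : ∀ (g : H), t ≤ t.comap (actLin H Z g) := by
      rintro g x ⟨a, ha⟩
      exact ⟨a, by
        show (a : ℤ) • (g • x) = 0
        rw [smul_comm, show (a : ℤ) • x = 0 from ha, smul_zero]⟩
    let _ : DistribMulAction H (Z ⧸ t) :=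
      { smul := fun g => Submodule.mapQ t t (actLin H Z g) (hinv g)
        one_smul := fun q => by
          induction q using Submodule.Quotient.induction_on with
          | _ y => exact congrArg Submodule.Quotient.mk (one_smul H y)
        mul_smul := fun g h q => by
          induction q using Submodule.Quotient.induction_on with
          | _ y => exact congrArg Submodule.Quotient.mk (mul_smul g h y)
        smul_zero := fun g => map_zero _
        smul_add := fun g q q' => map_add _ q q' }
    let π : Z →+[H] Z ⧸ t :=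
      { toFun := Submodule.Quotient.mk, map_smul' := fun g y => rfl, map_zero' := rfl,
        map_add' := fun a b => rfl }
    have hker : Finite (kerOf π) := Finite.of_injective (β := t)
      (fun x => ⟨x.1, (Submodule.Quotient.mk_eq_zero t).1 x.2⟩) fun a b h =>
        Subtype.ext (congrArg (fun z : t => z.1) h)
    have hcok : Finite ((Z ⧸ t) ⧸ (π : Z →+ Z ⧸ t).range) := by
      have : (π : Z →+ Z ⧸ t).range = ⊤ :=
        AddMonoidHom.range_eq_top.2 (Submodule.mkQ_surjective t)
      rw [this]
      infer_instance
    refine ⟨Z ⧸ t, inferInstance, inferInstance, inferInstance, inferInstance,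
      ((qHom_of_isogeny hH hM pFinite_of_fg π hker hcok).2).symm, fun D => ?_⟩
    let _ := Fintype.ofFinite D
    let φ : fixedSub D Z →ₗ[ℤ] fixedSub D (Z ⧸ t) :=
      (AddMonoidHom.mk' (fun x : fixedSub D Z => (⟨Submodule.Quotient.mk x.1, fun d =>
        congrArg Submodule.Quotient.mk (x.2 d)⟩ : fixedSub D (Z ⧸ t))) fun a b => rfl).toIntLinearMap
    have : Module.Finite ℤ (fixedSub D Z) :=
      Module.Finite.of_injective (fixedSub D Z).subtype.toIntLinearMap Subtype.val_injective
    have : Module.Finite ℤ (fixedSub D (Z ⧸ t)) :=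
      Module.Finite.of_injective (fixedSub D (Z ⧸ t)).subtype.toIntLinearMap Subtype.val_injective
    have e1 := Submodule.finrank_quotient_add_finrank (LinearMap.ker φ)
    rw [φ.quotKerEquivRange.finrank_eq] at e1
    have hk0 : Module.finrank ℤ (LinearMap.ker φ) = 0 := by
      rw [Module.finrank_eq_zero_iff_isTorsion]
      intro x
      obtain ⟨a, ha⟩ := (Submodule.Quotient.mk_eq_zero t).1
        (congrArg (fun u : fixedSub D (Z ⧸ t) => u.1) x.2)
      exact ⟨a, Subtype.ext (Subtype.ext ha)⟩
    have h2 : Module.finrank ℤ (LinearMap.range φ) = Module.finrank ℤ (fixedSub D (Z ⧸ t)) := by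
      refine le_antisymm (Submodule.finrank_le _) ?_
      let ψ : fixedSub D (Z ⧸ t) →ₗ[ℤ] LinearMap.range φ :=
        LinearMap.codRestrict _ ((Fintype.card D : ℤ) • LinearMap.id) fun y => by
          obtain ⟨z, hz⟩ := Submodule.Quotient.mk_surjective t y.1
          refine ⟨⟨normSum D z, fun d => smul_normSum d z⟩, Subtype.ext ?_⟩
          show Submodule.Quotient.mk (normSum D z) = (Fintype.card D : ℤ) • y.1
          rw [natCast_zsmul, ← normSum_of_fixed y.2, ← hz]
          exact map_sum (Submodule.mkQ t) _ _
      refine LinearMap.finrank_le_finrank_of_injective (f := ψ) fun a b e => Subtype.ext ?_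
      have e' : (Fintype.card D : ℤ) • a.1 = (Fintype.card D : ℤ) • b.1 :=
        congrArg (fun u : LinearMap.range φ => (u.1 : fixedSub D (Z ⧸ t)).1) e
      exact smul_right_injective _ (show (Fintype.card D : ℤ) ≠ 0 by
        exact_mod_cast Fintype.card_ne_zero) e'
    omega
  obtain ⟨T, _, _, _, _, hT, hTr⟩ := key X
  obtain ⟨S, _, _, _, _, hS, hSr⟩ := key Y
  obtain ⟨j, hj, hji⟩ := exists_isogeny_of_trace_eq (G := H) (L₁ := T) (L₂ := S)
    (trace_eq_of_finrank_fixed fun D _ => by rw [hTr, hSr, h])
  have hker : Finite (kerOf j) := by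
    have : Subsingleton (kerOf j) := ⟨fun a b => Subtype.ext (hj (a.2.trans b.2.symm))⟩
    infer_instance
  rw [hT, hS, (qHom_of_isogeny hH hM pFinite_of_fg j hker (Nat.finite_of_card_ne_zero hji)).2]

end Fermat.Agent.ClassField.GW

end
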