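import Fermat.Agent.ClassField.GW.Bound

/-!
# Restriction of the free presentation to a subgroup

`Ext` groups computed by the free presentation of a group, restricted to a subgroup, are those of
the free presentation of the subgroup.
-/

set_option autoImplicit false

noncomputable section

namespace Fermat.Agent.ClassField.GW

open S55

section Compare

variable {H : Type} [Group H] {A₁ A₂ M : Type} [AddCommGroup A₁] [DistribMulAction H A₁]
  [AddCommGroup A₂] [DistribMulAction H A₂] [AddCommGroup M] [DistribMulAction H M]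
  {π₁ : A₁ →+[H] M} {π₂ : A₂ →+[H] M} {X : Type} [AddCommGroup X] [DistribMulAction H X]

/-- The map on relations of a map of presentations. -/
def kerMap (a : A₁ →+[H] A₂) (ha : ∀ x, π₂ (a x) = π₁ x) : kerOf π₁ →+[H] kerOf π₂ where
  toFun r := ⟨a r, mem_kerOf.2 (by rw [ha]; exact mem_kerOf.1 r.2)⟩
  map_smul' g r := Subtype.ext (map_smul a g (r : A₁))
  map_zero' := Subtype.ext (map_zero a)
  map_add' r s := Subtype.ext (map_add a (r : A₁) (s : A₁))

/-- A map of presentations induces a map on `Ext`. -/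
def coh1Map (a : A₁ →+[H] A₂) (ha : ∀ x, π₂ (a x) = π₁ x) : Coh1 π₂ X →+ Coh1 π₁ X :=
  QuotientAddGroup.map _ _
    ((((CHom.pre (kerMap a ha) : CHom (kerOf π₂) X →+[H] CHom (kerOf π₁) X) :
      CHom (kerOf π₂) X →+ CHom (kerOf π₁) X).comp (homG H (kerOf π₂) X).subtype).codRestrict _
      fun y g => by
        show g • CHom.pre (kerMap a ha) (y : CHom (kerOf π₂) X) =
          CHom.pre (kerMap a ha) (y : CHom (kerOf π₂) X)
        rw [← map_smul, y.2 g])
    fun y hy => by
      obtain ⟨L, hL⟩ := mem_resRange.1 hy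
      refine mem_resRange.2 ⟨⟨CHom.pre a (L : CHom A₂ X), fun g => by rw [← map_smul, L.2]⟩,
        CHom.ext' fun r => ?_⟩
      exact congrArg (fun z : CHom (kerOf π₂) X => z (kerMap a ha r)) hL

/-- Two maps of presentations compose to the identity on `Ext`. -/
theorem coh1Map_comp_eq (a : A₁ →+[H] A₂) (ha : ∀ x, π₂ (a x) = π₁ x) (b : A₂ →+[H] A₁)
    (hb : ∀ x, π₁ (b x) = π₂ x) (z : Coh1 π₁ X) :
    coh1Map a ha (coh1Map b hb z) = z := by
  obtain ⟨y, rfl⟩ := QuotientAddGroup.mk_surjective z
  refine QuotientAddGroup.eq.2 ?_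
  have hd : ∀ x : A₁, x - b (a x) ∈ kerOf π₁ := fun x => mem_kerOf.2 (by
    rw [map_sub, hb, ha, sub_self])
  refine mem_resRange.2 ⟨⟨⟨AddMonoidHom.mk' (fun x => (y : CHom (kerOf π₁) X) ⟨x - b (a x), hd x⟩)
    fun u v => ?_⟩, (CHom.fixed_iff _).2 fun g u => ?_⟩, CHom.ext' fun r => ?_⟩
  · rw [← map_add]
    exact congrArg _ (Subtype.ext (by
      show u + v - b (a (u + v)) = u - b (a u) + (v - b (a v))
      rw [map_add, map_add]; abel))
  · show (y : CHom (kerOf π₁) X) ⟨_, _⟩ = g • (y : CHom (kerOf π₁) X) ⟨_, _⟩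
    rw [← (CHom.fixed_iff (y : CHom (kerOf π₁) X)).1 y.2]
    exact congrArg _ (Subtype.ext (by
      show g • u - b (a (g • u)) = g • (u - b (a u))
      rw [map_smul, map_smul, smul_sub]))
  · show (y : CHom (kerOf π₁) X) ⟨(r : A₁) - b (a r), _⟩ =
      -(y : CHom (kerOf π₁) X) (kerMap b hb (kerMap a ha r)) + (y : CHom (kerOf π₁) X) r
    rw [← map_neg, ← map_add]
    refine congrArg _ (Subtype.ext ?_)
    show (r : A₁) - b (a r) = -(b (a r)) + r
    abel

/-- Presentations mapping into each other give the same `Ext`. -/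
def coh1Equiv (a : A₁ →+[H] A₂) (ha : ∀ x, π₂ (a x) = π₁ x) (b : A₂ →+[H] A₁)
    (hb : ∀ x, π₁ (b x) = π₂ x) : Coh1 π₂ X ≃ Coh1 π₁ X where
  toFun := coh1Map a ha
  invFun := coh1Map b hb
  left_inv := coh1Map_comp_eq b hb a ha
  right_inv := coh1Map_comp_eq a ha b hb

end Compare

variable {G : Type} [Group G] [Fintype G] {M : Type} [AddCommGroup M] [DistribMulAction G M]
  [Finite M] (H : Subgroup G) [Fintype H] {p : ℕ} {X : Type} [AddCommGroup X]
  [DistribMulAction H X]

/-- From the free presentation of the group to that of the subgroup. -/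
theorem exists_restrict_to_free :
    ∃ a : Ind G (M →₀ ℤ) →+[H] Ind H (M →₀ ℤ),
      ∀ x, freeCover H M (a x) = restrictHom H (freeCover G M) x := by
  classical
  choose sec hsec using (freeCover_surjective (P := H) (X := M))
  let D := freePres G M
  let t : G → G := fun g => (Quotient.mk (QuotientGroup.rightRel H) g).out
  have ht : ∀ g, g * (t g)⁻¹ ∈ H := fun g =>
    QuotientGroup.rightRel_apply.1 (Quotient.mk_out (s := QuotientGroup.rightRel H) g)
  let κ : G → H := fun g => ⟨g * (t g)⁻¹, ht g⟩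
  have htm : ∀ (h : H) (g : G), t ((h : G) * g) = t g := fun h g =>
    congrArg Quotient.out (Quotient.sound (QuotientGroup.rightRel_apply.2 (by simp)))
  have hκ : ∀ (h : H) (g : G), κ ((h : G) * g) = h * κ g := fun h g => Subtype.ext (by
    show (h : G) * g * (t ((h : G) * g))⁻¹ = h * (g * (t g)⁻¹)
    rw [htm, mul_assoc])
  let a₀ : FreeIdx G M → Ind H (M →₀ ℤ) := fun x =>
    κ x.elt • sec (D.π (D.b ⟨t x.elt, x.val⟩))
  let a : Ind G (M →₀ ℤ) →+ Ind H (M →₀ ℤ) := (D.b.constr ℤ a₀).toAddMonoidHom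
  have hab : ∀ x, a (D.b x) = a₀ x := fun x => D.b.constr_basis ℤ a₀ x
  have hsm : ∀ (h : H) (v : Ind G (M →₀ ℤ)), a ((h : G) • v) = h • a v := by
    intro h v
    have : a.comp (DistribSMul.toAddMonoidHom _ (h : G)) =
        (DistribSMul.toAddMonoidHom _ h).comp a :=
      AddMonoidHom.toIntLinearMap_injective (D.b.ext fun x => by
        show a ((h : G) • D.b x) = h • a (D.b x)
        rw [D.smul_b, hab, hab]
        show κ ((h : G) * x.elt) • sec (D.π (D.b ⟨t ((h : G) * x.elt), x.val⟩)) = _
        rw [hκ, htm, mul_smul])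
    exact DFunLike.congr_fun this v
  refine ⟨{ a with map_smul' := hsm }, fun v => ?_⟩
  have : ((freeCover H M : Ind H (M →₀ ℤ) →+ M)).comp a = (D.π : Ind G (M →₀ ℤ) →+ M) :=
    AddMonoidHom.toIntLinearMap_injective (D.b.ext fun x => by
      show freeCover H M (a (D.b x)) = D.π (D.b x)
      rw [hab]
      show freeCover H M (κ x.elt • sec _) = _
      rw [map_smul, hsec]
      show ((κ x.elt : H) : G) • D.π (D.b ⟨t x.elt, x.val⟩) = _
      rw [← map_smul, D.smul_b]
      refine congrArg _ (congrArg _ (FreeIdx.ext ?_ rfl))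
      show x.elt * (t x.elt)⁻¹ * t x.elt = x.elt
      rw [inv_mul_cancel_right])
  exact DFunLike.congr_fun this v

/-- From the free presentation of the subgroup to that of the group. -/
theorem exists_free_to_restrict :
    ∃ b : Ind H (M →₀ ℤ) →+[H] Ind G (M →₀ ℤ),
      ∀ x, restrictHom H (freeCover G M) (b x) = freeCover H M x := by
  have hs : Function.Surjective (restrictHom H (freeCover G M)) :=
    freeCover_surjective (P := G) (X := M)
  obtain ⟨L, hL⟩ := exists_lift_freeCover (restrictHom H (freeCover G M)) hs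
    ⟨⟨(freeCover H M : Ind H (M →₀ ℤ) →+ M)⟩,
      (CHom.fixed_iff _).2 fun h x => map_smul (freeCover H M) h x⟩
  refine ⟨{ (L : CHom (Ind H (M →₀ ℤ)) (Ind G (M →₀ ℤ))).hom with
    map_smul' := fun h x => (CHom.fixed_iff (L : CHom (Ind H (M →₀ ℤ)) (Ind G (M →₀ ℤ)))).1 L.2 h x },
    fun x => congrArg (fun z : CHom (Ind H (M →₀ ℤ)) M => z x) hL⟩

/-- `Ext` through the restricted free presentation. -/
theorem dlog_coh1_restrict :
    dlog p (Coh1 (restrictHom H (freeCover G M)) X) = dlog p (Coh1 (freeCover H M) X) := by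
  obtain ⟨a, ha⟩ := exists_restrict_to_free (M := M) H
  obtain ⟨b, hb⟩ := exists_free_to_restrict (M := M) H
  exact dlog_congr p (coh1Equiv b hb a ha)

/-- The Euler characteristic through the restricted free presentation. -/
theorem euler_restrict :
    euler p (restrictHom H (freeCover G M)) X = euler p (freeCover H M) X := by
  rw [euler, euler, dlog_coh1_restrict]

theorem finite_coh1_restrict [Finite (Coh1 (freeCover H M) X)] :
    Finite (Coh1 (restrictHom H (freeCover G M)) X) := by
  obtain ⟨a, ha⟩ := exists_restrict_to_free (M := M) H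
  obtain ⟨b, hb⟩ := exists_free_to_restrict (M := M) H
  exact Finite.of_equiv _ (coh1Equiv b hb a ha).symm

end Fermat.Agent.ClassField.GW

end
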