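import Fermat.Agent.ClassField.GW.Bound

/-!
# Greenberg–Wiles: from the splitting module to the class module

`0 → C → SplitMod u → I_G → 0`.  The map `Ext(M, SplitMod u) → M^∧`, `η ↦ δ((η ·).f 1)`, kills
`Ext(M, C)` and its image contains the annihilator of `M^G`, so

`χ(C) ≤ χ(SplitMod u) - (log #M - log #M^G)`.
-/

set_option autoImplicit false

noncomputable section

namespace Fermat.Agent.ClassField.GW

open S55

variable {p : ℕ} [Fact p.Prime] {G : Type} [Group G] [Fintype G] {M : Type} [AddCommGroup M]
  [DistribMulAction G M] [Finite M] [Module (ZMod p) M]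
  {C : Type} [AddCommGroup C] [DistribMulAction G C] {u : G × G → C} [IsTwoCocycle u]

/-- The inclusion of `C`, as an equivariant map. -/
def splitIncl (u : G × G → C) [IsTwoCocycle u] : C →+[G] SplitMod u where
  toFun := SplitMod.incl
  map_smul' g c := (SplitMod.smul_incl g c).symm
  map_zero' := map_zero SplitMod.incl
  map_add' := map_add SplitMod.incl

lemma splitIncl_injective : Function.Injective (splitIncl u) := fun a b h =>
  congrArg SplitMod.c h

variable (p M u) in
/-- The connecting value of the component in the augmentation ideal. -/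
def augVal : homG G (kerOf (freeCover G M)) (SplitMod u) →+ (M →+ ZMod p) :=
  haveI := Fintype.ofFinite M
  AddMonoidHom.mk' (fun η => (freePres G M).dlt p
      ((SplitMod.fHom 1).comp (η : CHom (kerOf (freeCover G M)) (SplitMod u)).hom))
    fun η η' => by
      rw [← map_add]
      rfl

variable (p) in
lemma augVal_eq_zero_of_res {η : homG G (kerOf (freeCover G M)) (SplitMod u)}
    (h : η ∈ resRange (freeCover G M) (SplitMod u)) : augVal p M u η = 0 := by
  have := Fintype.ofFinite M
  obtain ⟨L, hL⟩ := mem_resRange.1 h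
  show (freePres G M).dlt p _ = 0
  rw [show (SplitMod.fHom 1).comp (η : CHom (kerOf (freeCover G M)) (SplitMod u)).hom =
      ((SplitMod.fHom 1).comp (L : CHom _ (SplitMod u)).hom).comp
        ((freePres G M).i : kerOf (freeCover G M) →+ Ind G (M →₀ ℤ)) from
    AddMonoidHom.ext fun r => congrArg
      (fun z : CHom (kerOf (freeCover G M)) (SplitMod u) => (z r).f 1) hL.symm]
  exact (freePres G M).dlt_comp_i _

/-- The image contains `χ ∘ g - χ`. -/
lemma exists_augVal_eq (χ : M →+ ZMod p) (g : G) :
    ∃ η, augVal p M u η = χ.comp (DistribSMul.toAddMonoidHom M g) - χ := by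
  classical
  have := Fintype.ofFinite M
  obtain ⟨φ, hφ⟩ := (freePres G M).dlt_surjective (p := p) χ
  let e : CHom (kerOf (freeCover G M)) (SplitMod u) :=
    ⟨((zmultiplesHom (SplitMod u)) (SplitMod.aug1 g)).comp φ⟩
  refine ⟨⟨normSum G e, fun h => smul_normSum h e⟩, ?_⟩
  show (freePres G M).dlt p _ = _
  rw [show (SplitMod.fHom 1).comp (normSum G e).hom =
      φ.comp (DistribSMul.toAddMonoidHom _ g) - φ from AddMonoidHom.ext fun r => ?_, map_sub, hφ]
  · congr 1
    ext m
    rw [(freePres G M).dlt_comp_smul, hφ]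
    rfl
  · show ((∑ τ : G, τ • e : CHom _ _) r).f 1 = φ (g • r) - φ r
    rw [CHom.sum_apply, SplitMod.sum_f]
    have hterm : ∀ τ : G, ((τ • e : CHom _ _) r).f 1 =
        φ (τ⁻¹ • r) * ((zdelta g τ⁻¹) - (zdelta 1 τ⁻¹)) := fun τ => by
      rw [CHom.smul_apply, SplitMod.smul_f, mul_one]
      show (φ (τ⁻¹ • r) • SplitMod.aug1 g : SplitMod u).f τ⁻¹ = _
      rw [SplitMod.zsmul_f]
      rfl
    rw [Finset.sum_congr rfl fun τ _ => hterm τ]
    simp only [mul_sub, Finset.sum_sub_distrib]
    congr 1
    · rw [Fintype.sum_eq_single g⁻¹ (fun τ hτ => by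
        simp [zdelta, inv_eq_iff_eq_inv, hτ])]
      simp [zdelta]
    · rw [Fintype.sum_eq_single (1 : G) (fun τ hτ => by simp [zdelta, hτ])]
      simp [zdelta]

/-- **The splitting step.** -/
theorem euler_le_splitMod [Finite (Coh1 (freeCover G M) (SplitMod u))]
    [Finite (homG G M (SplitMod u))] :
    Finite (Coh1 (freeCover G M) C) ∧ Finite (homG G M C) ∧
      euler p (freeCover G M) C ≤
        euler p (freeCover G M) (SplitMod u) - (dlog p M - dlog p (fixedSub G M)) := by
  classical
  have := Fintype.ofFinite M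
  let D := freePres G M
  let φ := postCoh (M := M) (splitIncl u)
  -- vectors of `SplitMod` killed by `p`, or multiples of which lie in `C`
  have hzero : ∀ x : SplitMod u, (p • x).f = 0 → x.f = 0 := fun x hx => funext fun g => by
    have := congr_fun hx g
    rw [SplitMod.nsmul_f, Pi.zero_apply, mul_eq_zero] at this
    exact this.resolve_left (Int.natCast_ne_zero.2 (Fact.out : p.Prime).ne_zero)
  have hφ : Function.Injective φ := (injective_iff_map_eq_zero φ).2 fun x hx => by
    induction x using QuotientAddGroup.induction_on with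
    | H y =>
      obtain ⟨L, hL⟩ := mem_resRange.1 ((QuotientAddGroup.eq_zero_iff _).1 hx)
      have hLf : ∀ z, ((L : CHom (Ind G (M →₀ ℤ)) (SplitMod u)) z).f = 0 := fun z =>
        hzero _ (by
          rw [← map_nsmul, ← D.i_pR z]
          exact congrArg (fun w : CHom (kerOf (freeCover G M)) (SplitMod u) => (w (D.pR p z)).f) hL)
      refine (QuotientAddGroup.eq_zero_iff _).2 (mem_resRange.2
        ⟨⟨⟨(SplitMod.cHom : SplitMod u →+ C).comp (L : CHom _ (SplitMod u)).hom⟩,
          (CHom.fixed_iff _).2 fun g z => ?_⟩, CHom.ext' fun r => ?_⟩)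
      · show ((L : CHom _ (SplitMod u)) (g • z)).c = g • ((L : CHom _ (SplitMod u)) z).c
        rw [(CHom.fixed_iff (L : CHom (Ind G (M →₀ ℤ)) (SplitMod u))).1 L.2, SplitMod.smul_c]
        simp [hLf z]
      · exact congrArg (fun w : CHom (kerOf (freeCover G M)) (SplitMod u) => (w r).c) hL
  have hh : Function.Bijective (postHom (A := M) (splitIncl u)) := by
    refine ⟨fun a b h => Subtype.ext (CHom.ext' fun m => splitIncl_injective
      (congrArg (fun z : homG G M (SplitMod u) => (z : CHom M (SplitMod u)) m) h)), fun w => ?_⟩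
    have hwf : ∀ m, ((w : CHom M (SplitMod u)) m).f = 0 := fun m => hzero _ (by
      rw [← map_nsmul, ZModModule.char_nsmul_eq_zero, map_zero]; rfl)
    exact ⟨⟨⟨(SplitMod.cHom : SplitMod u →+ C).comp (w : CHom M (SplitMod u)).hom⟩,
      (CHom.fixed_iff _).2 fun g m => by
        show ((w : CHom M (SplitMod u)) (g • m)).c = g • ((w : CHom M (SplitMod u)) m).c
        rw [(CHom.fixed_iff (w : CHom M (SplitMod u))).1 w.2, SplitMod.smul_c]
        simp [hwf m]⟩, Subtype.ext (CHom.ext' fun m => SplitMod.ext rfl (hwf m).symm)⟩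
  have hfin : Finite (Coh1 (freeCover G M) C) := Finite.of_injective φ hφ
  refine ⟨hfin, Finite.of_injective _ hh.1, ?_⟩
  -- the connecting map
  let Ψ : Coh1 (freeCover G M) (SplitMod u) →+ (M →+ ZMod p) :=
    QuotientAddGroup.lift _ (augVal p M u) fun η hη => augVal_eq_zero_of_res p hη
  have hle : φ.range ≤ Ψ.ker := by
    rintro _ ⟨x, rfl⟩
    induction x using QuotientAddGroup.induction_on with
    | H y =>
      show D.dlt p _ = 0
      rw [show (SplitMod.fHom 1).comp
          (postHom (splitIncl u) y : CHom (kerOf (freeCover G M)) (SplitMod u)).hom = 0 from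
        AddMonoidHom.ext fun r => rfl, map_zero]
  have h1 := dlog_ker_add_range p Ψ
  have h2 : dlog p (Coh1 (freeCover G M) C) ≤ dlog p Ψ.ker := by
    rw [dlog_congr p (AddMonoidHom.ofInjective hφ).toEquiv]
    exact dlog_mono p hle
  have h3 : dlog p M - dlog p (fixedSub G M) ≤ dlog p Ψ.range := by
    let lin : (M →+ ZMod p) ≃+ Module.Dual (ZMod p) M :=
      { toFun := fun χ => χ.toZModLinearMap p
        invFun := fun l => l.toAddMonoidHom
        left_inv := fun _ => rfl
        right_inv := fun _ => rfl
        map_add' := fun _ _ => rfl }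
    let T : Submodule (ZMod p) (Module.Dual (ZMod p) M) :=
      AddSubgroup.toZModSubmodule p (Ψ.range.map (lin : (M →+ ZMod p) →+ Module.Dual (ZMod p) M))
    let F : Submodule (ZMod p) M := AddSubgroup.toZModSubmodule p (fixedSub G M)
    have hTF : T.dualCoannihilator ≤ F := by
      intro m hm g
      rw [← sub_eq_zero]
      by_contra hne
      obtain ⟨l, hl⟩ : ∃ l : Module.Dual (ZMod p) M, l (g • m - m) ≠ 0 := by
        by_contra hcon
        push Not at hcon
        exact hne ((Module.forall_dual_apply_eq_zero_iff (ZMod p) _).1 hcon)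
      obtain ⟨η, hη⟩ := exists_augVal_eq (u := u) l.toAddMonoidHom g
      refine hl ?_
      have := (Submodule.mem_dualCoannihilator m).1 hm (lin (augVal p M u η))
        ⟨augVal p M u η, ⟨QuotientAddGroup.mk η, rfl⟩, rfl⟩
      rw [hη] at this
      rw [map_sub]
      exact this
    have hd : ∀ (V : Type) [AddCommGroup V] [Module (ZMod p) V] [Finite V],
        dlog p V = Module.finrank (ZMod p) V := fun V _ _ _ => by
      rw [dlog, Module.natCard_eq_pow_finrank (K := ZMod p), Nat.card_zmod,
        (Fact.out : p.Prime).factorization_pow, Finsupp.single_eq_same]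
    have : Finite (Module.Dual (ZMod p) M) :=
      Finite.of_injective (fun l : Module.Dual (ZMod p) M => (l : M → ZMod p))
        DFunLike.coe_injective
    rw [dlog_congr p (Ψ.range.equivMapOfInjective (lin : (M →+ ZMod p) →+ Module.Dual (ZMod p) M) lin.injective).toEquiv,
      show dlog p (fixedSub G M) = dlog p F from rfl,
      show dlog p (Ψ.range.map (lin : (M →+ ZMod p) →+ Module.Dual (ZMod p) M)) = dlog p T from rfl,
      hd M, hd F, hd T]
    have e1 := Subspace.finrank_add_finrank_dualCoannihilator_eq T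
    have e2 := Submodule.finrank_mono hTF
    omega
  have h4 : dlog p (homG G M C) = dlog p (homG G M (SplitMod u)) :=
    dlog_congr p (Equiv.ofBijective _ hh)
  simp only [euler]
  linarith

omit [DistribMulAction G C] [IsTwoCocycle u] in
lemma SplitMod.sum_f_eq_zero (x : SplitMod u) : ∑ h : G, x.f h = 0 := x.hf

/-- For a class module the connecting values kill the invariants. -/
lemma augVal_apply_fixed (hu : IsPClassModule p G C u)
    (η : homG G (kerOf (freeCover G M)) (SplitMod u)) {m : M} (hm : ∀ g : G, g • m = m) :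
    augVal p M u η m = 0 := by
  classical
  have := Fintype.ofFinite M
  let D := freePres G M
  let P : Sylow p G := default
  show D.dlt p _ m = 0
  rw [D.dlt_apply _ (D.π_sec m)]
  let x0 : SplitMod u := (η : CHom (kerOf (freeCover G M)) (SplitMod u)) (D.pR p (D.sec m))
  have hd : ∀ g : G, ∃ r, D.i r = g • D.sec m - D.sec m := fun g => (D.exact _).1 (by
    rw [map_sub, map_smul, D.π_sec, hm g, sub_self])
  choose r hr using hd
  let c : G → SplitMod u := fun g => (η : CHom (kerOf (freeCover G M)) (SplitMod u)) (r g)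
  have hc : ∀ g, g • x0 - x0 = p • c g := fun g => by
    simp only [x0, c]
    rw [← (CHom.fixed_iff (η : CHom (kerOf (freeCover G M)) (SplitMod u))).1 η.2, ← D.pR_smul,
      ← map_sub, ← map_sub, ← map_nsmul, ← D.pR_i (p := p), hr g]
  have hcoc : ∀ g h, c (g * h) = g • c h + c g := fun g h => by
    simp only [c]
    rw [← (CHom.fixed_iff (η : CHom (kerOf (freeCover G M)) (SplitMod u))).1 η.2, ← map_add]
    refine congrArg _ (D.i_inj ?_)
    rw [map_add, map_smul, hr, hr, hr, smul_sub, mul_smul]
    abel
  obtain ⟨z, hz⟩ := S55.acyclic_h1 (SplitMod.acyclic hu P.isPGroup')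
    (fun h : (P : Subgroup G) => c (h : G)) (funext fun ⟨g, h⟩ => by
      show (g : G) • c (h : G) - c ((g : G) * (h : G)) + c (g : G) = 0
      rw [hcoc]; abel)
  -- `x0 - p z` is fixed by the Sylow subgroup
  let y : G → ℤ := (x0 - p • z).f
  have hy : ∀ (h : (P : Subgroup G)) (τ : G), y ((h : G)⁻¹ * τ) = y τ := fun h τ => by
    have e : (h : G) • (x0 - p • z) = x0 - p • z := by
      have e1 := hc h
      have e2 : (h : G) • z - z = c h := congrFun hz h
      rw [← e2, smul_sub, smul_comm p (h : G) z] at e1
      rw [← sub_eq_zero, smul_sub, ← sub_eq_zero.2 e1]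
      abel
    exact congrArg (fun w : SplitMod u => w.f τ) e
  have hyp : ∀ τ, ((y τ : ℤ) : ZMod p) = (x0.f τ : ZMod p) := fun τ => by
    simp only [y, SplitMod.sub_f, Pi.sub_apply, SplitMod.nsmul_f]
    simp
  have hconst : ∀ τ : G, ((x0.f τ : ℤ) : ZMod p) = (x0.f 1 : ZMod p) := fun τ => by
    have e := congrArg (fun w : SplitMod u => w.f τ) (hc τ)
    simp only [SplitMod.sub_f, Pi.sub_apply, SplitMod.smul_f, inv_mul_cancel, SplitMod.nsmul_f] at e
    have := congrArg (fun n : ℤ => (n : ZMod p)) e
    simp only [Int.cast_sub, Int.cast_mul, Int.cast_natCast, ZMod.natCast_self, zero_mul,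
      sub_eq_zero] at this
    exact this.symm
  -- the sum over the cosets vanishes
  let e := (Subgroup.groupEquivQuotientProdSubgroup (s := (P : Subgroup G)))
  let Q := Quotient (QuotientGroup.rightRel (P : Subgroup G))
  have : Fintype Q := Fintype.ofFinite Q
  have hsum : ∑ τ : G, y τ = (Nat.card (P : Subgroup G) : ℤ) * ∑ q : Q, y q.out := by
    rw [← Finset.sum_fiberwise Finset.univ (Quotient.mk (QuotientGroup.rightRel (P : Subgroup G))) y,
      Finset.mul_sum]
    refine Finset.sum_congr rfl fun q _ => ?_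
    rw [Finset.sum_congr rfl (g := fun _ => y q.out) fun τ hτ => ?_, Finset.sum_const, nsmul_eq_mul]
    · congr 1
      rw [Nat.card_eq_fintype_card, ← Finset.card_univ]
      norm_cast
      refine Finset.card_bij' (fun τ hτ => ⟨τ * q.out⁻¹, ?_⟩) (fun h _ => (h : G) * q.out)
        (fun _ _ => Finset.mem_univ _) (fun h _ => Finset.mem_filter.2 ⟨Finset.mem_univ _, ?_⟩)
        (fun τ _ => inv_mul_cancel_right τ _) (fun h _ => Subtype.ext (mul_inv_cancel_right _ _))
      · refine QuotientGroup.rightRel_apply.1 (Quotient.exact ?_)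
        rw [Quotient.out_eq, (Finset.mem_filter.1 hτ).2]
      · conv_rhs => rw [← Quotient.out_eq q]
        exact Quotient.sound (QuotientGroup.rightRel_apply.2 (by simp))
    · have hmem : τ * q.out⁻¹ ∈ (P : Subgroup G) := by
        refine QuotientGroup.rightRel_apply.1 (Quotient.exact ?_)
        rw [Quotient.out_eq, (Finset.mem_filter.1 hτ).2]
      have := hy ⟨_, hmem⟩ τ
      rw [← this]
      simp
  rw [show ∑ τ : G, y τ = 0 from (x0 - p • z).hf, eq_comm, mul_eq_zero] at hsum
  have h0 := congrArg (fun n : ℤ => (n : ZMod p))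
    (hsum.resolve_left (Int.natCast_ne_zero.2 Nat.card_pos.ne'))
  simp only [Int.cast_sum, Int.cast_zero, hyp, hconst, Finset.sum_const, nsmul_eq_mul,
    Finset.card_univ] at h0
  refine (mul_eq_zero.1 h0).resolve_left fun h => P.not_dvd_index ?_
  rw [← ZMod.natCast_eq_zero_iff, ← h, Subgroup.index, ← Nat.card_eq_fintype_card,
    Nat.card_congr (QuotientGroup.quotientRightRelEquivQuotientLeftRel (P : Subgroup G))]

/-- **The splitting step for a class module.** -/
theorem euler_eq_splitMod (hu : IsPClassModule p G C u)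
    [Finite (Coh1 (freeCover G M) (SplitMod u))] [Finite (homG G M (SplitMod u))] :
    euler p (freeCover G M) C =
      euler p (freeCover G M) (SplitMod u) - (dlog p M - dlog p (fixedSub G M)) := by
  classical
  have := Fintype.ofFinite M
  obtain ⟨hfin, hfin0, hle⟩ := euler_le_splitMod (p := p) (u := u) (M := M) (C := C)
  refine le_antisymm hle ?_
  let D := freePres G M
  let φ := postCoh (M := M) (splitIncl u)
  let Ψ : Coh1 (freeCover G M) (SplitMod u) →+ (M →+ ZMod p) :=
    QuotientAddGroup.lift _ (augVal p M u) fun η hη => augVal_eq_zero_of_res p hη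
  have hker : Ψ.ker ≤ φ.range := by
    intro x hx
    induction x using QuotientAddGroup.induction_on with
    | H η =>
      let η' : CHom (kerOf (freeCover G M)) (SplitMod u) := η
      obtain ⟨ψ, hψ⟩ := D.exists_of_dlt_eq_zero (p := p) (φ := (SplitMod.fHom 1).comp η'.hom) hx
      have hψr : ∀ r, ψ (D.i r) = (η' r).f 1 := fun r => DFunLike.congr_fun hψ r
      have hfη : ∀ r τ, (η' r).f τ = ψ (τ⁻¹ • D.i r) := fun r τ => by
        rw [← map_smul, hψr, (CHom.fixed_iff η').1 η.2, SplitMod.smul_f, inv_inv, mul_one]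
      have hψsum : ∀ z, ∑ τ : G, ψ (τ⁻¹ • z) = 0 := fun z => by
        have h := (η' (D.pR p z)).hf
        simp only [hfη, D.i_pR, smul_comm _ p z, map_nsmul, ← Finset.smul_sum] at h
        exact (smul_eq_zero.1 h).resolve_left (Fact.out : p.Prime).ne_zero
      let L0 : CHom (Ind G (M →₀ ℤ)) (SplitMod u) :=
        ⟨AddMonoidHom.mk' (fun z => ⟨0, fun τ => ψ (τ⁻¹ • Ind.single 1 (z.val 1)), hψsum _⟩)
          fun a b => SplitMod.ext (add_zero 0).symm (funext fun τ => by
            simp [map_add, smul_add])⟩
      let L : homG G (Ind G (M →₀ ℤ)) (SplitMod u) :=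
        ⟨normSum G L0, fun g => smul_normSum g L0⟩
      have hLf : ∀ z τ, ((L : CHom (Ind G (M →₀ ℤ)) (SplitMod u)) z).f τ = ψ (τ⁻¹ • z) := fun z τ => by
        show ((∑ g : G, g • L0 : CHom _ _) z).f τ = _
        rw [CHom.sum_apply, SplitMod.sum_f]
        conv_rhs => rw [Ind.eq_sum_single z, Finset.smul_sum, map_sum]
        refine Finset.sum_congr rfl fun g _ => ?_
        rw [CHom.smul_apply, SplitMod.smul_f]
        show ψ ((g⁻¹ * τ)⁻¹ • Ind.single 1 ((g⁻¹ • z).val 1)) = _
        rw [Ind.smul_apply, inv_inv, mul_one, mul_inv_rev, inv_inv, mul_smul, Ind.smul_single,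
          mul_one]
      let d : CHom (kerOf (freeCover G M)) (SplitMod u) :=
        η' - CHom.pre (kerIncl (freeCover G M)) (L : CHom (Ind G (M →₀ ℤ)) (SplitMod u))
      have hdf : ∀ r, (d r).f = 0 := fun r => funext fun τ => by
        show (η' r).f τ - ((L : CHom (Ind G (M →₀ ℤ)) (SplitMod u)) r).f τ = 0
        rw [hfη, hLf]
        exact sub_self _
      have hdfix : ∀ g : G, g • d = d := fun g => by
        simp only [d, smul_sub, ← map_smul, L.2 g]
        exact congrArg (· - _) (η.2 g)
      refine ⟨QuotientAddGroup.mk ⟨⟨(SplitMod.cHom : SplitMod u →+ C).comp d.hom⟩,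
        (CHom.fixed_iff _).2 fun g r => ?_⟩, ?_⟩
      · show (d (g • r)).c = g • (d r).c
        rw [(CHom.fixed_iff d).1 hdfix, SplitMod.smul_c]
        simp [hdf r]
      · refine QuotientAddGroup.eq.2 (mem_resRange.2 ⟨L, CHom.ext' fun r => ?_⟩)
        show (L : CHom (Ind G (M →₀ ℤ)) (SplitMod u)) r = -SplitMod.incl (d r).c + η' r
        rw [show SplitMod.incl (d r).c = d r from SplitMod.ext rfl (hdf r).symm]
        show _ = -(η' r - (L : CHom (Ind G (M →₀ ℤ)) (SplitMod u)) r) + η' r
        abel
  have h1 := dlog_ker_add_range p Ψ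
  have : Finite φ.range := Finite.of_surjective _ φ.rangeRestrict_surjective
  have h2 : dlog p Ψ.ker ≤ dlog p (Coh1 (freeCover G M) C) := by
    have := dlog_ker_add_range p φ
    have := dlog_nonneg p φ.ker
    have := dlog_mono p hker
    linarith
  have h3 : dlog p Ψ.range ≤ dlog p M - dlog p (fixedSub G M) := by
    let F : Submodule (ZMod p) M := AddSubgroup.toZModSubmodule p (fixedSub G M)
    have hd : ∀ (V : Type) [AddCommGroup V] [Module (ZMod p) V] [Finite V],
        dlog p V = Module.finrank (ZMod p) V := fun V _ _ _ => by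
      rw [dlog, Module.natCard_eq_pow_finrank (K := ZMod p), Nat.card_zmod,
        (Fact.out : p.Prime).factorization_pow, Finsupp.single_eq_same]
    have : Finite (Module.Dual (ZMod p) M) :=
      Finite.of_injective (fun l : Module.Dual (ZMod p) M => (l : M → ZMod p))
        DFunLike.coe_injective
    let lin : (M →+ ZMod p) ≃+ Module.Dual (ZMod p) M :=
      { toFun := fun χ => χ.toZModLinearMap p
        invFun := fun l => l.toAddMonoidHom
        left_inv := fun _ => rfl
        right_inv := fun _ => rfl
        map_add' := fun _ _ => rfl }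
    have hsub : Ψ.range.map (lin : (M →+ ZMod p) →+ Module.Dual (ZMod p) M) ≤
        F.dualAnnihilator.toAddSubgroup := by
      rintro _ ⟨_, ⟨x, rfl⟩, rfl⟩
      induction x using QuotientAddGroup.induction_on with
      | H η =>
        rw [Submodule.mem_toAddSubgroup, Submodule.mem_dualAnnihilator]
        exact fun m hm => augVal_apply_fixed hu η hm
    rw [dlog_congr p (Ψ.range.equivMapOfInjective
        (lin : (M →+ ZMod p) →+ Module.Dual (ZMod p) M) lin.injective).toEquiv,
      show dlog p (fixedSub G M) = dlog p F from rfl, hd M, hd F]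
    refine (dlog_mono p hsub).trans ?_
    rw [show dlog p F.dualAnnihilator.toAddSubgroup = dlog p F.dualAnnihilator from rfl,
      hd F.dualAnnihilator]
    have := Subspace.finrank_add_finrank_dualAnnihilator_eq F
    omega
  have hinj : Function.Injective (postHom (A := M) (splitIncl u)) := fun a b h =>
    Subtype.ext (CHom.ext' fun m => splitIncl_injective
      (congrArg (fun z : homG G M (SplitMod u) => (z : CHom M (SplitMod u)) m) h))
  have h4 : dlog p (homG G M C) ≤ dlog p (homG G M (SplitMod u)) := by
    rw [dlog_congr p (AddMonoidHom.ofInjective hinj).toEquiv]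
    have := dlog_subgroup_add_quot p (postHom (A := M) (splitIncl u)).range
    have := dlog_nonneg p (homG G M (SplitMod u) ⧸ (postHom (A := M) (splitIncl u)).range)
    linarith
  simp only [euler]
  linarith

end Fermat.Agent.ClassField.GW

end
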